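import Mathlib
import Fermat.Agent.LT.Theta.Chain
import Fermat.Agent.LT.Whit.Local

/-!
# Integration over the completion at a place, inside the field

The balls at a place form an exhaustive chain of constant index in the field, so locally constant
functions supported in a ball have an integral, normalised so that the unit ball has volume one.
-/

set_option autoImplicit false

noncomputable section

open IsDedekindDomain NumberField WithZero

namespace FermatAgent.LT2.Cusp

open FermatAgent.LT FermatAgent.LT.Theta

variable {L : Type*} [Field L] [NumberField L] (v : HeightOneSpectrum (𝓞 L))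

/-- The ball of radius `exp n`. -/
def vball (n : ℤ) : AddSubgroup L where
  carrier := {x | v.valuation L x ≤ exp n}
  zero_mem' := by simp
  add_mem' := fun hx hy => ((v.valuation L).map_add _ _).trans (max_le hx hy)
  neg_mem' := fun hx => by simpa using hx

/-- Membership in a ball of the field. -/
lemma mem_vball {n : ℤ} {x : L} : x ∈ vball v n ↔ v.valuation L x ≤ exp n := Iff.rfl

/-- A uniformiser. -/
def vunif : L := (v.valuation_exists_uniformizer L).choose

/-- The value of the uniformiser. -/
lemma val_vunif : v.valuation L (vunif v) = exp (-1 : ℤ) :=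
  (v.valuation_exists_uniformizer L).choose_spec

/-- The uniformiser is nonzero. -/
lemma vunif_ne_zero : vunif v ≠ 0 := fun h => exp_ne_zero (a := (-1 : ℤ)) (by
  rw [← val_vunif v, h, map_zero])

/-- The values of powers of the uniformiser. -/
lemma val_vunif_zpow (n : ℤ) : v.valuation L (vunif v ^ n) = exp (-n) := by
  rw [map_zpow₀, val_vunif, ← exp_zsmul]
  simp

/-- Nonzero elements have integral exponent values. -/
lemma exists_val_eq {x : L} (hx : x ≠ 0) : ∃ n : ℤ, v.valuation L x = exp n :=
  ⟨log (v.valuation L x), (exp_log ((Valuation.ne_zero_iff _).2 hx)).symm⟩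

lemma vball_index (k : ℤ) :
    (vball v (-(k + 1))).relIndex (vball v (-k)) = v.asIdeal.absNorm := by
  classical
  set H := (vball v (-(k + 1))).addSubgroupOf (vball v (-k))
  have hR := Whit.isResidues v
  have hmem : ∀ t ∈ Whit.residues v, vunif v ^ k * t ∈ vball v (-k) := fun t ht => by
    rw [mem_vball, map_mul, val_vunif_zpow]
    exact mul_le_of_le_one_right zero_le (hR.le_one t ht)
  let f : Whit.residues v → vball v (-k) ⧸ H := fun t =>
    QuotientAddGroup.mk ⟨vunif v ^ k * t.1, hmem t.1 t.2⟩
  have key : ∀ x y : L, v.valuation L (vunif v ^ k * x - vunif v ^ k * y) ≤ exp (-(k + 1)) ↔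
      v.valuation L (x - y) < 1 := by
    intro x y
    rw [← mul_sub, map_mul, val_vunif_zpow]
    rcases eq_or_ne (x - y) 0 with h | h
    · simp [h]
    obtain ⟨n, hn⟩ := exists_val_eq v h
    rw [hn, ← exp_add, exp_le_exp, ← exp_zero, exp_lt_exp]
    omega
  have hf : Function.Bijective f := by
    constructor
    · rintro ⟨s, hs⟩ ⟨t, ht⟩ h
      have h' := (AddSubgroup.mem_addSubgroupOf).1 (QuotientAddGroup.eq.1 h)
      refine Subtype.ext (hR.unique s hs t ht ?_)
      rw [Valuation.map_sub_swap, ← key]
      simpa [mem_vball, neg_add_eq_sub] using h'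
    · intro c
      induction c using QuotientAddGroup.induction_on with
      | _ x =>
        have hx : v.valuation L (vunif v ^ (-k) * x.1) ≤ 1 := by
          rw [map_mul, val_vunif_zpow, neg_neg]
          calc exp k * v.valuation L x.1 ≤ exp k * exp (-k) := mul_le_mul' le_rfl x.2
            _ = 1 := by rw [← exp_add, add_neg_cancel, exp_zero]
        obtain ⟨t, ht, hlt⟩ := hR.exists_mem _ hx
        refine ⟨⟨t, ht⟩, QuotientAddGroup.eq.2 (AddSubgroup.mem_addSubgroupOf.2 ?_)⟩
        rw [← key, ← mul_assoc, ← zpow_add₀ (vunif_ne_zero v), add_neg_cancel, zpow_zero,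
          one_mul] at hlt
        simpa [mem_vball, neg_add_eq_sub] using hlt
  rw [AddSubgroup.relIndex, AddSubgroup.index, ← Nat.card_eq_of_bijective f hf,
    Nat.card_eq_fintype_card, Fintype.card_coe, Whit.card_residues]

/-- The chain of balls at a place. -/
def chainV : LatticeChain L where
  L k := vball v (-k)
  Q := v.asIdeal.absNorm
  anti k x hx := (mem_vball v).2 (le_trans ((mem_vball v).1 hx) (exp_le_exp.2 (by omega)))
  index := vball_index v
  Q_pos := zero_lt_one.trans (HeightOneSpectrum.one_lt_absNorm v)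
  exhaust x := by
    rcases eq_or_ne x 0 with rfl | h
    · exact ⟨0, by simp⟩
    obtain ⟨n, hn⟩ := exists_val_eq v h
    exact ⟨-n, by rw [mem_vball, hn, neg_neg]⟩

/-- Membership in the balls of the chain. -/
lemma mem_chainV {k : ℤ} {x : L} : x ∈ (chainV v).L k ↔ v.valuation L x ≤ exp (-k) := Iff.rfl

/-- A function vanishing outside some ball and periodic under some ball. -/
lemma mem_schwartz_chainV {f : L → ℂ} {γ : WithZero (Multiplicative ℤ)} (hγ : γ ≠ 0) {R : ℤ}
    (hper : ∀ x a, v.valuation L a ≤ γ → f (x + a) = f x)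
    (hsupp : ∀ x, f x ≠ 0 → v.valuation L x ≤ exp R) :
    f ∈ (chainV v).schwartz := by
  refine LatticeChain.mem_schwartz (m := -R) (n := -log γ)
    (fun x a ha => hper x a ?_) fun x hx => ?_
  · rwa [mem_chainV, neg_neg, exp_log hγ] at ha
  · by_contra h
    exact hx (by rw [mem_chainV, neg_neg]; exact hsupp x h)

/-- Finitely many classes of a ball modulo a smaller one. -/
lemma finite_translates {α : Type*} (F : L → α) {γ : WithZero (Multiplicative ℤ)} (hγ : γ ≠ 0)
    (hF : ∀ x a, v.valuation L a ≤ γ → F (x + a) = F x) (R : ℤ) :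
    (F '' {x | v.valuation L x ≤ exp R}).Finite := by
  set n := max (-R) (-log γ)
  refine ((LatticeChain.finite_image_mk (C := chainV v) (m := -R) (n := n) (le_max_left _ _)).image
    (fun c => F c.out)).subset ?_
  rintro _ ⟨x, hx, rfl⟩
  refine ⟨QuotientAddGroup.mk x, ⟨x, by simpa [mem_chainV] using hx, rfl⟩, ?_⟩
  set c := (QuotientAddGroup.mk x : L ⧸ (chainV v).L n).out
  have hc : -x + c ∈ (chainV v).L n := QuotientAddGroup.eq.1 (QuotientAddGroup.out_eq' _).symm
  have : F (x + (-x + c)) = F x := hF x _ (le_trans ((mem_chainV v).1 hc) (by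
    rw [← exp_log hγ, exp_le_exp]
    have := le_max_right (-R) (-log γ)
    omega))
  simpa using this

end FermatAgent.LT2.Cusp

namespace FermatAgent.LT2.Cusp

open FermatAgent.LT FermatAgent.LT.Theta IsDedekindDomain NumberField WithZero

variable {L : Type*} [Field L] [NumberField L] (v : HeightOneSpectrum (𝓞 L))

/-- The integral of a function of the size of its argument. -/
theorem integ_radial {f : L → ℂ} (ψ : ℕ → ℂ) {N : ℕ} (hN : ∀ j, N ≤ j → ψ j = 0) (M : ℤ)
    (hf : ∀ x (j : ℕ), v.valuation L x ≤ exp (M + j) →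
      (∀ i : ℕ, i < j → ¬ v.valuation L x ≤ exp (M + i)) → f x = ψ j) :
    (chainV v).integ f =
      ∑ j ∈ Finset.range N, (v.asIdeal.absNorm : ℂ) ^ (M + (j : ℤ)) * (ψ j - ψ (j + 1)) := by
  classical
  set C := chainV v
  have hdec : f = fun x => ∑ j ∈ Finset.range N, (ψ j - ψ (j + 1)) * C.ind (-(M + (j : ℤ))) x := by
    funext x
    obtain ⟨j₀, hj₀⟩ : ∃ j : ℕ, v.valuation L x ≤ exp (M + (j : ℤ)) := by
      rcases eq_or_ne x 0 with rfl | h
      · exact ⟨0, by simp⟩
      obtain ⟨n, hn⟩ := exists_val_eq v h
      exact ⟨(n - M).toNat, by rw [hn, exp_le_exp]; omega⟩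
    set hex : ∃ j : ℕ, v.valuation L x ≤ exp (M + (j : ℤ)) := ⟨j₀, hj₀⟩
    set j := Nat.find hex
    rw [hf x j (Nat.find_spec hex) fun i hi => Nat.find_min hex hi]
    have hind : ∀ i : ℕ, C.ind (-(M + (i : ℤ))) x = if j ≤ i then 1 else 0 := fun i => by
      by_cases hi : j ≤ i
      · have : x ∈ C.L (-(M + (i : ℤ))) := by
          rw [mem_chainV, neg_neg]
          exact (Nat.find_spec hex).trans (exp_le_exp.2 (by omega))
        simp only [LatticeChain.ind, Set.indicator_of_mem (SetLike.mem_coe.2 this), if_pos hi]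
      · have : x ∉ C.L (-(M + (i : ℤ))) := by
          rw [mem_chainV, neg_neg]
          exact Nat.find_min hex (not_le.1 hi)
        simp only [LatticeChain.ind, Set.indicator_of_notMem (mt SetLike.mem_coe.1 this), if_neg hi]
    simp only [hind, mul_ite, mul_one, mul_zero]
    have htel : ∀ K : ℕ, (∑ i ∈ Finset.range K, if j ≤ i then ψ i - ψ (i + 1) else 0) =
        if j ≤ K then ψ j - ψ K else 0 := by
      intro K
      induction K with
      | zero =>
        by_cases h : j = 0 <;> simp [h]
      | succ K ih =>
        rw [Finset.sum_range_succ, ih]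
        by_cases h : j ≤ K
        · rw [if_pos h, if_pos h, if_pos (by omega)]; ring
        · rw [if_neg h, if_neg h, zero_add]
          by_cases h' : j ≤ K + 1
          · rw [if_pos h', show j = K + 1 by omega, sub_self]
          · rw [if_neg h']
    rw [htel N]
    split_ifs with h
    · rw [hN N le_rfl, sub_zero]
    · exact hN j (by omega)
  conv_lhs => rw [hdec]
  rw [LatticeChain.integ_sum]
  · refine Finset.sum_congr rfl fun j _ => ?_
    rw [LatticeChain.integ_smul (C.ind_mem_schwartz _), LatticeChain.integ_ind, ← zpow_neg, neg_neg,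
      mul_comm]
    rfl
  · intro j _
    exact C.schwartz.smul_mem (ψ j - ψ (j + 1)) (C.ind_mem_schwartz (-(M + (j : ℤ))))

end FermatAgent.LT2.Cusp
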