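import Mathlib
import Fermat.Agent.LT.Descent.KerPair
import Fermat.Agent.LT2.Cusp.Chain
import Fermat.Agent.LT.Whit.Hecke
import Fermat.Agent.LT.Descent.CuspKer

/-!
# Horocyclic integrals of the finite part of a product kernel

The sum of the finite part over the translations modulo a small lattice is a product of local
integrals, up to the volume of the lattice.
-/

set_option autoImplicit false

noncomputable section

open Matrix IsDedekindDomain NumberField Filter WithZero
open scoped MatrixGroups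

namespace FermatAgent.LT2.Cusp

open FermatAgent.LT FermatAgent.LT.Theta

variable {L : Type*} [Field L] [NumberField L] {U : Level L}

/-- The local horocyclic integral. -/
def lint {v : HeightOneSpectrum (𝓞 L)} (A : LocKer U v) (c e : G2 L ⧸ U.loc v) : ℂ :=
  (chainV v).integ fun β => A.k c ((ProjGenLinGroup.mk (uB β) : G2 L) • e)

/-- Translations moving a coset into a finite set are bounded. -/
lemma exists_translate_bound {v : HeightOneSpectrum (𝓞 L)} (e : G2 L ⧸ U.loc v)
    {T : Set (G2 L ⧸ U.loc v)} (hT : T.Finite) :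
    ∃ R : ℤ, ∀ β : L, (ProjGenLinGroup.mk (uB β) : G2 L) • e ∈ T →
      v.valuation L β ≤ exp R := by
  classical
  choose h hh using fun d : G2 L ⧸ U.loc v =>
    (QuotientGroup.mk_surjective d).imp fun _ h => h
  choose g hg using fun x : G2 L => ProjGenLinGroup.mk_surjective x
  let C : ℝ := ∑ d ∈ hT.toFinset, gNorm v (g (h d)) * gNorm v (g (h e))⁻¹
  obtain ⟨R, hR⟩ := pow_unbounded_of_one_lt C
    (show (1 : ℝ) < v.asIdeal.absNorm from by exact_mod_cast HeightOneSpectrum.one_lt_absNorm v)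
  refine ⟨R, fun β hβ => ?_⟩
  set d := (ProjGenLinGroup.mk (uB β) : G2 L) • e
  have hk : (g (h d))⁻¹ * uB β * g (h e) ∈ (U.loc v).comap ProjGenLinGroup.mk := by
    rw [Subgroup.mem_comap, map_mul, map_mul, map_inv, hg, hg, mul_assoc, ← QuotientGroup.eq, hh d,
      ← smul_eq_mul, ← MulAction.Quotient.smul_mk, hh e]
  obtain ⟨k, hk', hkk⟩ := U.le v hk
  rw [Matrix.ProjGenLinGroup.mk_eq_mk_iff] at hkk
  obtain ⟨u, hu⟩ := hkk
  have e1 : uB β = g (h d) * (k * GeneralLinearGroup.scalar (Fin 2) u) * (g (h e))⁻¹ := by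
    rw [hu]; group
  have h1 : absV v β ≤ C := by
    refine le_trans (le_of_eq ?_) ((absV_adCoord_le v (uB β) ((0, 1), (1, 1))).trans ?_)
    · simp [adCoord, Matrix.det_fin_two]
    refine le_trans ?_ (Finset.single_le_sum
      (f := fun d => gNorm v (g (h d)) * gNorm v (g (h e))⁻¹)
      (fun d _ => mul_nonneg (gNorm_nonneg v _) (gNorm_nonneg v _)) (hT.mem_toFinset.2 hβ))
    rw [e1]
    refine (gNorm_mul v _ _).trans (mul_le_mul_of_nonneg_right ?_ (gNorm_nonneg v _))
    refine (gNorm_mul v _ _).trans (mul_le_of_le_one_right (gNorm_nonneg v _) ?_)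
    exact (gNorm_mul v _ _).trans (by rw [gNorm_scalar, mul_one]; exact gNorm_le_one v hk')
  rcases eq_or_ne β 0 with rfl | hβ0
  · simp
  obtain ⟨n, hn⟩ := exists_val_eq v hβ0
  rw [hn, exp_le_exp]
  rw [absV, HeightOneSpectrum.adicAbv_def, hn,
    WithZeroMulInt.toNNReal_neg_apply _ WithZero.exp_ne_zero] at h1
  simp [WithZero.exp] at h1
  have h2 := h1.trans hR.le
  rw [← zpow_natCast] at h2
  exact (zpow_le_zpow_iff_right₀ (by exact_mod_cast HeightOneSpectrum.one_lt_absNorm v)).1 h2

/-- The support of a horocyclic function is bounded. -/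
lemma exists_support_bound {v : HeightOneSpectrum (𝓞 L)} (A : LocKer U v)
    (c e : G2 L ⧸ U.loc v) :
    ∃ R : ℤ, ∀ β : L, A.k c ((ProjGenLinGroup.mk (uB β) : G2 L) • e) ≠ 0 →
      v.valuation L β ≤ exp R :=
  exists_translate_bound e (A.row c)

/-- Translations fixing a coset can be dropped. -/
lemma uB_add_smul {v : HeightOneSpectrum (𝓞 L)} {x a : L} {e : G2 L ⧸ U.loc v}
    (ha : (ProjGenLinGroup.mk (uB a) : G2 L) • e = e) :
    (ProjGenLinGroup.mk (uB (x + a)) : G2 L) • e = (ProjGenLinGroup.mk (uB x) : G2 L) • e := by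
  rw [uB_add, map_mul, mul_smul, ha]

/-- The horocyclic function is a Schwartz-Bruhat function. -/
lemma mem_schwartz_horo (hU : U.IsCongr) {v : HeightOneSpectrum (𝓞 L)} (A : LocKer U v)
    (c e : G2 L ⧸ U.loc v) :
    (fun β => A.k c ((ProjGenLinGroup.mk (uB β) : G2 L) • e)) ∈ (chainV v).schwartz := by
  obtain ⟨γ, hγ0, hγ⟩ := exists_fix_bound hU v e
  obtain ⟨R, hR⟩ := exists_support_bound A c e
  exact mem_schwartz_chainV v hγ0 (fun x a ha => by
    show A.k c _ = A.k c _
    rw [uB_add_smul (hγ a ha)]) hR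

/-- The horocyclic integral does not change under translations. -/
lemma lint_translate (hU : U.IsCongr) {v : HeightOneSpectrum (𝓞 L)} (A : LocKer U v)
    (c e : G2 L ⧸ U.loc v) (δ : L) :
    lint A c ((ProjGenLinGroup.mk (uB δ) : G2 L) • e) = lint A c e := by
  unfold lint
  rw [show (fun β => A.k c ((ProjGenLinGroup.mk (uB β) : G2 L) •
      (ProjGenLinGroup.mk (uB δ) : G2 L) • e)) =
    fun β => A.k c ((ProjGenLinGroup.mk (uB (β + δ)) : G2 L) • e) from funext fun β => by
      rw [uB_add, map_mul, mul_smul]]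
  exact LatticeChain.integ_comp_add
    (f := fun β => A.k c ((ProjGenLinGroup.mk (uB β) : G2 L) • e)) (mem_schwartz_horo hU A c e) δ

lemma uB_smul_base_iff {v : HeightOneSpectrum (𝓞 L)} (hv : U.loc v = locK v) (β : L) :
    (ProjGenLinGroup.mk (uB β) : G2 L) • (QuotientGroup.mk 1 : G2 L ⧸ U.loc v) =
      QuotientGroup.mk 1 ↔ v.valuation L β ≤ 1 := by
  rw [MulAction.Quotient.smul_mk, smul_eq_mul, mul_one, QuotientGroup.eq, mul_one, inv_mem_iff, hv]
  exact Whit.mk_uB_mem_locK_iff v

/-- The local integral of one at a maximal level. -/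
lemma lint_base {v : HeightOneSpectrum (𝓞 L)} (hv : U.loc v = locK v) :
    lint (1 : LocKer U v) (QuotientGroup.mk 1) (QuotientGroup.mk 1) = 1 := by
  classical
  unfold lint
  rw [show (fun β => (1 : LocKer U v).k (QuotientGroup.mk 1)
      ((ProjGenLinGroup.mk (uB β) : G2 L) • QuotientGroup.mk 1)) = (chainV v).ind 0 from
    funext fun β => by
      rw [LocKer.one_k, if_congr (eq_comm.trans (uB_smul_base_iff hv β)) rfl rfl]
      by_cases h : v.valuation L β ≤ 1
      · rw [if_pos h, LatticeChain.ind, Set.indicator_of_mem]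
        exact (mem_chainV v).2 (by simpa using h)
      · rw [if_neg h, LatticeChain.ind, Set.indicator_of_notMem]
        exact fun hm => h (by simpa using (mem_chainV v).1 hm),
    LatticeChain.integ_ind]
  simp

/-- The horocyclic integral of the finite part. -/
def hfun (D : KerData U) (c e : FinCoset U) : ℂ :=
  ∏ᶠ v : HeightOneSpectrum (𝓞 L), lint (D.fin v) (c.1 v) (e.1 v)

open Classical in
/-- The finite horocyclic integral is a finite product. -/
lemma hfun_eq_prod (D : KerData U) (c e : FinCoset U) {S : Finset (HeightOneSpectrum (𝓞 L))}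
    (hS : ∀ v ∉ S, D.fin v = 1 ∧ c.1 v = QuotientGroup.mk 1 ∧ e.1 v = QuotientGroup.mk 1 ∧
      U.loc v = locK v) :
    hfun D c e = ∏ v ∈ S, lint (D.fin v) (c.1 v) (e.1 v) := by
  refine finprod_eq_prod_of_mulSupport_subset _ fun v hv => ?_
  by_contra h
  obtain ⟨h1, h2, h3, h4⟩ := hS v h
  exact hv (show lint (D.fin v) (c.1 v) (e.1 v) = 1 by rw [h1, h2, h3, lint_base h4])

/-- The multiples of an integer. -/
def mLat (m : 𝓞 L) : AddSubgroup L where
  carrier := {x | ∀ v : HeightOneSpectrum (𝓞 L), v.valuation L x ≤ v.valuation L (m : L)}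
  zero_mem' := fun v => by simp
  add_mem' := fun hx hy v => ((v.valuation L).map_add _ _).trans (max_le (hx v) (hy v))
  neg_mem' := fun hx v => by simpa using hx v

/-- Multiples lie in the lattice of the multiplier. -/
lemma mul_mem_mLat (m a : 𝓞 L) : (m : L) * (a : L) ∈ mLat m := fun v => by
  rw [map_mul]; exact mul_le_of_le_one_right zero_le (v.valuation_le_one a)

/-- Elements of the lattice are multiples. -/
lemma exists_eq_of_mem_mLat {m : 𝓞 L} (hm : m ≠ 0) {x : L} (hx : x ∈ mLat m) :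
    ∃ a : 𝓞 L, x = (m : L) * (a : L) := by
  have hmL : (m : L) ≠ 0 := by simpa using hm
  obtain ⟨a, ha⟩ := HeightOneSpectrum.mem_integers_of_valuation_le_one L (x / (m : L)) fun v => by
    rw [map_div₀]
    exact (div_le_one₀ (zero_lt_iff.mpr (by simpa using hmL))).2 (hx v)
  refine ⟨a, ?_⟩
  rw [show (a : L) = x / (m : L) from ha]
  field_simp

/-- The inverse norm of an integer, as the product of the local indices. -/
def kappa (m : 𝓞 L) : ℂ := ((∏ᶠ v : HeightOneSpectrum (𝓞 L), (absV v (m : L))⁻¹ : ℝ) : ℂ)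

open Classical in
/-- Sums over the classes modulo the multiples of an integer split over the places. -/
theorem finsum_quot_eq_prod {m : 𝓞 L} (hm : m ≠ 0) (S : Finset (HeightOneSpectrum (𝓞 L)))
    (hS : ∀ v ∉ S, v.valuation L (m : L) = 1) (f : HeightOneSpectrum (𝓞 L) → L → ℂ)
    (hper : ∀ v ∈ S, ∀ x a, v.valuation L a ≤ v.valuation L (m : L) → f v (x + a) = f v x)
    (hsupp : ∀ v ∈ S, ∃ R : ℤ, ∀ x, f v x ≠ 0 → v.valuation L x ≤ exp R) :
    (Function.support fun r : L ⧸ mLat m =>
      if ∀ v ∉ S, v.valuation L r.out ≤ 1 then ∏ v ∈ S, f v r.out else 0).Finite ∧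
    ∑ᶠ r : L ⧸ mLat m, (if ∀ v ∉ S, v.valuation L r.out ≤ 1 then ∏ v ∈ S, f v r.out else 0) =
      kappa m * ∏ v ∈ S, (chainV v).integ (f v) := by
  have hmv : ∀ v : HeightOneSpectrum (𝓞 L), v.valuation L (m : L) ≠ 0 := fun v => by
    simpa using hm
  let n : HeightOneSpectrum (𝓞 L) → ℤ := fun v => -log (v.valuation L (m : L))
  have hn : ∀ v (x : L), x ∈ (chainV v).L (n v) ↔ v.valuation L x ≤ v.valuation L (m : L) := by
    intro v x
    rw [mem_chainV, neg_neg, exp_log (hmv v)]
  have hperC : ∀ v ∈ S, (chainV v).IsPeriodic (n v) (f v) := fun v hv x a ha =>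
    hper v hv x a ((hn v a).1 ha)
  choose! R hR using hsupp
  have hsupC : ∀ v ∈ S, (chainV v).IsSupported (-R v) (f v) := fun v hv x hx => by
    by_contra h
    exact hx (by rw [mem_chainV, neg_neg]; exact hR v hv x h)
  let T : (v : S) → Finset (L ⧸ (chainV v.1).L (n v.1)) := fun v =>
    (LatticeChain.finite_support_out (n := n v.1) (hsupC v.1 v.2)).toFinset
  choose rep hrep hrep' using fun c : (v : S) → L ⧸ (chainV v.1).L (n v.1) =>
    exists_strong_approx S (fun v => if h : v ∈ S then (c ⟨v, h⟩).out else 0)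
      (fun v => v.valuation L (m : L)) hmv
  let Ψ : ((v : S) → L ⧸ (chainV v.1).L (n v.1)) → L ⧸ mLat m := fun c =>
    QuotientAddGroup.mk (rep c)
  have hproj : ∀ c (v : S), (QuotientAddGroup.mk (Ψ c).out : L ⧸ (chainV v.1).L (n v.1)) = c v := by
    intro c v
    have h1 := hrep c v.1 v.2
    simp only [dif_pos v.2] at h1
    have h2 : -(Ψ c).out + rep c ∈ mLat m :=
      QuotientAddGroup.eq.1 (QuotientAddGroup.out_eq' (Ψ c))
    conv_rhs => rw [← QuotientAddGroup.out_eq' (c v)]
    rw [QuotientAddGroup.eq, hn, show -(Ψ c).out + (c v).out =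
      (-(Ψ c).out + rep c) - (rep c - (c v).out) by abel]
    exact ((v.1.valuation L).map_sub _ _).trans (max_le (h2 v.1) h1)
  have hΨ : Function.Injective Ψ := fun c c' h => funext fun v => by
    rw [← hproj c v, ← hproj c' v, h]
  let F : L ⧸ mLat m → ℂ := fun r =>
    if ∀ v ∉ S, v.valuation L r.out ≤ 1 then ∏ v ∈ S, f v r.out else 0
  have hFΨ : ∀ c, F (Ψ c) = ∏ v : S, f v.1 (c v).out := by
    intro c
    have h2 : -(Ψ c).out + rep c ∈ mLat m :=
      QuotientAddGroup.eq.1 (QuotientAddGroup.out_eq' (Ψ c))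
    show (if _ then _ else _) = _
    rw [if_pos fun v hv => ?_, ← Finset.prod_coe_sort S]
    · refine Finset.prod_congr rfl fun v _ => ?_
      rw [← hproj c v, (hperC v.1 v.2).apply_out]
    · rw [show (Ψ c).out = rep c - (-(Ψ c).out + rep c) by abel]
      exact ((v.valuation L).map_sub _ _).trans
        (max_le (hrep' c v hv) ((h2 v).trans_eq (hS v hv)))
  have hsub : Function.support F ⊆ Ψ '' (Fintype.piFinset T : Set _) := by
    intro r hr
    have hr1 : ∀ v ∉ S, v.valuation L r.out ≤ 1 := by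
      by_contra h
      exact hr (if_neg h)
    refine ⟨fun v => QuotientAddGroup.mk r.out, ?_, ?_⟩
    · rw [Finset.mem_coe, Fintype.mem_piFinset]
      intro v
      rw [Set.Finite.mem_toFinset, Function.mem_support, (hperC v.1 v.2).apply_out]
      have hr' : F r ≠ 0 := hr
      simp only [F, if_pos hr1] at hr'
      exact Finset.prod_ne_zero_iff.1 hr' v.1 v.2
    · set c : (v : S) → L ⧸ (chainV v.1).L (n v.1) := fun v => QuotientAddGroup.mk r.out
      conv_rhs => rw [← QuotientAddGroup.out_eq' r]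
      refine QuotientAddGroup.eq.2 fun v => ?_
      by_cases hv : v ∈ S
      · have h1 := hrep c v hv
        simp only [dif_pos hv] at h1
        have h3 := (hn v _).1 (QuotientAddGroup.eq.1 (QuotientAddGroup.out_eq' (c ⟨v, hv⟩)))
        rw [show -rep c + r.out = (-(c ⟨v, hv⟩).out + r.out) - (rep c - (c ⟨v, hv⟩).out) by abel]
        exact ((v.valuation L).map_sub _ _).trans (max_le h3 h1)
      · rw [hS v hv, neg_add_eq_sub]
        exact ((v.valuation L).map_sub _ _).trans (max_le (hr1 v hv) (hrep' c v hv))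
  have hfin : (Function.support F).Finite :=
    ((Fintype.piFinset T).finite_toSet.image Ψ).subset hsub
  refine ⟨hfin, ?_⟩
  show ∑ᶠ r, F r = _
  rw [finsum_eq_sum_of_support_subset F (s := (Fintype.piFinset T).image Ψ) (by simpa using hsub),
    Finset.sum_image fun c _ c' _ h => hΨ h]
  simp only [hFΨ]
  rw [← Finset.prod_univ_sum T fun v c => f v.1 c.out]
  have hk : kappa m = ∏ v ∈ S, (v.asIdeal.absNorm : ℂ) ^ n v := by
    rw [kappa, finprod_eq_prod_of_mulSupport_subset _ (s := S) fun v hv => ?_]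
    · push_cast
      refine Finset.prod_congr rfl fun v _ => ?_
      have h := (exp_log (hmv v)).symm
      rw [absV, HeightOneSpectrum.adicAbv_def, h,
        WithZeroMulInt.toNNReal_neg_apply _ WithZero.exp_ne_zero]
      simp [n, WithZero.exp]
    · by_contra h
      exact hv (show (absV v (m : L))⁻¹ = 1 by rw [(absV_eq_one_iff v _).2 (hS v h), inv_one])
  rw [hk, ← Finset.prod_mul_distrib, ← Finset.prod_coe_sort S]
  refine Finset.prod_congr rfl fun v _ => ?_
  rw [LatticeChain.integ_eq (hperC v.1 v.2) (hsupC v.1 v.2), LatticeChain.sumAt]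
  rw [finsum_eq_sum _ (LatticeChain.finite_support_out (hsupC v.1 v.2)), ← mul_assoc]
  show ∑ c ∈ T v, f v.1 c.out = _
  rw [show ((chainV v.1).Q : ℂ) = (v.1.asIdeal.absNorm : ℂ) from rfl, mul_inv_cancel₀
    (zpow_ne_zero _
      (by exact_mod_cast (zero_lt_one.trans (HeightOneSpectrum.one_lt_absNorm v.1)).ne')),
    one_mul]

/-- A small nonzero integer at a place. -/
lemma exists_small_integer (v : HeightOneSpectrum (𝓞 L)) {γ : WithZero (Multiplicative ℤ)}
    (hγ : γ ≠ 0) : ∃ a : 𝓞 L, a ≠ 0 ∧ v.valuation L (a : L) ≤ γ := by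
  obtain ⟨π, hπ, hπ0⟩ := Submodule.exists_mem_ne_zero_of_ne_bot v.ne_bot
  set n := (-WithZero.log γ).toNat
  refine ⟨π ^ n, pow_ne_zero _ hπ0, ?_⟩
  rw [RingOfIntegers.coe_eq_algebraMap, HeightOneSpectrum.valuation_of_algebraMap]
  refine ((HeightOneSpectrum.intValuation_le_pow_iff_mem v _ n).mpr
    (Ideal.pow_mem_pow hπ n)).trans ?_
  rw [← WithZero.exp_log hγ, WithZero.exp_le_exp]
  omega

/-- An integer whose multiples fix finitely many cosets as translations, at every place. -/
theorem exists_period (hU : U.IsCongr) (E : Finset (FinCoset U)) :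
    ∃ m : 𝓞 L, m ≠ 0 ∧ ∀ e ∈ E, ∀ v : HeightOneSpectrum (𝓞 L), ∀ a : L,
      v.valuation L a ≤ v.valuation L (m : L) →
        (ProjGenLinGroup.mk (uB a) : G2 L) • e.1 v = e.1 v := by
  classical
  let bad : Finset (HeightOneSpectrum (𝓞 L)) :=
    ((E.finite_toSet.biUnion fun c _ => eventually_cofinite.mp c.2).union
      (eventually_cofinite.mp U.eventually_eq)).toFinset
  choose γ hγ0 hγ using fun (v : HeightOneSpectrum (𝓞 L)) (c : FinCoset U) =>
    exists_fix_bound hU v (c.1 v)
  have hchoose : ∀ v : HeightOneSpectrum (𝓞 L), ∃ a : 𝓞 L, a ≠ 0 ∧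
      ∀ c ∈ E, v.valuation L (a : L) ≤ γ v c := by
    intro v
    rcases E.eq_empty_or_nonempty with h | h
    · exact ⟨1, one_ne_zero, by simp [h]⟩
    obtain ⟨c₀, hc₀, hmin⟩ := E.exists_min_image (γ v) h
    obtain ⟨a, ha0, ha⟩ := exists_small_integer v (hγ0 v c₀)
    exact ⟨a, ha0, fun c hc => ha.trans (hmin c hc)⟩
  choose a ha0 ha using hchoose
  refine ⟨∏ v ∈ bad, a v, Finset.prod_ne_zero_iff.mpr fun v _ => ha0 v, fun e he v x hx => ?_⟩
  by_cases hv : v ∈ bad
  · refine hγ v e x (hx.trans ?_)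
    rw [← Finset.mul_prod_erase bad a hv]
    push_cast
    rw [map_mul]
    refine (mul_le_of_le_one_right zero_le ?_).trans (ha v e he)
    rw [map_prod]
    exact Finset.prod_le_one' fun u _ => v.valuation_le_one _
  · simp only [bad, Set.Finite.mem_toFinset, Set.mem_union, Set.mem_iUnion, not_or, not_exists,
      Set.mem_ofPred_eq, not_not] at hv
    rw [hv.1 e he]
    exact (uB_smul_base_iff hv.2 x).2 (hx.trans (v.valuation_le_one _))

open Classical in
/-- The sum of the finite part over the translations modulo a period. -/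
theorem finsum_kfin (D : KerData U) (c e : FinCoset U) {m : 𝓞 L} (hm : m ≠ 0)
    (hper : ∀ v : HeightOneSpectrum (𝓞 L), ∀ a : L, v.valuation L a ≤ v.valuation L (m : L) →
      (ProjGenLinGroup.mk (uB a) : G2 L) • e.1 v = e.1 v) :
    (Function.support fun r : L ⧸ mLat m =>
        D.kfin c ((ProjGenLinGroup.mk (uB r.out) : G2 L) • e)).Finite ∧
      ∑ᶠ r : L ⧸ mLat m, D.kfin c ((ProjGenLinGroup.mk (uB r.out) : G2 L) • e) =
        kappa m * hfun D c e := by
  let S : Finset (HeightOneSpectrum (𝓞 L)) :=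
    D.S ∪ (eventually_cofinite.mp ((c.2.and e.2).and (U.eventually_eq.and
      (eventually_valuation_eq_one (show (m : L) ≠ 0 by simpa using hm))))).toFinset
  have hS : ∀ v ∉ S, (c.1 v = QuotientGroup.mk 1 ∧ e.1 v = QuotientGroup.mk 1) ∧
      U.loc v = locK v ∧ v.valuation L (m : L) = 1 := fun v hv => by
    simp only [S, Finset.mem_union, Set.Finite.mem_toFinset, Set.mem_ofPred_eq, not_or,
      Classical.not_not] at hv
    exact hv.2
  have hk : ∀ β : L, D.kfin c ((ProjGenLinGroup.mk (uB β) : G2 L) • e) =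
      if ∀ v ∉ S, v.valuation L β ≤ 1 then
        ∏ v ∈ S, (D.fin v).k (c.1 v) ((ProjGenLinGroup.mk (uB β) : G2 L) • e.1 v) else 0 := by
    intro β
    rw [D.kfin_eq_of_subset (S := S) Finset.subset_union_left]
    refine if_congr (forall₂_congr fun v hv => ?_) rfl rfl
    rw [FinCoset.smul_apply, (hS v hv).1.1, (hS v hv).1.2]
    exact eq_comm.trans (uB_smul_base_iff (hS v hv).2.1 β)
  have h := finsum_quot_eq_prod hm S (fun v hv => (hS v hv).2.2)
    (fun v β => (D.fin v).k (c.1 v) ((ProjGenLinGroup.mk (uB β) : G2 L) • e.1 v))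
    (fun v _ x a ha => by
      show (D.fin v).k _ _ = _
      rw [uB_add_smul (hper v a ha)])
    (fun v _ => exists_support_bound (D.fin v) (c.1 v) (e.1 v))
  simp only [hk]
  refine ⟨h.1, h.2.trans ?_⟩
  rw [hfun_eq_prod D c e (S := S) fun v hv => ⟨D.fin_eq_one v fun h' => hv
    (Finset.mem_union_left _ h'), (hS v hv).1.1, (hS v hv).1.2, (hS v hv).2.1⟩]
  rfl

end FermatAgent.LT2.Cusp
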