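import Mathlib
import Fermat.Agent.LT.Descent.LocKer
import Fermat.Agent.LT2.Cusp.Chain
import Fermat.Agent.LT.Whit.Hecke

/-!
# Radial kernels at a place of maximal level

The distance of two cosets, radial kernels with finitely supported profile, the Cartan
decomposition, and its consequence that all invariant kernels at such a place are symmetric and
commute.
-/

set_option autoImplicit false

noncomputable section

open Matrix IsDedekindDomain NumberField WithZero
open scoped MatrixGroups ComplexConjugate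

namespace FermatAgent.LT2.Cusp

open FermatAgent.LT

variable {L : Type*} [Field L] [NumberField L] {U : Level L} {v : HeightOneSpectrum (𝓞 L)}

/-- Norms of places exceed one. -/
lemma one_lt_norm (v : HeightOneSpectrum (𝓞 L)) : (1 : ℝ) < v.asIdeal.absNorm := by
  exact_mod_cast HeightOneSpectrum.one_lt_absNorm v

lemma absV_le_zpow_iff {x : L} {n : ℤ} :
    absV v x ≤ (v.asIdeal.absNorm : ℝ) ^ n ↔ v.valuation L x ≤ exp n := by
  rcases eq_or_ne x 0 with rfl | h
  · simp [zpow_nonneg (zero_le_one.trans (one_lt_norm v).le) n]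
  obtain ⟨m, hm⟩ := exists_val_eq v h
  rw [absV_of_valuation hm, hm, zpow_le_zpow_iff_right₀ (one_lt_norm v), exp_le_exp]

/-! ### The distance -/

/-- The size of a matrix on the logarithmic scale. -/
def distGL (v : HeightOneSpectrum (𝓞 L)) (g : GL (Fin 2) L) : ℕ :=
  sInf {n : ℕ | gNorm v g ≤ (v.asIdeal.absNorm : ℝ) ^ n}

lemma distGL_congr {g h : GL (Fin 2) L} (e : gNorm v g = gNorm v h) :
    distGL v g = distGL v h := by
  unfold distGL; rw [e]

lemma gNorm_le_pow_distGL (g : GL (Fin 2) L) :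
    gNorm v g ≤ (v.asIdeal.absNorm : ℝ) ^ distGL v g :=
  Nat.sInf_mem (s := {n : ℕ | gNorm v g ≤ (v.asIdeal.absNorm : ℝ) ^ n})
    ((pow_unbounded_of_one_lt (gNorm v g) (one_lt_norm v)).imp fun _ h => h.le)

lemma distGL_eq_toNat {g : GL (Fin 2) L} {a : ℤ}
    (h : gNorm v g = (v.asIdeal.absNorm : ℝ) ^ a) : distGL v g = a.toNat := by
  have e : ∀ n : ℕ, gNorm v g ≤ (v.asIdeal.absNorm : ℝ) ^ n ↔ a.toNat ≤ n := fun n => by
    rw [h, ← zpow_natCast, zpow_le_zpow_iff_right₀ (one_lt_norm v)]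
    omega
  refine le_antisymm (Nat.sInf_le ((e _).2 le_rfl)) ((e _).1 (gNorm_le_pow_distGL g))

lemma gNorm_mul_locGL {k : GL (Fin 2) L} (hk : k ∈ locGL v) (g : GL (Fin 2) L) :
    gNorm v (g * k) = gNorm v g ∧ gNorm v (k * g) = gNorm v g := by
  have h1 := gNorm_le_one v hk
  have h2 := gNorm_le_one v (inv_mem hk)
  refine ⟨le_antisymm ((gNorm_mul v g k).trans (mul_le_of_le_one_right (gNorm_nonneg v _) h1)) ?_,
    le_antisymm ((gNorm_mul v k g).trans (mul_le_of_le_one_left (gNorm_nonneg v _) h1)) ?_⟩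
  · calc gNorm v g = gNorm v (g * k * k⁻¹) := by rw [mul_inv_cancel_right]
      _ ≤ _ := (gNorm_mul v _ _).trans (mul_le_of_le_one_right (gNorm_nonneg v _) h2)
  · calc gNorm v g = gNorm v (k⁻¹ * (k * g)) := by rw [inv_mul_cancel_left]
      _ ≤ _ := (gNorm_mul v _ _).trans (mul_le_of_le_one_left (gNorm_nonneg v _) h2)

lemma gNorm_mul_scalar (g : GL (Fin 2) L) (u : Lˣ) :
    gNorm v (g * GeneralLinearGroup.scalar (Fin 2) u) = gNorm v g := by
  refine le_antisymm ((gNorm_mul v _ _).trans (by rw [gNorm_scalar, mul_one])) ?_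
  calc gNorm v g = gNorm v (g * GeneralLinearGroup.scalar (Fin 2) u *
        GeneralLinearGroup.scalar (Fin 2) u⁻¹) := by
          rw [mul_assoc, ← map_mul, mul_inv_cancel, map_one, mul_one]
    _ ≤ _ := (gNorm_mul v _ _).trans (by rw [gNorm_scalar, mul_one])

/-- A representative in `GL₂`. -/
def lift2 (x : G2 L) : GL (Fin 2) L := Function.surjInv ProjGenLinGroup.mk_surjective x

omit [NumberField L] in
lemma mk_lift2 (x : G2 L) : (ProjGenLinGroup.mk (lift2 x) : G2 L) = x :=
  Function.surjInv_eq _ x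

/-- The size of a class. -/
def dist2 (v : HeightOneSpectrum (𝓞 L)) (x : G2 L) : ℕ := distGL v (lift2 x)

/-- The distance of a matrix class. -/
lemma dist2_mk (g : GL (Fin 2) L) :
    dist2 v (ProjGenLinGroup.mk g : G2 L) = distGL v g := by
  obtain ⟨u, hu⟩ := Matrix.ProjGenLinGroup.mk_eq_mk_iff.mp
    (mk_lift2 (ProjGenLinGroup.mk g : G2 L))
  refine distGL_congr ?_
  rw [← gNorm_mul_scalar (v := v) (lift2 _) u, hu]

/-- The distance is right invariant under the maximal compact group. -/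
lemma dist2_mul_right {k : G2 L} (hk : k ∈ locK v) (x : G2 L) : dist2 v (x * k) = dist2 v x := by
  obtain ⟨k', hk', rfl⟩ := hk
  rw [← mk_lift2 x, ← map_mul, dist2_mk, dist2_mk]
  exact distGL_congr (gNorm_mul_locGL hk' _).1

/-- The distance is left invariant under the maximal compact group. -/
lemma dist2_mul_left {k : G2 L} (hk : k ∈ locK v) (x : G2 L) : dist2 v (k * x) = dist2 v x := by
  obtain ⟨k', hk', rfl⟩ := hk
  rw [← mk_lift2 x, ← map_mul, dist2_mk, dist2_mk]
  exact distGL_congr (gNorm_mul_locGL hk' _).2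

/-- The distance of two cosets. -/
def cdist (c d : G2 L ⧸ U.loc v) : ℕ := dist2 v ((c.out : G2 L)⁻¹ * d.out)

/-- The distance of two cosets. -/
lemma cdist_mk (g h : G2 L) :
    cdist (QuotientGroup.mk g : G2 L ⧸ U.loc v) (QuotientGroup.mk h) = dist2 v (g⁻¹ * h) := by
  obtain ⟨a, ha⟩ := QuotientGroup.mk_out_eq_mul (U.loc v) g
  obtain ⟨b, hb⟩ := QuotientGroup.mk_out_eq_mul (U.loc v) h
  rw [cdist, ha, hb, show (g * (a : G2 L))⁻¹ * (h * b) = (a : G2 L)⁻¹ * ((g⁻¹ * h) * b) by group,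
    dist2_mul_left (inv_mem (U.le v a.2)), dist2_mul_right (U.le v b.2)]

/-- The coset distance is invariant. -/
lemma cdist_smul (g : G2 L) (c d : G2 L ⧸ U.loc v) : cdist (g • c) (g • d) = cdist c d := by
  induction c using QuotientGroup.induction_on with | H a =>
  induction d using QuotientGroup.induction_on with | H b =>
  rw [MulAction.Quotient.smul_mk, MulAction.Quotient.smul_mk, smul_eq_mul, smul_eq_mul, cdist_mk,
    cdist_mk]
  congr 1
  group

/-- The distance along the upper triangular classes. -/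
theorem distGL_upper {α : Lˣ} {β : L} {n m : ℤ} (hα : v.valuation L (α : L) = exp (-n))
    (hβ : v.valuation L β ≤ exp m) (h0 : 0 ≤ m) (hn : -n ≤ m)
    (hexact : m = max (-n) 0 ∨ v.valuation L β = exp m) :
    distGL v (uB β * dB α) = (2 * m + n).toNat := by
  set q : ℝ := (v.asIdeal.absNorm : ℝ) with hq
  have hq0 : 0 < q := one_pos.trans (one_lt_norm v)
  refine distGL_eq_toNat ?_
  have hval : (uB β * dB α).val = !![(α : L), β; 0, 1] := by
    ext i j
    fin_cases i <;> fin_cases j <;> simp [Matrix.mul_apply, Fin.sum_univ_two]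
  have hα' : absV v (α : L) = q ^ (-n) := absV_of_valuation hα
  have hmax : max (max (absV v (α : L)) (absV v β)) 1 = q ^ m := by
    refine le_antisymm (max_le (max_le ?_ (absV_le_zpow_iff.2 hβ))
      (one_le_zpow₀ (one_lt_norm v).le h0)) ?_
    · rw [hα']
      exact zpow_le_zpow_right₀ (one_lt_norm v).le hn
    · rcases hexact with h | h
      · rcases le_total (-n) 0 with h' | h'
        · rw [max_eq_right h'] at h
          rw [h, zpow_zero]
          exact le_max_right _ _
        · rw [max_eq_left h'] at h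
          rw [h, ← hα']
          exact (le_max_left _ _).trans (le_max_left _ _)
      · rw [← absV_of_valuation h]
        exact (le_max_right _ _).trans (le_max_left _ _)
  rw [gNorm, hval]
  simp only [vecAbs, Matrix.of_apply, Matrix.cons_val', Matrix.cons_val_zero, Matrix.cons_val_one,
    Matrix.cons_val_fin_one, map_zero, map_one, Matrix.det_fin_two, mul_one, mul_zero, sub_zero]
  rw [max_eq_right (zero_le_one' ℝ), hmax, hα', ← zpow_natCast, ← _root_.zpow_mul,
    ← zpow_sub₀ hq0.ne']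
  congr 1
  push_cast
  ring

/-- The Cartan form of an upper triangular class with large translation part. -/
theorem exists_cartan_upper {α : Lˣ} {β : L} (hβ : β ≠ 0) (h1 : v.valuation L (1 / β) ≤ 1)
    (h2 : v.valuation L ((α : L) / β) ≤ 1) :
    ∃ k ∈ locK v, ∃ k' ∈ locK v, (ProjGenLinGroup.mk (uB β * dB α) : G2 L) =
      k * ProjGenLinGroup.mk (dB (Units.mk0 (β / ((α : L) / β)) (by simp [hβ]))) * k' := by
  let A : GL (Fin 2) L := GeneralLinearGroup.mkOfDetNeZero !![1, 0; 1 / β, -1]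
    (by simp [Matrix.det_fin_two])
  let B : GL (Fin 2) L := GeneralLinearGroup.mkOfDetNeZero !![(α : L) / β, 1; 1, 0]
    (by simp [Matrix.det_fin_two])
  have hA : A ∈ locGL v := ⟨fun i j => by
    fin_cases i <;> fin_cases j <;>
      simp [A, GeneralLinearGroup.mkOfDetNeZero, h1, -map_div₀, -one_div],
    by simp [A, GeneralLinearGroup.mkOfDetNeZero, Matrix.det_fin_two]⟩
  have hB : B ∈ locGL v := ⟨fun i j => by
    fin_cases i <;> fin_cases j <;>
      simp [B, GeneralLinearGroup.mkOfDetNeZero, h2, -map_div₀],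
    by simp [B, GeneralLinearGroup.mkOfDetNeZero, Matrix.det_fin_two]⟩
  refine ⟨_, ⟨A, hA, rfl⟩, _, ⟨B, hB, rfl⟩, ?_⟩
  rw [← map_mul, ← map_mul, eq_comm, Matrix.ProjGenLinGroup.mk_eq_mk_iff]
  refine ⟨Units.mk0 ((α : L) / β) (by simp [hβ]), ?_⟩
  apply Units.ext
  ext i j
  fin_cases i <;> fin_cases j <;>
    simp [A, B, GeneralLinearGroup.mkOfDetNeZero, GeneralLinearGroup.coe_scalar,
      Matrix.mul_apply, Fin.sum_univ_two, hβ] <;> field_simp
  ring

/-- The Cartan decomposition. -/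
theorem exists_cartan (x : G2 L) :
    ∃ k ∈ locK v, ∃ a : Lˣ, ∃ k' ∈ locK v, x = k * ProjGenLinGroup.mk (dB a) * k' := by
  obtain ⟨g, rfl⟩ := ProjGenLinGroup.mk_surjective x
  obtain ⟨b, hb, k, hk, rfl⟩ := exists_iwasawa v g
  obtain ⟨α, β, hαβ⟩ := exists_upper_form hb
  suffices h : ∃ k₁ ∈ locK v, ∃ a : Lˣ, ∃ k₂ ∈ locK v,
      (ProjGenLinGroup.mk (uB β * dB α) : G2 L) = k₁ * ProjGenLinGroup.mk (dB a) * k₂ by
    obtain ⟨k₁, h₁, a, k₂, h₂, e⟩ := h
    exact ⟨k₁, h₁, a, k₂ * ProjGenLinGroup.mk k, mul_mem h₂ ⟨k, hk, rfl⟩, by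
      rw [map_mul, hαβ, e, mul_assoc (k₁ * _)]⟩
  by_cases h1 : v.valuation L β ≤ 1
  · refine ⟨ProjGenLinGroup.mk (uB β), ⟨uB β, ⟨fun i j => ?_, by simp [Matrix.det_fin_two]⟩, rfl⟩,
      α, 1, one_mem _, by rw [mul_one, map_mul]⟩
    fin_cases i <;> fin_cases j <;> simp [h1]
  by_cases h2 : v.valuation L β ≤ v.valuation L (α : L)
  · refine ⟨1, one_mem _, α, ProjGenLinGroup.mk (uB (β / α)),
      ⟨uB (β / α), ⟨fun i j => ?_, by simp [Matrix.det_fin_two]⟩, rfl⟩, ?_⟩
    · have : v.valuation L (β / α) ≤ 1 := by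
        rw [map_div₀]
        exact (div_le_one₀ (zero_lt_iff.mpr (by simp))).2 h2
      fin_cases i <;> fin_cases j <;> simp [this, -map_div₀]
    · rw [one_mul, ← map_mul]
      congr 1
      apply Units.ext
      ext i j
      fin_cases i <;> fin_cases j <;> simp [Matrix.mul_apply, Fin.sum_univ_two, mul_div_cancel₀]
  rw [not_le] at h1 h2
  have hβ : β ≠ 0 := fun h => by simp [h] at h1
  have hsmall : v.valuation L (1 / β) ≤ 1 ∧ v.valuation L ((α : L) / β) ≤ 1 := by
    have hpos : 0 < v.valuation L β := zero_lt_iff.mpr (by simpa using hβ)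
    simp only [map_div₀, map_one]
    exact ⟨(div_le_one₀ hpos).2 h1.le, (div_le_one₀ hpos).2 h2.le⟩
  obtain ⟨k₁, hk₁, k₂, hk₂, e⟩ := exists_cartan_upper hβ hsmall.1 hsmall.2
  exact ⟨k₁, hk₁, _, k₂, hk₂, e⟩

variable (hv : U.loc v = locK v)

include hv in
/-- Any two cosets are exchanged by some element. -/
theorem exists_swap (c d : G2 L ⧸ U.loc v) : ∃ g : G2 L, g • c = d ∧ g • d = c := by
  induction c using QuotientGroup.induction_on with | H x =>
  induction d using QuotientGroup.induction_on with | H y =>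
  obtain ⟨k, hk, a, k', hk', e⟩ := exists_cartan (v := v) (x⁻¹ * y)
  let σ : GL (Fin 2) L := GeneralLinearGroup.mkOfDetNeZero !![0, (a : L); 1, 0]
    (by simp [Matrix.det_fin_two])
  let w : GL (Fin 2) L := GeneralLinearGroup.mkOfDetNeZero !![0, 1; 1, 0]
    (by simp [Matrix.det_fin_two])
  have hw : (ProjGenLinGroup.mk w : G2 L) ∈ locK v := ⟨w, ⟨fun i j => by
    fin_cases i <;> fin_cases j <;> simp [w, GeneralLinearGroup.mkOfDetNeZero],
    by simp [w, GeneralLinearGroup.mkOfDetNeZero, Matrix.det_fin_two]⟩, rfl⟩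
  have h1 : (ProjGenLinGroup.mk σ : G2 L) = ProjGenLinGroup.mk (dB a) * ProjGenLinGroup.mk w := by
    rw [← map_mul]
    congr 1
    apply Units.ext
    ext i j
    fin_cases i <;> fin_cases j <;>
      simp [σ, w, GeneralLinearGroup.mkOfDetNeZero, Matrix.mul_apply, Fin.sum_univ_two]
  have h2 : (ProjGenLinGroup.mk σ : G2 L) * ProjGenLinGroup.mk (dB a) = ProjGenLinGroup.mk w := by
    rw [← map_mul, eq_comm, Matrix.ProjGenLinGroup.mk_eq_mk_iff]
    refine ⟨a, ?_⟩
    apply Units.ext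
    ext i j
    fin_cases i <;> fin_cases j <;>
      simp [σ, w, GeneralLinearGroup.mkOfDetNeZero, GeneralLinearGroup.coe_scalar, Matrix.mul_apply,
        Fin.sum_univ_two]
  refine ⟨x * k * ProjGenLinGroup.mk σ * k⁻¹ * x⁻¹, ?_, ?_⟩ <;>
    rw [MulAction.Quotient.smul_mk, smul_eq_mul, QuotientGroup.eq, hv]
  · have e' : y = x * (k * ProjGenLinGroup.mk (dB a) * k') := by rw [← e, mul_inv_cancel_left]
    rw [e', h1, show
      (x * k * (ProjGenLinGroup.mk (dB a) * ProjGenLinGroup.mk w) * k⁻¹ * x⁻¹ * x)⁻¹ *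
      (x * (k * ProjGenLinGroup.mk (dB a) * k')) = k * (ProjGenLinGroup.mk w)⁻¹ * k' by group]
    exact mul_mem (mul_mem hk (inv_mem hw)) hk'
  · have e' : y = x * (k * ProjGenLinGroup.mk (dB a) * k') := by rw [← e, mul_inv_cancel_left]
    rw [e', show x * k * ProjGenLinGroup.mk σ * k⁻¹ * x⁻¹ *
      (x * (k * ProjGenLinGroup.mk (dB a) * k')) =
      x * k * (ProjGenLinGroup.mk σ * ProjGenLinGroup.mk (dB a)) * k' by group, h2,
      show (x * k * ProjGenLinGroup.mk w * k')⁻¹ * x =
        k'⁻¹ * (ProjGenLinGroup.mk w)⁻¹ * k⁻¹ by group]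
    exact mul_mem (mul_mem (inv_mem hk') (inv_mem hw)) (inv_mem hk)

include hv in
/-- Invariant kernels at a place of maximal level are symmetric. -/
theorem locKer_symm (A : LocKer U v) (c d : G2 L ⧸ U.loc v) : A.k d c = A.k c d := by
  obtain ⟨g, h1, h2⟩ := exists_swap hv c d
  rw [← A.inv g c d, h1, h2]

include hv in
/-- Invariant kernels at a place of maximal level commute. -/
theorem locKer_mul_comm (A B : LocKer U v) : A * B = B * A := by
  ext c e
  conv_lhs => rw [← locKer_symm hv (A * B) c e]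
  simp only [LocKer.mul_k]
  exact tsum_congr fun d => by rw [locKer_symm hv A d e, locKer_symm hv B c d]; ring

include hv in
/-- Finitely many cosets lie within a given distance. -/
theorem finite_cdist_le (c : G2 L ⧸ U.loc v) (N : ℕ) :
    {d : G2 L ⧸ U.loc v | cdist c d ≤ N}.Finite := by
  classical
  induction c using QuotientGroup.induction_on with | H g =>
  let F : ℤ → L → G2 L ⧸ U.loc v := fun i β =>
    (QuotientGroup.mk
      (g * ProjGenLinGroup.mk (uB β * dB (Units.mk0 _ (zpow_ne_zero i (vunif_ne_zero v))))))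
  have hFper : ∀ i x a, v.valuation L a ≤ exp (-i) → F i (x + a) = F i x := by
    intro i x a ha
    simp only [F, QuotientGroup.eq, hv]
    refine ⟨uB (-a * (vunif v ^ i)⁻¹), ⟨fun p q => ?_, by simp [Matrix.det_fin_two]⟩, ?_⟩
    · have : v.valuation L (a * (vunif v ^ i)⁻¹) ≤ 1 := by
        rw [map_mul, map_inv₀, val_vunif_zpow, mul_inv_le_iff₀ exp_pos, one_mul]
        exact ha
      fin_cases p <;> fin_cases q <;> simp [this, -map_mul]
    · rw [_root_.mul_inv_rev, mul_assoc, inv_mul_cancel_left, ← map_inv, ← map_mul]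
      congr 1
      rw [eq_inv_mul_iff_mul_eq]
      apply Units.ext
      ext p q
      have h0 := zpow_ne_zero i (vunif_ne_zero v)
      fin_cases p <;> fin_cases q <;> simp [Matrix.mul_apply, Fin.sum_univ_two]
      field_simp
      ring
  refine ((Finset.Icc (-(N : ℤ)) (N : ℤ)).finite_toSet.biUnion fun i _ =>
    finite_translates v (F i) exp_ne_zero (hFper i) (2 * N : ℤ)).subset ?_
  intro d hd
  induction d using QuotientGroup.induction_on with | H h =>
  simp only [Set.mem_ofPred_eq, cdist_mk] at hd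
  obtain ⟨y, hy⟩ := ProjGenLinGroup.mk_surjective (g⁻¹ * h)
  obtain ⟨b, hb, k, hk, rfl⟩ := exists_iwasawa v y
  obtain ⟨α, β, hαβ⟩ := exists_upper_form hb
  obtain ⟨i, hi⟩ := exists_val_eq v α.ne_zero
  rw [← hy, map_mul, hαβ, dist2_mul_right ⟨k, hk, rfl⟩, dist2_mk] at hd
  have hle : ∀ a, absV v (adCoord (uB β * dB α) a) ≤ (v.asIdeal.absNorm : ℝ) ^ (N : ℤ) := fun a =>
    ((absV_adCoord_le v _ a).trans (gNorm_le_pow_distGL _)).trans (by
      rw [zpow_natCast]
      exact pow_le_pow_right₀ (one_lt_norm v).le hd)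
  have h00 := hle ((0, 0), (0, 0))
  have h11 := hle ((1, 1), (1, 1))
  have h01 := hle ((0, 1), (1, 1))
  simp [adCoord, Matrix.det_fin_two, Matrix.mul_apply, Fin.sum_univ_two] at h00 h11 h01
  rw [absV_of_valuation hi, ← zpow_natCast, zpow_le_zpow_iff_right₀ (one_lt_norm v)] at h00
  rw [absV_of_valuation hi, ← _root_.zpow_neg, ← zpow_natCast,
    zpow_le_zpow_iff_right₀ (one_lt_norm v)]
    at h11
  have hβ : v.valuation L β ≤ exp (2 * N : ℤ) := by
    rw [← absV_le_zpow_iff]
    rw [absV_of_valuation hi, div_le_iff₀ (zpow_pos (one_pos.trans (one_lt_norm v)) _)] at h01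
    refine h01.trans ?_
    rw [← zpow_natCast, ← zpow_add₀ (one_pos.trans (one_lt_norm v)).ne']
    exact zpow_le_zpow_right₀ (one_lt_norm v).le (by omega)
  refine Set.mem_biUnion (x := -i) (by simp; omega) ⟨β, hβ, ?_⟩
  set π : Lˣ := Units.mk0 _ (zpow_ne_zero (-i) (vunif_ne_zero v))
  have e1 : (g * ProjGenLinGroup.mk (uB β * dB π) : G2 L)⁻¹ * h =
      ProjGenLinGroup.mk (dB (π⁻¹ * α)) * ProjGenLinGroup.mk k := by
    have e2 : (ProjGenLinGroup.mk (uB β * dB α) : G2 L) =
        ProjGenLinGroup.mk (uB β * dB π) * ProjGenLinGroup.mk (dB (π⁻¹ * α)) := by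
      rw [← map_mul, mul_assoc]
      congr 2
      apply Units.ext
      ext p q
      fin_cases p <;> fin_cases q <;> simp [Matrix.mul_apply, Fin.sum_univ_two]
    rw [_root_.mul_inv_rev, mul_assoc, ← hy, map_mul ProjGenLinGroup.mk b k, hαβ, e2, mul_assoc,
      inv_mul_cancel_left]
  show QuotientGroup.mk (g * ProjGenLinGroup.mk (uB β * dB π)) = _
  rw [QuotientGroup.eq, hv, e1]
  refine mul_mem ⟨dB (π⁻¹ * α), ⟨fun p q => ?_, ?_⟩, rfl⟩ ⟨k, hk, rfl⟩
  · have : v.valuation L ((π⁻¹ * α : Lˣ) : L) ≤ 1 := le_of_eq (by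
      simp [π, val_vunif, hi, ← WithZero.exp_zsmul])
    fin_cases p <;> fin_cases q <;> simp [this, -Units.val_mul, -map_mul]
  · simp [Matrix.det_fin_two, π, val_vunif, hi, ← WithZero.exp_zsmul]

/-- The radial kernel of a profile. -/
def sph (hv : U.loc v = locK v) (φ : ℕ →₀ ℂ) : LocKer U v where
  k c d := φ (cdist c d)
  inv g c d := by rw [cdist_smul]
  row c := (finite_cdist_le hv c (φ.support.sup id)).subset fun d hd =>
    Finset.le_sup (f := id) (Finsupp.mem_support_iff.2 hd)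

/-- The values of a spherical kernel. -/
lemma sph_k (φ : ℕ →₀ ℂ) (c d : G2 L ⧸ U.loc v) : (sph hv φ).k c d = φ (cdist c d) := rfl

/-- Real profiles give Hermitian kernels. -/
lemma isHerm_sph {φ : ℕ →₀ ℂ} (hφ : ∀ n, conj (φ n) = φ n) : (sph hv φ).IsHerm := fun c d => by
  rw [locKer_symm hv, sph_k, hφ]

/-- The radial kernel on the upper triangular classes. -/
lemma sph_k_upper (φ : ℕ →₀ ℂ) (α : Lˣ) (β : L) :
    (sph hv φ).k (QuotientGroup.mk 1)
        ((ProjGenLinGroup.mk (uB β * dB α) : G2 L) • QuotientGroup.mk 1) =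
      φ (distGL v (uB β * dB α)) := by
  rw [sph_k, MulAction.Quotient.smul_mk, smul_eq_mul, mul_one, cdist_mk, inv_one, one_mul, dist2_mk]

end FermatAgent.LT2.Cusp
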