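import Mathlib
import Fermat.Agent.LT2.Cusp.Sphere
import Fermat.Agent.LT2.Cusp.Haar

/-!
# Radial kernels with horocyclic integral a symmetric pair of Dirac functions

For every `k` an explicit radial kernel has horocyclic integrals, normalised by the square root of
the modulus, equal to the sum of the Dirac functions at `k` and `-k` of the difference of heights.
-/

set_option autoImplicit false

noncomputable section

open Matrix IsDedekindDomain NumberField WithZero
open scoped MatrixGroups ComplexConjugate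

namespace FermatAgent.LT2.Cusp

open FermatAgent.LT FermatAgent.LT.Theta

/-- The geometric solution. -/
def pairU (x : ℂ) (k n : ℕ) : ℂ := if n ≤ k ∧ (k - n) % 2 = 0 then x ^ ((k - n) / 2) else 0

/-- The multiplicity at zero. -/
def pairMult (k : ℕ) : ℂ := if k = 0 then 2 else 1

/-- The normalised profile with horocyclic transform a pair of Dirac functions. -/
def pairC (x : ℂ) (k n : ℕ) : ℂ := pairMult k * (pairU x k n - pairU x k (n + 2))

lemma pairC_eq_zero {x : ℂ} {k n : ℕ} (h : k < n) : pairC x k n = 0 := by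
  rw [pairC, pairU, pairU, if_neg (by omega), if_neg (by omega), sub_self, mul_zero]

/-- The recursion of the Chebyshev pair. -/
lemma pairU_step (x : ℂ) (k m : ℕ) :
    pairU x k m - x * pairU x k (m + 2) = if m = k then 1 else 0 := by
  unfold pairU
  by_cases h : m = k
  · subst h
    simp
  rw [if_neg h]
  by_cases h2 : m ≤ k ∧ (k - m) % 2 = 0
  · rw [if_pos h2, if_pos (by omega), show (k - m) / 2 = (k - (m + 2)) / 2 + 1 by omega, pow_succ]
    ring
  · rw [if_neg h2, if_neg (by omega)]
    ring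

/-- The transform of the profile. -/
theorem sum_pairC (x : ℂ) (k m : ℕ) :
    ∑ j ∈ Finset.range (k + 1), (pairC x k (m + 2 * j) - x * pairC x k (m + 2 * (j + 1))) =
      pairMult k * (if m = k then 1 else 0) := by
  let V : ℕ → ℂ := fun j => pairU x k (m + 2 * j) - x * pairU x k (m + 2 * j + 2)
  have e : ∀ j, pairC x k (m + 2 * j) - x * pairC x k (m + 2 * (j + 1)) =
      pairMult k * (V j - V (j + 1)) := by
    intro j
    simp only [pairC, V, show m + 2 * (j + 1) = m + 2 * j + 2 by ring]
    ring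
  simp only [e, ← Finset.mul_sum]
  rw [Finset.sum_range_sub' V (k + 1)]
  simp only [V, pairU_step, mul_zero, add_zero]
  rw [if_neg (show ¬m + 2 * (k + 1) = k by omega), sub_zero]

/-- The pair of Dirac functions. -/
def pairB (k n : ℤ) : ℂ := (if n = k then 1 else 0) + (if n = -k then 1 else 0)

lemma pairB_eq (k n : ℤ) :
    pairB k n = pairMult k.natAbs * (if n.natAbs = k.natAbs then 1 else 0) := by
  unfold pairB pairMult
  split_ifs <;> first | omega | norm_num

variable {L : Type*} [Field L] [NumberField L] {U : Level L} {v : HeightOneSpectrum (𝓞 L)}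

/-- The square root of the residue cardinality. -/
def sqv (v : HeightOneSpectrum (𝓞 L)) : ℂ := ((√(v.asIdeal.absNorm : ℝ) : ℝ) : ℂ)

/-- The square root of the norm squares to the norm. -/
lemma sqv_sq (v : HeightOneSpectrum (𝓞 L)) : sqv v ^ 2 = (v.asIdeal.absNorm : ℂ) := by
  rw [sqv, ← Complex.ofReal_pow, Real.sq_sqrt (Nat.cast_nonneg _)]
  simp

/-- The square root of the norm is nonzero. -/
lemma sqv_ne_zero (v : HeightOneSpectrum (𝓞 L)) : sqv v ≠ 0 := by
  intro h
  have := sqv_sq v
  rw [h, zero_pow two_ne_zero] at this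
  exact Nat.cast_ne_zero.2 (zero_lt_one.trans (HeightOneSpectrum.one_lt_absNorm v)).ne' this.symm

/-- The profile of the kernel. -/
def pairPhi (v : HeightOneSpectrum (𝓞 L)) (k : ℕ) : ℕ →₀ ℂ :=
  Finsupp.onFinset (Finset.range (k + 1))
    (fun n => (sqv v ^ n)⁻¹ * pairC ((v.asIdeal.absNorm : ℂ)⁻¹) k n) fun n hn => by
    by_contra h
    exact hn (by rw [pairC_eq_zero (by simpa using h), mul_zero])

/-- The values of the pair profile. -/
lemma pairPhi_apply (v : HeightOneSpectrum (𝓞 L)) (k n : ℕ) :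
    pairPhi v k n = (sqv v ^ n)⁻¹ * pairC ((v.asIdeal.absNorm : ℂ)⁻¹) k n := rfl

lemma conj_pairPhi (v : HeightOneSpectrum (𝓞 L)) (k n : ℕ) :
    conj (pairPhi v k n) = pairPhi v k n := by
  simp only [pairPhi_apply, pairC, pairMult, pairU, sqv, map_mul, map_sub, map_inv₀, map_pow,
    Complex.conj_ofReal, apply_ite conj, map_zero, map_one, map_natCast, map_ofNat]

variable (hv : U.loc v = locK v)

/-- The kernel. -/
def pairKer (k : ℤ) : LocKer U v := sph hv (pairPhi v k.natAbs)

/-- The pair kernel is Hermitian. -/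
lemma isHerm_pairKer (k : ℤ) : (pairKer hv k).IsHerm := isHerm_sph hv (conj_pairPhi v _)

lemma exists_hgt (c : G2 L ⧸ U.loc v) : ∃ (γ : L) (a : Lˣ), U.loc v = locK v →
    c = (ProjGenLinGroup.mk (uB γ) : G2 L) • (ProjGenLinGroup.mk (dB a) : G2 L) •
      QuotientGroup.mk 1 := by
  by_cases h : U.loc v = locK v
  · induction c using QuotientGroup.induction_on with | H g₀ =>
    obtain ⟨g, rfl⟩ := ProjGenLinGroup.mk_surjective g₀
    obtain ⟨b, hb, k, hk, rfl⟩ := exists_iwasawa v g
    obtain ⟨α, β, hαβ⟩ := exists_upper_form hb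
    refine ⟨β, α, fun _ => ?_⟩
    rw [MulAction.Quotient.smul_mk, MulAction.Quotient.smul_mk, smul_eq_mul, smul_eq_mul, mul_one,
      map_mul, hαβ, map_mul, QuotientGroup.eq, h, _root_.mul_inv_rev, mul_assoc,
      inv_mul_cancel, mul_one]
    exact inv_mem ⟨k, hk, rfl⟩
  · exact ⟨0, 1, fun h' => absurd h' h⟩

/-- The height of a coset. -/
def hgt (c : G2 L ⧸ U.loc v) : ℤ := -log (v.valuation L ((exists_hgt c).choose_spec.choose : L))

/-- The order of a unit at a place. -/
def ordV (v : HeightOneSpectrum (𝓞 L)) (α : Lˣ) : ℤ := -log (v.valuation L (α : L))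

lemma val_eq_exp_ordV (v : HeightOneSpectrum (𝓞 L)) (α : Lˣ) :
    v.valuation L (α : L) = exp (-ordV v α) := by
  rw [ordV, neg_neg, exp_log (by simp)]

/-- Orders of products add. -/
lemma ordV_mul (v : HeightOneSpectrum (𝓞 L)) (α β : Lˣ) :
    ordV v (α * β) = ordV v α + ordV v β := by
  rw [ordV, ordV, ordV, Units.val_mul, map_mul, log_mul (by simp) (by simp)]
  ring

omit [NumberField L] in
/-- Diagonal elements multiply. -/
lemma dB_mul (α β : Lˣ) : dB (α * β) = dB α * dB β := by
  apply Units.ext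
  ext i j
  fin_cases i <;> fin_cases j <;> simp [Matrix.mul_apply, Fin.sum_univ_two]

/-- The horocyclic integral is invariant under translating the first point. -/
private lemma lint_translate_left (hU : U.IsCongr) (A : LocKer U v) (c d : G2 L ⧸ U.loc v)
    (γ : L) : lint A ((ProjGenLinGroup.mk (uB γ) : G2 L) • c) d = lint A c d := by
  conv_rhs => rw [← lint_translate hU _ _ _ (-γ)]
  unfold lint
  congr 1
  funext β
  rw [← A.inv (ProjGenLinGroup.mk (uB γ) : G2 L) c, ← mul_smul (ProjGenLinGroup.mk (uB β)) _ d,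
    ← mul_smul (ProjGenLinGroup.mk (uB γ))
      (ProjGenLinGroup.mk (uB β) * ProjGenLinGroup.mk (uB (-γ)) : G2 L)]
  simp only [← map_mul, ← uB_add]
  congr 4
  abel

include hv in
/-- The horocyclic integral of the kernel. -/
theorem lint_pairKer (hU : U.IsCongr) (k : ℤ) (c d : G2 L ⧸ U.loc v) (α : Lˣ) :
    lint (pairKer hv k) c ((ProjGenLinGroup.mk (dB α) : G2 L) • d) =
      sqv v ^ (-(hgt c + hgt d + ordV v α)) * pairB k (hgt d + ordV v α - hgt c) := by
  obtain ⟨γ, a, hc, hha⟩ : ∃ (γ : L) (a : Lˣ), c = (ProjGenLinGroup.mk (uB γ) : G2 L) •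
      (ProjGenLinGroup.mk (dB a) : G2 L) • QuotientGroup.mk 1 ∧ hgt c = ordV v a :=
    ⟨_, _, (exists_hgt c).choose_spec.choose_spec hv, rfl⟩
  obtain ⟨δ, b, hd, hhb⟩ : ∃ (δ : L) (b : Lˣ), d = (ProjGenLinGroup.mk (uB δ) : G2 L) •
      (ProjGenLinGroup.mk (dB b) : G2 L) • QuotientGroup.mk 1 ∧ hgt d = ordV v b :=
    ⟨_, _, (exists_hgt d).choose_spec.choose_spec hv, rfl⟩
  rw [hha, hhb]
  set base : G2 L ⧸ U.loc v := QuotientGroup.mk 1
  have e1 : (ProjGenLinGroup.mk (dB α) : G2 L) • d =
      (ProjGenLinGroup.mk (uB ((α : L) * δ)) : G2 L) •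
      (ProjGenLinGroup.mk (dB (α * b)) : G2 L) • base := by
    rw [hd, ← mul_smul, ← mul_smul, ← mul_smul, ← map_mul, ← map_mul, ← map_mul]
    congr 2
    apply Units.ext
    ext i j
    fin_cases i <;> fin_cases j <;> simp [Matrix.mul_apply, Fin.sum_univ_two]
  rw [e1, lint_translate hU, hc]
  rw [lint_translate_left hU]
  set i := ordV v a
  set n := ordV v b + ordV v α - i with hn
  have hk1 : ∀ β, (pairKer hv k).k ((ProjGenLinGroup.mk (dB a) : G2 L) • base)
      ((ProjGenLinGroup.mk (uB β) : G2 L) • (ProjGenLinGroup.mk (dB (α * b)) : G2 L) • base) =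
      pairPhi v k.natAbs (distGL v (uB (β / a) * dB (a⁻¹ * (α * b)))) := by
    intro β
    rw [← sph_k_upper hv, pairKer,
      ← (sph hv _).inv (ProjGenLinGroup.mk (dB a) : G2 L) (QuotientGroup.mk 1)]
    congr 1
    rw [← mul_smul, ← mul_smul, ← map_mul, ← map_mul]
    congr 2
    apply Units.ext
    ext p q
    fin_cases p <;> fin_cases q <;> simp [Matrix.mul_apply, Fin.sum_univ_two]
    field_simp
  unfold lint
  simp only [hk1]
  set M := max (-n) 0 with hM
  set q : ℂ := (v.asIdeal.absNorm : ℂ) with hq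
  have hval : v.valuation L ((a⁻¹ * (α * b) : Lˣ) : L) = exp (-n) := by
    rw [val_eq_exp_ordV]
    congr 2
    have h1 : ordV v a⁻¹ = -ordV v a := by
      simp [ordV, map_inv₀]
    rw [ordV_mul, ordV_mul, h1, hn]
    ring
  have hdiv : ∀ β : L, v.valuation L (β / a) = v.valuation L β * exp i := fun β => by
    rw [map_div₀, val_eq_exp_ordV v a, div_eq_mul_inv, ← WithZero.exp_neg, neg_neg]
  have hle : ∀ (β : L) (t : ℤ),
      v.valuation L (β / a) ≤ exp t ↔ v.valuation L β ≤ exp (t - i) := by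
    intro β t
    rw [hdiv]
    rcases eq_or_ne β 0 with rfl | hβ
    · simp
    obtain ⟨e, he⟩ := exists_val_eq v hβ
    rw [he, ← WithZero.exp_add, exp_le_exp, exp_le_exp]
    omega
  set m := n.natAbs with hm
  rw [integ_radial v (fun j => pairPhi v k.natAbs (m + 2 * j)) (N := k.natAbs + 1)
    (fun j hj => by rw [pairPhi_apply, pairC_eq_zero (by omega), mul_zero]) (M - i)]
  · have hterm : ∀ j : ℕ, q ^ (M - i + (j : ℤ)) *
        (pairPhi v k.natAbs (m + 2 * j) - pairPhi v k.natAbs (m + 2 * (j + 1))) =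
        sqv v ^ (-(ordV v a + ordV v b + ordV v α)) *
          (pairC q⁻¹ k.natAbs (m + 2 * j) - q⁻¹ * pairC q⁻¹ k.natAbs (m + 2 * (j + 1))) := by
      intro j
      have hr := sqv_ne_zero v
      have h1 : q ^ (M - i + (j : ℤ)) * (sqv v ^ (m + 2 * j))⁻¹ =
          sqv v ^ (-(ordV v a + ordV v b + ordV v α)) := by
        rw [hq, ← sqv_sq, ← zpow_natCast (sqv v) 2, ← _root_.zpow_mul, ← zpow_natCast,
          ← _root_.zpow_neg, ← zpow_add₀ hr]
        congr 1
        push_cast
        omega
      have h2 : q ^ (M - i + (j : ℤ)) * (sqv v ^ (m + 2 * (j + 1)))⁻¹ =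
          sqv v ^ (-(ordV v a + ordV v b + ordV v α)) * q⁻¹ := by
        rw [← h1, show m + 2 * (j + 1) = m + 2 * j + 2 by ring, pow_add, sqv_sq, mul_inv]
        ring
      rw [pairPhi_apply, pairPhi_apply, mul_sub, ← mul_assoc, ← mul_assoc, h1, h2, mul_sub,
        mul_assoc]
    rw [Finset.sum_congr rfl fun j _ => hterm j, ← Finset.mul_sum, sum_pairC, pairB_eq]
  · intro β j hj hlt
    congr 1
    have h2 : 2 * (M + j) + n = ((m + 2 * j : ℕ) : ℤ) := by push_cast; omega
    rw [distGL_upper (m := M + j) hval ((hle β _).2 (by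
      rwa [show M + (j : ℤ) - i = M - i + j by ring])) (by omega) (by omega) ?_, h2,
      Int.toNat_natCast]
    rcases Nat.eq_zero_or_pos j with rfl | hjp
    · exact Or.inl (by simp [hM])
    · refine Or.inr
        (le_antisymm ((hle β _).2 (by rwa [show M + (j : ℤ) - i = M - i + j by ring])) ?_)
      by_contra hcon
      rw [not_le] at hcon
      have h0 : v.valuation L (β / a) ≤ exp (M + (j : ℤ) - 1) := by
        rcases eq_or_ne (β / (a : L)) 0 with h0 | h0
        · simp [h0]
        obtain ⟨e, he⟩ := exists_val_eq v h0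
        rw [he, exp_lt_exp] at hcon
        rw [he, exp_le_exp]
        omega
      refine hlt (j - 1) (by omega) ?_
      rw [hle] at h0
      rwa [show M - i + ((j - 1 : ℕ) : ℤ) = M + (j : ℤ) - 1 - i by omega]

end FermatAgent.LT2.Cusp
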