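import Mathlib
import Fermat.Agent.LT2.Glue.Base
import Fermat.Agent.LT2.Cusp.Horo

/-!
# Radial kernels at a split place, above and below

At a split place the valuation restricts without exponent and the residue fields agree, so the
distance of two cosets of the base and the radial kernels agree with those above.
-/

set_option autoImplicit false

noncomputable section

open Matrix IsDedekindDomain NumberField WithZero
open scoped MatrixGroups

namespace FermatAgent.LT2.Ctx

open FermatAgent.LT FermatAgent.LT2.Cusp
open FermatAgent.LT.TwistCtx (Pt incl)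

variable {K L : Type*} [Field K] [NumberField K] [Field L] [NumberField L] [Algebra K L]
  (C : Ctx K L) {v : HeightOneSpectrum (𝓞 K)} (hv : C.IsSplit v) (u : C.Fib v)

include hv

/-- At a split place the valuation restricts without exponent. -/
lemma val_of_split (x : K) : u.1.valuation L (algebraMap K L x) = v.valuation K x := by
  rw [C.val_of_moved (hv u.1 u.2), u.2]

/-- The residue fields agree. -/
lemma absNorm_of_split : u.1.asIdeal.absNorm = v.asIdeal.absNorm := by
  have hle : v.asIdeal ≤ u.1.asIdeal.comap (algebraMap (𝓞 K) (𝓞 L)) := by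
    intro a ha
    rw [Ideal.mem_comap, ← HeightOneSpectrum.valuation_lt_one_iff_mem (K := L)]
    show u.1.valuation L (algebraMap (𝓞 L) L (algebraMap (𝓞 K) (𝓞 L) a)) < 1
    rw [← IsScalarTower.algebraMap_apply, IsScalarTower.algebraMap_apply (𝓞 K) K L,
      C.val_of_split hv u, HeightOneSpectrum.valuation_lt_one_iff_mem]
    exact ha
  have hbij : Function.Bijective
      (Ideal.quotientMap u.1.asIdeal (algebraMap (𝓞 K) (𝓞 L)) hle) := by
    refine ⟨?_, fun y => ?_⟩
    · have := v.isMaximal
      let := Ideal.Quotient.field v.asIdeal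
      have : Nontrivial (𝓞 L ⧸ u.1.asIdeal) :=
        Ideal.Quotient.nontrivial_iff.2 u.1.isPrime.ne_top
      exact RingHom.injective _
    · obtain ⟨x, rfl⟩ := Ideal.Quotient.mk_surjective y
      obtain ⟨k, hk⟩ := C.twist.exists_near (hv u.1 u.2) (x : L) (r := exp (-1 : ℤ)) exp_ne_zero
      have hlt : exp (-1 : ℤ) < (1 : WithZero (Multiplicative ℤ)) := by
        rw [← WithZero.exp_zero, exp_lt_exp]; omega
      have hk1 : v.valuation K k ≤ 1 := by
        rw [← C.val_of_split hv u, show algebraMap K L k = (algebraMap K L k - x) + x by ring]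
        exact ((u.1.valuation L).map_add _ _).trans
          (max_le (hk.trans hlt.le) (u.1.valuation_le_one x))
      obtain ⟨z, hz, hz'⟩ := exists_strong_approx {v} (fun _ => k) (fun _ => exp (-1 : ℤ))
        fun _ => exp_ne_zero
      have hz1 : ∀ w : HeightOneSpectrum (𝓞 K), w.valuation K z ≤ 1 := fun w => by
        by_cases h : w = v
        · subst h
          rw [show z = (z - k) + k by ring]
          exact ((w.valuation K).map_add _ _).trans
            (max_le ((hz w (Finset.mem_singleton_self _)).trans hlt.le) hk1)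
        · exact hz' w (by simpa using h)
      obtain ⟨a, ha⟩ := HeightOneSpectrum.mem_integers_of_valuation_le_one K z hz1
      refine ⟨Ideal.Quotient.mk _ a, ?_⟩
      rw [Ideal.quotientMap_mk, Ideal.Quotient.eq,
        ← HeightOneSpectrum.valuation_lt_one_iff_mem (K := L)]
      show u.1.valuation L (algebraMap (𝓞 L) L (algebraMap (𝓞 K) (𝓞 L) a - x)) < 1
      rw [map_sub, ← IsScalarTower.algebraMap_apply, IsScalarTower.algebraMap_apply (𝓞 K) K L, ha]
      refine lt_of_le_of_lt ?_ hlt
      rw [show algebraMap K L z - algebraMap (𝓞 L) L x =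
        algebraMap K L (z - k) + (algebraMap K L k - (x : L)) by rw [map_sub]; ring]
      refine ((u.1.valuation L).map_add _ _).trans (max_le ?_ hk)
      rw [C.val_of_split hv u]
      exact hz v (Finset.mem_singleton_self _)
  rw [Ideal.absNorm_apply, Ideal.absNorm_apply, Submodule.cardQuot_apply, Submodule.cardQuot_apply]
  exact (Nat.card_eq_of_bijective _ hbij).symm

/-- Absolute values at a split place agree. -/
lemma absV_of_split (x : K) : absV u.1 (algebraMap K L x) = absV v x := by
  rcases eq_or_ne x 0 with rfl | hx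
  · simp
  obtain ⟨n, hn⟩ := exists_val_eq v hx
  rw [absV_of_valuation hn, absV_of_valuation ((C.val_of_split hv u x).trans hn),
    C.absNorm_of_split hv u]

/-- Norms at a split place agree. -/
lemma sqv_of_split : sqv u.1 = sqv v := by
  rw [sqv, sqv, C.absNorm_of_split hv u]

lemma cdist_up (a b : Pt C.X v) : cdist (C.up u a) (C.up u b) = cdist a b := by
  induction a using QuotientGroup.induction_on with | H a =>
  induction b using QuotientGroup.induction_on with | H b =>
  rw [C.up_mk, C.up_mk, cdist_mk, cdist_mk, ← map_inv, ← map_mul]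
  obtain ⟨g, hg⟩ := ProjGenLinGroup.mk_surjective (a⁻¹ * b)
  rw [← hg, incl, ProjGenLinGroup.map_mk, dist2_mk, dist2_mk]
  have e : gNorm u.1 (GeneralLinearGroup.map (algebraMap K L) g) = gNorm v g := by
    simp only [gNorm, vecAbs, GeneralLinearGroup.map_apply, C.absV_of_split hv u]
    congr 1
    show absV u.1 (g.val.map (algebraMap K L)).det = _
    rw [← RingHom.mapMatrix_apply, ← RingHom.map_det, C.absV_of_split hv u]
  simp only [distGL, e, C.absNorm_of_split hv u]

variable (hK : C.X.UK.loc v = locK v) (hL : C.X.UL.loc u.1 = locK u.1)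

lemma sph_up (φ : ℕ →₀ ℂ) (a b : Pt C.X v) :
    (sph hL φ).k (C.up u a) (C.up u b) = (sph hK φ).k a b := by
  rw [sph_k, sph_k, C.cdist_up hv u]

/-- Pair kernels above and below agree. -/
lemma pairKer_up (k : ℤ) (a b : Pt C.X v) :
    (pairKer hL k).k (C.up u a) (C.up u b) = (pairKer hK k).k a b := by
  have e : pairPhi u.1 k.natAbs = pairPhi v k.natAbs := Finsupp.ext fun n => by
    rw [pairPhi_apply, pairPhi_apply, C.sqv_of_split hv u, C.absNorm_of_split hv u]
  rw [pairKer, pairKer, e]
  exact C.sph_up hv u hK hL _ a b

/-- Kernels agreeing on the base have agreeing products. -/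
lemma mul_up {A B : LocKer C.X.UL u.1} {A' B' : LocKer C.X.UK v}
    (hA : ∀ a b, A.k (C.up u a) (C.up u b) = A'.k a b)
    (hB : ∀ a b, B.k (C.up u a) (C.up u b) = B'.k a b) (a b : Pt C.X v) :
    (A * B).k (C.up u a) (C.up u b) = (A' * B').k a b := by
  rw [LocKer.mul_k, LocKer.mul_k, ← (Equiv.ofBijective _ (C.up_bijective hv u)).tsum_eq]
  exact tsum_congr fun d => by rw [Equiv.ofBijective_apply, hA, hB]

end FermatAgent.LT2.Ctx
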