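import Mathlib
import Fermat.Agent.LT.Descent.CuspKer

/-!
# Radial profiles with prescribed horocyclic integrals

The horocyclic integral of a profile at logarithmic height `s` is `2π exp s` times the primitive
of the profile vanishing at infinity, taken at `cosh s`.  Every even combination of two shifts of a
small bump is such a primitive.
-/

set_option autoImplicit false

noncomputable section

open MeasureTheory Filter Real
open scoped ContDiff Topology

namespace FermatAgent.LT2.Cusp

open FermatAgent.LT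

/-- The horocyclic integral of a profile. -/
def radInt (P : Profile) (s : ℝ) : ℂ := ∫ u : ℂ, (P.f (Profile.relDist s u) : ℂ)

/-- A smooth function vanishing near infinity. -/
structure Prim where
  /-- the function -/
  Φ : ℝ → ℝ
  smooth : ContDiff ℝ ∞ Φ
  /-- beyond this it vanishes -/
  R : ℝ
  supp : ∀ y, R < y → Φ y = 0

namespace Prim

/-- The profile whose primitive at infinity it is. -/
def profile (A : Prim) : Profile where
  f y := -deriv A.Φ y
  smooth := (ContDiff.iterate_deriv 1 A.smooth).neg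
  ρ := A.R
  supp y hy := by
    by_contra h
    rw [not_le] at h
    refine hy (neg_eq_zero.2 ?_)
    have : A.Φ =ᶠ[𝓝 y] fun _ => 0 := Filter.eventually_of_mem (Ioi_mem_nhds h) A.supp
    rw [this.deriv_eq, deriv_const]

lemma relDist_eq (s : ℝ) (u : ℂ) :
    Profile.relDist s u = Real.cosh s + ‖u‖ ^ 2 / (2 * Real.exp s) := by
  rw [Profile.relDist, Complex.normSq_eq_norm_sq, Real.cosh_eq, Real.exp_neg]
  field_simp
  ring

lemma integral_sq (A : Prim) (s : ℝ) :
    ∫ y in Set.Ioi (0 : ℝ), y * A.profile.f (Real.cosh s + y ^ 2 / (2 * Real.exp s)) =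
      Real.exp s * A.Φ (Real.cosh s) := by
  set c := 2 * Real.exp s with hc
  have hc0 : 0 < c := by positivity
  have hF : ∀ y, HasDerivAt (fun y => -(Real.exp s * A.Φ (Real.cosh s + y ^ 2 / c)))
      (y * A.profile.f (Real.cosh s + y ^ 2 / c)) y := by
    intro y
    have h1 : HasDerivAt (fun y : ℝ => Real.cosh s + y ^ 2 / c) (2 * y / c) y := by
      simpa using ((hasDerivAt_pow 2 y).div_const c).const_add (Real.cosh s)
    have h2 : HasDerivAt A.Φ (deriv A.Φ (Real.cosh s + y ^ 2 / c)) (Real.cosh s + y ^ 2 / c) :=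
      (A.smooth.differentiable (by simp) _).hasDerivAt
    refine ((h2.comp y h1).const_mul (Real.exp s)).neg.congr_deriv ?_
    show _ = y * -deriv A.Φ _
    rw [hc]
    field_simp
  set B := c * max (A.R - Real.cosh s) 0 + 1
  have hzero : ∀ y, B < y → Real.cosh s + y ^ 2 / c > A.R := fun y hy => by
    have hy1 : 1 ≤ y := by
      have : 0 ≤ c * max (A.R - Real.cosh s) 0 := mul_nonneg hc0.le (le_max_right _ _)
      linarith
    have h1 : c * max (A.R - Real.cosh s) 0 < y ^ 2 := by nlinarith
    have h2 : max (A.R - Real.cosh s) 0 < y ^ 2 / c := by rw [lt_div_iff₀ hc0, mul_comm]; exact h1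
    linarith [le_max_left (A.R - Real.cosh s) 0]
  have hint : IntegrableOn (fun y => y * A.profile.f (Real.cosh s + y ^ 2 / c)) (Set.Ioi 0) := by
    refine (Continuous.integrable_of_hasCompactSupport ?_ ?_).integrableOn
    · exact continuous_id.mul (A.profile.smooth.continuous.comp
        (continuous_const.add ((continuous_pow 2).div_const c)))
    · refine HasCompactSupport.intro (isCompact_Icc (a := -B) (b := B)) fun y hy => ?_
      rw [Set.mem_Icc, ← abs_le, not_le] at hy
      refine mul_eq_zero_of_right _ (by_contra fun h => ?_)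
      have := A.profile.supp _ h
      have h' := hzero |y| hy
      rw [sq_abs] at h'
      exact absurd this (not_le.2 h')
  have hlim : Tendsto (fun y => -(Real.exp s * A.Φ (Real.cosh s + y ^ 2 / c))) atTop (𝓝 0) := by
    refine tendsto_const_nhds.congr' (Filter.eventually_of_mem (Ioi_mem_atTop B) fun y hy => ?_)
    show (0 : ℝ) = -(Real.exp s * A.Φ (Real.cosh s + y ^ 2 / c))
    rw [A.supp _ (hzero y hy), mul_zero, neg_zero]
  rw [integral_Ioi_of_hasDerivAt_of_tendsto' (fun y _ => hF y) hint hlim]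
  simp

/-- The horocyclic integral. -/
theorem radInt_profile (A : Prim) (s : ℝ) :
    radInt A.profile s = ((2 * π * Real.exp s * A.Φ (Real.cosh s) : ℝ) : ℂ) := by
  rw [radInt, integral_complex_ofReal]
  congr 1
  simp only [relDist_eq]
  rw [integral_fun_norm_addHaar (μ := (volume : Measure ℂ))
    (fun r => A.profile.f (Real.cosh s + r ^ 2 / (2 * Real.exp s)))]
  simp only [Complex.finrank_real_complex, Measure.real, Complex.volume_ball, Nat.add_one_sub_one,
    pow_one, smul_eq_mul, nsmul_eq_mul]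
  rw [A.integral_sq s]
  simp [NNReal.coe_real_pi]
  ring

end Prim

/-! ### Shifted bumps -/

/-- The radius of the bump. -/
def bumpRad (ℓ : ℝ) : ℝ := (Real.cosh ℓ - 1) / 2

open Classical in
/-- A bump at one of radius less than `cosh ℓ - 1`. -/
def bump1 (ℓ : ℝ) : ℝ → ℝ :=
  if h : 0 < bumpRad ℓ then
    (⟨bumpRad ℓ / 2, bumpRad ℓ, by linarith, by linarith⟩ : ContDiffBump (1 : ℝ))
  else fun _ => 0

/-- The bump is smooth. -/
lemma contDiff_bump1 (ℓ : ℝ) : ContDiff ℝ ∞ (bump1 ℓ) := by
  unfold bump1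
  split_ifs
  · exact ContDiffBump.contDiff _
  · exact contDiff_const

lemma bump1_eq_zero {ℓ y : ℝ} (h : 1 + bumpRad ℓ ≤ y) : bump1 ℓ y = 0 := by
  unfold bump1
  split_ifs with h0
  · refine ContDiffBump.zero_of_le_dist _ ?_
    rw [Real.dist_eq, abs_of_nonneg (by linarith)]
    linarith
  · rfl

/-- The bump is one at one. -/
lemma bump1_one {ℓ : ℝ} (hℓ : ℓ ≠ 0) : bump1 ℓ 1 = 1 := by
  have h0 : 0 < bumpRad ℓ := by
    unfold bumpRad; linarith [Real.one_lt_cosh.2 hℓ]
  rw [bump1, dif_pos h0]
  exact ContDiffBump.one_of_mem_closedBall _ (by simp; linarith)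

/-- The bump is nonnegative. -/
lemma bump1_nonneg (ℓ y : ℝ) : 0 ≤ bump1 ℓ y := by
  unfold bump1
  split_ifs
  · exact ContDiffBump.nonneg _
  · exact le_rfl

/-- The bump in the logarithmic coordinate. -/
def psiBump (ℓ s : ℝ) : ℝ := bump1 ℓ (Real.cosh s)

lemma psiBump_neg (ℓ s : ℝ) : psiBump ℓ (-s) = psiBump ℓ s := by simp [psiBump]

/-- The bump profile is supported inside `|s| < |ℓ|`. -/
lemma psiBump_eq_zero {ℓ s : ℝ} (h : |ℓ| ≤ |s|) : psiBump ℓ s = 0 := by
  refine bump1_eq_zero ?_
  have := Real.cosh_le_cosh.2 h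
  unfold bumpRad
  linarith [Real.one_le_cosh ℓ]

/-- The primitive of two shifts. -/
def shiftFun (ℓ a y : ℝ) : ℝ :=
  if a = 0 then 2 * bump1 ℓ y
  else if 1 < y then bump1 ℓ (y * Real.cosh a - √(y ^ 2 - 1) * Real.sinh |a|) else 0

/-- The shifts of the bump by multiples of its radius. -/
theorem exists_shift_prim (ℓ : ℝ) (k : ℤ) :
    ∃ A : Prim, A.Φ = shiftFun ℓ (k * ℓ) ∧
      ∀ s, A.Φ (Real.cosh s) = psiBump ℓ (s - k * ℓ) + psiBump ℓ (s + k * ℓ) := by
  set a := (k : ℝ) * ℓ with ha
  by_cases h0 : a = 0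
  · refine ⟨⟨shiftFun ℓ a, ?_, 1 + bumpRad ℓ, fun y hy => ?_⟩, rfl, fun s => ?_⟩
    · rw [show shiftFun ℓ a = fun y => 2 * bump1 ℓ y from funext fun y => if_pos h0]
      exact contDiff_const.mul (contDiff_bump1 ℓ)
    · rw [shiftFun, if_pos h0, bump1_eq_zero hy.le, mul_zero]
    · show shiftFun ℓ a _ = _
      rw [shiftFun, if_pos h0, h0]
      simp [psiBump]
      ring
  have hℓa : |ℓ| ≤ |a| := by
    rw [ha, abs_mul]
    refine le_mul_of_one_le_left (abs_nonneg _) ?_
    have hk : k ≠ 0 := fun hk => h0 (by simp [ha, hk])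
    exact_mod_cast Int.one_le_abs hk
  have hch : 1 + bumpRad ℓ < Real.cosh a := by
    have h1 := Real.cosh_le_cosh.2 hℓa
    have h2 := Real.one_lt_cosh.2 h0
    unfold bumpRad
    linarith
  let g : ℝ → ℝ := fun y => y * Real.cosh a - √(y ^ 2 - 1) * Real.sinh |a|
  have hg : Continuous g := (continuous_id.mul continuous_const).sub
    ((Real.continuous_sqrt.comp ((continuous_pow 2).sub continuous_const)).mul continuous_const)
  have hnear : ∀ᶠ y in 𝓝 (1 : ℝ), 1 + bumpRad ℓ < g y :=
    hg.continuousAt.eventually (isOpen_Ioi.mem_nhds (by simpa [g] using hch))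
  have hev : ∀ y ≤ 1, shiftFun ℓ a =ᶠ[𝓝 y] fun _ => 0 := by
    intro y hy
    rcases hy.lt_or_eq with hy | rfl
    · refine Filter.eventually_of_mem (Iio_mem_nhds hy) fun z (hz : z < 1) => ?_
      simp [shiftFun, h0, not_lt.2 hz.le]
    · filter_upwards [hnear] with z hz
      simp only [shiftFun, if_neg h0]
      split_ifs
      · exact bump1_eq_zero hz.le
      · rfl
  refine ⟨⟨shiftFun ℓ a, ?_, max 1 ((1 + bumpRad ℓ) * Real.exp |a|), fun y hy => ?_⟩, rfl,
    fun s => ?_⟩
  · refine contDiff_iff_contDiffAt.2 fun y => ?_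
    by_cases hy : y ≤ 1
    · exact contDiffAt_const.congr_of_eventuallyEq (hev y hy)
    rw [not_le] at hy
    have hpos : y ^ 2 - 1 ≠ 0 := ne_of_gt (by nlinarith)
    have hcg : ContDiffAt ℝ ∞ g y :=
      (contDiffAt_id.mul contDiffAt_const).sub
        ((((contDiffAt_id.pow 2).sub contDiffAt_const).sqrt hpos).mul contDiffAt_const)
    refine ((contDiff_bump1 ℓ).contDiffAt.comp y hcg).congr_of_eventuallyEq ?_
    refine Filter.eventually_of_mem (Ioi_mem_nhds hy) fun z hz => ?_
    simp only [shiftFun, if_neg h0, if_pos (show 1 < z from hz)]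
    rfl
  · rw [max_lt_iff] at hy
    rw [shiftFun, if_neg h0, if_pos hy.1]
    refine bump1_eq_zero ?_
    have hs : √(y ^ 2 - 1) ≤ y := by
      calc √(y ^ 2 - 1) ≤ √(y ^ 2) := Real.sqrt_le_sqrt (by linarith)
        _ = y := Real.sqrt_sq (by linarith)
    have h1 : y * Real.exp (-|a|) ≤ y * Real.cosh a - √(y ^ 2 - 1) * Real.sinh |a| := by
      rw [← Real.cosh_sub_sinh, Real.cosh_abs, mul_sub]
      linarith [mul_le_mul_of_nonneg_right hs (Real.sinh_nonneg_iff.2 (abs_nonneg a))]
    refine le_trans ?_ h1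
    rw [Real.exp_neg, ← div_eq_mul_inv, le_div_iff₀ (Real.exp_pos _)]
    exact hy.2.le
  · show shiftFun ℓ a (Real.cosh s) = _
    have key : ∀ s, 0 ≤ s → shiftFun ℓ a (Real.cosh s) = psiBump ℓ (s - a) + psiBump ℓ (s + a) := by
      intro s hs
      have hsum : psiBump ℓ (s - a) + psiBump ℓ (s + a) = psiBump ℓ (s - |a|) := by
        rcases abs_cases a with ⟨he, ha0⟩ | ⟨he, ha0⟩
        · rw [he, psiBump_eq_zero (s := s + a) (hℓa.trans (by
            rw [abs_of_nonneg ha0, abs_of_nonneg (by linarith)]; linarith)), add_zero]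
        · rw [he, sub_neg_eq_add, psiBump_eq_zero (s := s - a) (hℓa.trans (by
            rw [abs_of_neg ha0, abs_of_nonneg (by linarith)]; linarith)), zero_add]
      rw [hsum]
      rcases hs.eq_or_lt with rfl | hpos
      · rw [shiftFun, if_neg h0, if_neg (by simp), zero_sub, psiBump_neg,
          psiBump_eq_zero (by rw [abs_abs]; exact hℓa)]
      · rw [shiftFun, if_neg h0, if_pos (Real.one_lt_cosh.2 hpos.ne'), psiBump, Real.cosh_sub,
          Real.cosh_abs, ← Real.sinh_sq, Real.sqrt_sq (Real.sinh_nonneg_iff.2 hs)]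
    rcases le_total 0 s with hs | hs
    · exact key s hs
    · rw [← Real.cosh_neg, key (-s) (by linarith), add_comm, show -s + a = -(s - a) by ring,
        show -s - a = -(s + a) by ring, psiBump_neg, psiBump_neg]

/-- The profile with horocyclic integral a pair of shifts of the bump. -/
def shiftProfile (ℓ : ℝ) (k : ℤ) : Profile := (exists_shift_prim ℓ k).choose.profile

/-- The radial integral of a shifted profile. -/
theorem radInt_shiftProfile (ℓ : ℝ) (k : ℤ) (s : ℝ) :
    radInt (shiftProfile ℓ k) s =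
      ((2 * π * Real.exp s * (psiBump ℓ (s - k * ℓ) + psiBump ℓ (s + k * ℓ)) : ℝ) : ℂ) := by
  rw [shiftProfile, Prim.radInt_profile, (exists_shift_prim ℓ k).choose_spec.2]

end FermatAgent.LT2.Cusp
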