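import Mathlib
import Fermat.Agent.LT.Base.Cusp

/-!
# Bounded automorphisation from bounded sums over the diagonal parts

High in a cusp only upper triangular elements contribute, with diagonal parts in a finite set.
A kernel is bounded once the sum over these of the translation sums is bounded; the
sums need not be bounded one by one.
-/

set_option autoImplicit false

noncomputable section

open Matrix IsDedekindDomain NumberField Filter MeasureTheory Module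
open scoped MatrixGroups ENNReal

namespace FermatAgent.LT2.Cusp

open FermatAgent.LT

variable {L : Type*} [Field L] [NumberField L] [IsTotallyComplex L] {U : Level L}

/-- The automorphisation is bounded on a Siegel set if the sums over the diagonal parts of the
translation sums are. -/
theorem bounded_aut_siegel (k : PtKer U) (C₀ : Finset (FinCoset U)) (Bz : ℝ) {c₀ : ℝ}
    (hc₀ : 0 < c₀) (A : Finset Lˣ)
    (hA : ∀ x y : Space U, x.2 ∈ C₀ → y.2 ∈ C₀ → InCusp c₀ Bz x.1 →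
      InCusp c₀ Bz y.1 → ∀ α β,
        k.k x ((ProjGenLinGroup.mk (uB β * dB α) : G2 L) • y) ≠ 0 → α ∈ A)
    (hB : ∀ c ∈ C₀, ∀ d ∈ C₀, ∃ B : ℝ, ∀ p q : InfPts L, InCusp c₀ Bz p → InCusp c₀ Bz q →
      ‖∑ α ∈ A, ∑' β : L, k.k (p, c) ((ProjGenLinGroup.mk (uB β) : G2 L) •
        (ProjGenLinGroup.mk (dB α) : G2 L) • ((q, d) : Space U))‖ ≤ B) :
    ∃ B, ∀ x ∈ siegelSet U C₀ Bz c₀, ∀ y ∈ siegelSet U C₀ Bz c₀, ‖k.aut x y‖ ≤ B := by
  obtain ⟨B, hB'⟩ := k.bounded_sum_siegel Set.univ C₀ Bz hc₀ A hA fun c hc d hd =>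
    (hB c hc d hd).imp fun B h p q hp hq => by
      simpa [map_mul, mul_smul] using h p q hp hq
  exact ⟨B, fun x hx y hy => by simpa [PtKer.aut] using hB' x hx y hy⟩

/-- The automorphisation is bounded if the sums over the diagonal parts of the translation sums
are. -/
theorem bounded_aut_of_cusp_sums (hU : U.IsCongr) (k : PtKer U)
    (hB : ∀ (C₀ : Finset (FinCoset U)) (Bz c₀ : ℝ), 0 < c₀ → ∀ A₀ : Finset Lˣ, ∃ A, A₀ ⊆ A ∧
      ∀ c ∈ C₀, ∀ d ∈ C₀, ∃ B : ℝ, ∀ p q : InfPts L, InCusp c₀ Bz p → InCusp c₀ Bz q →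
        ‖∑ α ∈ A, ∑' β : L, k.k (p, c) ((ProjGenLinGroup.mk (uB β) : G2 L) •
          (ProjGenLinGroup.mk (dB α) : G2 L) • ((q, d) : Space U))‖ ≤ B) :
    ∃ B, ∀ x y, ‖k.aut x y‖ ≤ B := by
  obtain ⟨C₀, Bz, c₀, -, hc₀, hSieg⟩ := exists_siegel hU
  obtain ⟨A₀, hA₀⟩ := k.exists_alpha_set C₀ Bz c₀
  obtain ⟨A, hsub, hA⟩ := hB C₀ Bz c₀ hc₀ A₀
  obtain ⟨B, hB'⟩ := bounded_aut_siegel k C₀ Bz hc₀ A
    (fun x y hx hy hx' hy' α β h => hsub (hA₀ x y hx hy hx' hy' α β h)) hA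
  refine ⟨B, fun x y => ?_⟩
  obtain ⟨gx, hx⟩ := hSieg x
  obtain ⟨gy, hy⟩ := hSieg y
  rw [← k.aut_smul_left gx x y, ← k.aut_smul_right gy (gx • x) y]
  exact hB' _ hx _ hy

end FermatAgent.LT2.Cusp
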