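import Mathlib
import Fermat.Agent.LT.Base.Periodic

/-!
# Lattice sums of smooth functions of integral zero

Such a sum is the difference of a periodisation and its mean, hence bounded by its oscillation.
-/

set_option autoImplicit false

noncomputable section

open MeasureTheory Filter
open scoped Topology ContDiff

namespace FermatAgent.LT2.Cusp

open FermatAgent.LT

variable {ι : Type} [Fintype ι]

/-- The unit cube. -/
def unitCube : Set (ι → ℝ) := Set.univ.pi fun _ => Set.Ico 0 1

lemma measurableSet_unitCube : MeasurableSet (unitCube (ι := ι)) :=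
  MeasurableSet.univ_pi fun _ => measurableSet_Ico

lemma volume_unitCube : (volume : Measure (ι → ℝ)) (unitCube (ι := ι)) = 1 := by
  simp [unitCube, volume_pi_pi]

omit [Fintype ι] in
open Classical in
lemma indicator_unitCube_sub (x : ι → ℝ) (n : ι → ℤ) :
    (x - Periodic.ivec n ∈ unitCube) ↔ n = fun i => ⌊x i⌋ := by
  simp only [unitCube, Set.mem_univ_pi, Pi.sub_apply, Periodic.ivec, Set.mem_Ico, funext_iff,
    @eq_comm _ _ ⌊x _⌋, Int.floor_eq_iff]
  exact forall_congr' fun i => ⟨fun h => ⟨by linarith [h.1], by linarith [h.2]⟩,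
    fun h => ⟨by linarith [h.1], by linarith [h.2]⟩⟩

variable {E : Type*} [NormedAddCommGroup E] [NormedSpace ℝ E] [FiniteDimensional ℝ E]
  [MeasurableSpace E] [BorelSpace E]

omit [FiniteDimensional ℝ E] in
open Classical in
/-- A lattice sum of a function of integral zero is bounded by the oscillation of such sums. -/
theorem lattice_sum_le_of_integral_zero (A : (ι → ℝ) ≃L[ℝ] E) (μ : Measure E) [μ.IsAddHaarMeasure]
    (G : E → ℂ) (N : ℕ) (hG : ContDiff ℝ (N + 1 : ℕ) G) {R : ℝ} (hR : 0 ≤ R)
    (hsupp : ∀ e, G e ≠ 0 → ‖e‖ ≤ R) {M : ℝ} (hM : ∀ e, ‖iteratedFDeriv ℝ (N + 1) G e‖ ≤ M)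
    (hint : ∫ e, G e ∂μ = 0) (b : E) :
    ‖∑' n : ι → ℤ, G (A (Periodic.ivec n) + b)‖ ≤
      (Fintype.card ι : ℝ) ^ N *
        ((2 * (‖(A.symm : E →L[ℝ] ι → ℝ)‖ * R + 1) + 2) ^ Fintype.card ι *
          (M * ‖(A : (ι → ℝ) →L[ℝ] E)‖ ^ (N + 1))) := by
  set B := (Fintype.card ι : ℝ) ^ N *
        ((2 * (‖(A.symm : E →L[ℝ] ι → ℝ)‖ * R + 1) + 2) ^ Fintype.card ι *
          (M * ‖(A : (ι → ℝ) →L[ℝ] E)‖ ^ (N + 1)))
  set ρ := ‖(A.symm : E →L[ℝ] ι → ℝ)‖ * R
  let f : (ι → ℝ) → ℂ := fun x => G (A x + b)
  let S : (ι → ℝ) → ℂ := fun x => ∑' n : ι → ℤ, f (x + Periodic.ivec n)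
  obtain ⟨s, hs, -⟩ := Periodic.finite_near (-(A.symm b)) (ρ + 1)
  have hfsupp : ∀ x, f x ≠ 0 → ‖x + A.symm b‖ ≤ ρ := fun x hx => by
    have h1 := (A.symm : E →L[ℝ] ι → ℝ).le_opNorm (A x + b)
    rw [ContinuousLinearEquiv.coe_coe, map_add, A.symm_apply_apply] at h1
    exact h1.trans (mul_le_mul_of_nonneg_left (hsupp _ hx) (norm_nonneg _))
  have hmem : ∀ (x : ι → ℝ) n, ‖x‖ ≤ 1 → f (x + Periodic.ivec n) ≠ 0 → n ∈ s := fun x n hx h => by
    apply hs
    calc ‖Periodic.ivec n - -A.symm b‖ = ‖(x + Periodic.ivec n + A.symm b) - x‖ := by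
          congr 1; abel
      _ ≤ ‖x + Periodic.ivec n + A.symm b‖ + ‖x‖ := norm_sub_le _ _
      _ ≤ ρ + 1 := add_le_add (hfsupp _ h) hx
  have hcube : ∀ x ∈ unitCube (ι := ι), ‖x‖ ≤ 1 := fun x hx =>
    (pi_norm_le_iff_of_nonneg zero_le_one).2 fun i => by
      have := Set.mem_univ_pi.1 hx i
      rw [Real.norm_eq_abs, abs_le]
      constructor <;> linarith [this.1, this.2]
  have hfc : Continuous f := hG.continuous.comp (A.continuous.add continuous_const)
  have hfi : Integrable f volume := hfc.integrable_of_hasCompactSupport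
    (HasCompactSupport.intro (isCompact_closedBall (-A.symm b) ρ) fun x hx => by
      by_contra h
      exact hx (by simpa [dist_eq_norm] using hfsupp x h))
  -- the integral over the space
  have hf0 : ∫ x, f x = 0 := by
    have : (Measure.map (A.symm : E → ι → ℝ) μ).IsAddHaarMeasure :=
      A.symm.isAddHaarMeasure_map μ
    obtain ⟨c, hc, e⟩ : ∃ c : NNReal, c ≠ 0 ∧ Measure.map (A.symm : E → ι → ℝ) μ = c • volume :=
      ⟨_, (Measure.addHaarScalarFactor_pos_of_isAddHaarMeasure _ _).ne',
        Measure.isAddLeftInvariant_eq_smul _ _⟩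
    have h : ∫ x, f x ∂(Measure.map (A.symm : E → ι → ℝ) μ) = 0 := by
      rw [integral_map A.symm.continuous.aemeasurable hfc.aestronglyMeasurable]
      simp only [f, ContinuousLinearEquiv.apply_symm_apply]
      rw [integral_add_right_eq_self (fun e => G e), hint]
    rw [e, integral_smul_nnreal_measure] at h
    exact (smul_eq_zero.1 h).resolve_left hc
  -- its decomposition into cubes
  have hS : ∀ x ∈ unitCube (ι := ι), S x = ∑ n ∈ s, f (x + Periodic.ivec n) := fun x hx =>
    tsum_eq_sum fun n hn => by_contra fun h => hn (hmem x n (hcube x hx) h)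
  have hmean : ∫ x in unitCube, S x = 0 := by
    rw [setIntegral_congr_fun measurableSet_unitCube hS,
      integral_finsetSum _ fun n _ => (hfi.comp_add_right _).integrableOn, ← hf0]
    have e : ∀ n, ∫ x in unitCube, f (x + Periodic.ivec n) =
        ∫ x, (unitCube (ι := ι)).indicator (fun _ => (1 : ℂ)) (x - Periodic.ivec n) * f x := by
      intro n
      rw [← integral_indicator measurableSet_unitCube,
        ← integral_sub_right_eq_self _ (Periodic.ivec n)]
      refine integral_congr_ae (ae_of_all _ fun x => ?_)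
      by_cases hx : x - Periodic.ivec n ∈ unitCube (ι := ι) <;> simp [hx]
    simp only [e]
    rw [← integral_finsetSum]
    · refine integral_congr_ae (ae_of_all _ fun x => ?_)
      show (∑ n ∈ s, unitCube.indicator (fun _ => (1 : ℂ)) (x - Periodic.ivec n) * f x) = f x
      rw [Finset.sum_eq_single fun i => ⌊x i⌋]
      · rw [Set.indicator_of_mem ((indicator_unitCube_sub x _).2 rfl), one_mul]
      · intro n _ hn
        rw [Set.indicator_of_notMem (fun h => hn ((indicator_unitCube_sub x n).1 h)), zero_mul]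
      · intro hn
        by_contra h
        refine hn (hmem (x - Periodic.ivec fun i => ⌊x i⌋) _
          (hcube _ ((indicator_unitCube_sub x _).2 rfl)) ?_)
        rw [sub_add_cancel]
        exact fun h0 => h (by rw [h0, mul_zero])
    · intro n _
      refine hfi.bdd_mul ((measurable_const.indicator measurableSet_unitCube).comp
        (measurable_id.sub_const _)).aestronglyMeasurable (c := 1) (ae_of_all _ fun x => ?_)
      by_cases hx : x - Periodic.ivec n ∈ unitCube (ι := ι) <;> simp [hx]
  have hdiff : ∀ x, ‖S 0 - S x‖ ≤ B := fun x => by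
    have e : ∀ y : ι → ℝ, S y = ∑' n : ι → ℤ, G (A (Periodic.ivec n) + (A y + b)) := fun y =>
      tsum_congr fun n => congrArg G (by rw [map_add]; abel)
    rw [e 0, e x]
    exact Periodic.lattice_sum_sub_le A G N hG hR hsupp hM _ _
  have : IsFiniteMeasure ((volume : Measure (ι → ℝ)).restrict unitCube) :=
    ⟨by rw [Measure.restrict_apply_univ, volume_unitCube]; exact ENNReal.one_lt_top⟩
  have hSi : IntegrableOn S unitCube :=
    (IntegrableOn.congr_fun (integrable_finsetSum s fun n _ => hfi.comp_add_right _).integrableOn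
      (fun x hx => (hS x hx).symm) measurableSet_unitCube)
  have h0 : S 0 = ∫ x in unitCube, (S 0 - S x) := by
    rw [integral_sub (integrable_const _) hSi, hmean, sub_zero, integral_const,
      measureReal_restrict_apply_univ, measureReal_def, volume_unitCube]
    simp
  have hb : ∑' n : ι → ℤ, G (A (Periodic.ivec n) + b) = S 0 :=
    tsum_congr fun n => by simp [f]
  rw [hb, h0]
  refine (norm_setIntegral_le_of_norm_le_const (by rw [volume_unitCube]; exact ENNReal.one_lt_top)
    fun x _ => hdiff x).trans (le_of_eq ?_)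
  simp [measureReal_def, volume_unitCube]

end FermatAgent.LT2.Cusp
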