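import Mathlib
import Fermat.Agent.LT.Descent.CuspKer
import Fermat.Agent.LT2.Cusp.Alpha
import Fermat.Agent.LT2.Cusp.Haar
import Fermat.Agent.LT2.Cusp.Abel
import Fermat.Agent.LT2.Cusp.LatSum

/-!
# Finite sums of product kernels whose main terms cancel have bounded automorphisation

High in a cusp a translation sum is, up to a bounded error, the lattice sum of a smooth function
whose integral is the product of the horocyclic integrals.  When these main terms cancel after
summing over the pieces and the diagonal parts, the automorphisation of the sum is bounded, although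
the separate pieces need not be.
-/

set_option autoImplicit false

noncomputable section

open Matrix IsDedekindDomain NumberField Filter MeasureTheory Module
open scoped MatrixGroups ENNReal ContDiff

namespace FermatAgent.LT2.Cusp

open FermatAgent.LT

variable {L : Type*} [Field L] [NumberField L] {U : Level L} {J : Type*} [Fintype J]

open Classical in
/-- A finite linear combination of point kernels. -/
def sumKer (a : J → ℂ) (k : J → PtKer U) : PtKer U where
  k x y := ∑ j, a j * (k j).k x y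
  meas := Finset.measurable_sum _ fun j _ => (k j).meas.const_mul (a j)
  inv g x y := Finset.sum_congr rfl fun j _ => by rw [(k j).inv]
  C := ∑ j, ‖a j‖ * (k j).C
  C_nonneg := Finset.sum_nonneg fun j _ => mul_nonneg (norm_nonneg _) (k j).C_nonneg
  bound x y := (norm_sum_le _ _).trans (Finset.sum_le_sum fun j _ => by
    rw [norm_mul]; exact mul_le_mul_of_nonneg_left ((k j).bound x y) (norm_nonneg _))
  ρ := ∑ j, max (k j).ρ 0
  nbr c := Finset.univ.biUnion fun j => (k j).nbr c
  supp x y h := by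
    obtain ⟨j, -, hj⟩ := Finset.exists_ne_zero_of_sum_ne_zero h
    obtain ⟨h1, h2⟩ := (k j).supp x y (right_ne_zero_of_mul hj)
    exact ⟨fun w => (h1 w).trans ((le_max_left _ _).trans
      (Finset.single_le_sum (fun j _ => le_max_right (k j).ρ 0) (Finset.mem_univ j))),
      Finset.mem_biUnion.2 ⟨j, Finset.mem_univ j, h2⟩⟩

lemma sumKer_k (a : J → ℂ) (k : J → PtKer U) (x y : Space U) :
    (sumKer a k).k x y = ∑ j, a j * (k j).k x y := rfl

/-- The automorphisation of a finite sum. -/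
lemma sumKer_aut (a : J → ℂ) (k : J → PtKer U) (x y : Space U) :
    (sumKer a k).aut x y = ∑ j, a j * (k j).aut x y := by
  simp only [PtKer.aut, sumKer_k]
  rw [Summable.tsum_finsetSum fun j _ => ((k j).summable_aut x y).mul_left (a j)]
  simp only [tsum_mul_left]

/-- The product of the profiles in relative coordinates. -/
def gfun (P : InfinitePlace L → Profile) (x : (InfinitePlace L → ℝ) × (InfinitePlace L → ℂ)) : ℂ :=
  ∏ w, ((P w).f (Profile.relDist (x.1 w) (x.2 w)) : ℂ)

/-- The main term of a diagonal part. -/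
def mainTerm (a : J → ℂ) (D : J → KerData U) (P : J → InfinitePlace L → Profile)
    (c d : FinCoset U) (s : InfinitePlace L → ℝ) (α : Lˣ) : ℂ :=
  ∑ j, a j * hfun (D j) c ((ProjGenLinGroup.mk (dB α) : G2 L) • d) *
    ∏ w, radInt (P j w) (s w + Real.log (w (α : L)))

/-- The main terms cancel. -/
def MainZero (a : J → ℂ) (D : J → KerData U) (P : J → InfinitePlace L → Profile) : Prop :=
  ∀ (c d : FinCoset U) (s : InfinitePlace L → ℝ), ∑ᶠ α : Lˣ, mainTerm a D P c d s α = 0

lemma contDiff_gfun (P : InfinitePlace L → Profile) : ContDiff ℝ ∞ (gfun P) := by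
  refine contDiff_prod fun w _ => Complex.ofRealCLM.contDiff.comp ((P w).smooth.comp ?_)
  exact Profile.contDiff_relDist.comp
    (((contDiff_apply ℝ ℝ w).comp contDiff_fst).prodMk ((contDiff_apply ℝ ℂ w).comp contDiff_snd))

lemma gfun_supp (P : InfinitePlace L → Profile) :
    ∃ R : ℝ, 0 ≤ R ∧ ∀ s u, gfun P (s, u) ≠ 0 → ‖s‖ ≤ R ∧ ‖u‖ ≤ R := by
  have hpos : ∀ w, 0 ≤ Real.log (2 * max (P w).ρ 1 + 2) ∧ 0 ≤ 2 * (2 * max (P w).ρ 1 + 2) :=
    fun w => ⟨Real.log_nonneg (by linarith [le_max_right (P w).ρ 1]),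
      by linarith [le_max_right (P w).ρ 1]⟩
  set R := ∑ w, (Real.log (2 * max (P w).ρ 1 + 2) + 2 * (2 * max (P w).ρ 1 + 2))
  have hR : 0 ≤ R := Finset.sum_nonneg fun w _ => add_nonneg (hpos w).1 (hpos w).2
  have hsum : ∀ w, Real.log (2 * max (P w).ρ 1 + 2) + 2 * (2 * max (P w).ρ 1 + 2) ≤ R := fun w =>
    Finset.single_le_sum (f := fun w => Real.log (2 * max (P w).ρ 1 + 2) +
      2 * (2 * max (P w).ρ 1 + 2)) (fun w _ => add_nonneg (hpos w).1 (hpos w).2) (Finset.mem_univ w)
  refine ⟨R, hR, fun s u h => ?_⟩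
  have hw : ∀ w, (P w).f (Profile.relDist (s w) (u w)) ≠ 0 := fun w => by
    simpa using (Finset.prod_ne_zero_iff.mp h) w (Finset.mem_univ w)
  constructor <;> refine (pi_norm_le_iff_of_nonneg hR).mpr fun w => ?_
  · exact ((P w).bound_of_relDist ((P w).supp _ (hw w))).1.trans
      ((le_add_of_nonneg_right (hpos w).2).trans (hsum w))
  · exact ((P w).bound_of_relDist ((P w).supp _ (hw w))).2.trans
      ((le_add_of_nonneg_left (hpos w).1).trans (hsum w))

lemma integral_gfun (P : InfinitePlace L → Profile) (s : InfinitePlace L → ℝ) :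
    ∫ u : InfinitePlace L → ℂ, gfun P (s, u) = ∏ w, radInt (P w) (s w) :=
  integral_fintype_prod_volume_eq_prod (fun w (z : ℂ) => ((P w).f (Profile.relDist (s w) z) : ℂ))

/-- The relative height of a translate by a diagonal element. -/
private def relHeight (p q : InfPts L) (α : Lˣ) : InfinitePlace L → ℝ :=
  fun w => Real.log ((q w).t / (p w).t) + Real.log (w (α : L))

/-- The relative horizontal coordinate of a translate by an upper triangular element. -/
private def relCoord (p q : InfPts L) (α : Lˣ) (β : L) : InfinitePlace L → ℂ :=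
  fun w => (w.embedding β + w.embedding (α : L) * (q w).z - (p w).z) / ((p w).t : ℂ)

/-- A translate of a product kernel in relative coordinates. -/
private lemma toPtKer_translate (D : KerData U) {P : InfinitePlace L → Profile}
    (hP : ∀ w, D.inf w = (P w).ker) (p q : InfPts L) (c d : FinCoset U) (α : Lˣ) (β : L) :
    D.toPtKer.k (p, c) ((ProjGenLinGroup.mk (uB β) : G2 L) •
      (ProjGenLinGroup.mk (dB α) : G2 L) • ((q, d) : Space U)) =
      D.kfin c ((ProjGenLinGroup.mk (uB β) : G2 L) • (ProjGenLinGroup.mk (dB α) : G2 L) • d) *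
        gfun P (relHeight p q α, relCoord p q α β) := by
  have hinf : ∀ p q : InfPts L, D.kinf p q = gfun P (fun w => Real.log ((q w).t / (p w).t),
      fun w => ((q w).z - (p w).z) / ((p w).t : ℂ)) := fun p q => by
    refine Finset.prod_congr rfl fun w _ => ?_
    rw [hP w]
    simp only [Profile.ker, Profile.coshDist_eq_relDist]
  have hdB : ∀ w : InfinitePlace L,
      (((ProjGenLinGroup.mk (dB α) : G2 L) • q) w).t = w (α : L) * (q w).t ∧
        (((ProjGenLinGroup.mk (dB α) : G2 L) • q) w).z = w.embedding (α : L) * (q w).z := by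
    intro w
    constructor
    · rw [infPts_smul_apply, ProjGenLinGroup.map_mk, H3.mk_smul, H3.t_smul]
      simp [H3.den, Matrix.det_fin_two, InfinitePlace.norm_embedding_eq]
    · rw [infPts_smul_apply, ProjGenLinGroup.map_mk, H3.mk_smul, H3.smul_def]
      simp [H3.act, H3.den, Matrix.det_fin_two]
  rw [KerData.toPtKer_k, mul_comm, hinf]
  simp only [Prod.smul_fst, Prod.smul_snd]
  congr 2
  refine Prod.ext (funext fun w => ?_) (funext fun w => ?_)
  · simp only [(uB_smul_inf β _ w).1, (hdB w).1, relHeight]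
    rw [mul_div_assoc, Real.log_mul (InfinitePlace.pos_iff.mpr α.ne_zero).ne'
      (div_pos (q w).t_pos (p w).t_pos).ne', add_comm]
  · simp only [(uB_smul_inf β _ w).2, (hdB w).2, relCoord]
    ring

/-- A diagonal part without contributing kernels has no main term. -/
lemma mainTerm_eq_zero (hU : U.IsCongr) (a : J → ℂ) {D : J → KerData U}
    {P : J → InfinitePlace L → Profile} (hP : ∀ j w, (D j).inf w = (P j w).ker)
    {p q : InfPts L} {c d : FinCoset U} {α : Lˣ}
    (hk : ∀ j (β : L) (z : InfinitePlace L → ℂ),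
      (D j).toPtKer.k (p, c) ((ProjGenLinGroup.mk (uB β) : G2 L) •
        (ProjGenLinGroup.mk (dB α) : G2 L) •
          (((fun w => ⟨z w, (q w).t, (q w).t_pos⟩), d) : Space U)) = 0) :
    mainTerm a D P c d (fun w => Real.log ((q w).t / (p w).t)) α = 0 := by
  classical
  refine Finset.sum_eq_zero fun j _ => ?_
  by_contra h
  obtain ⟨haj, hI⟩ := mul_ne_zero_iff.1 h
  have hH := right_ne_zero_of_mul haj
  obtain ⟨m, hm, hper⟩ := exists_period hU {(ProjGenLinGroup.mk (dB α) : G2 L) • d}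
  have hs := (finsum_kfin (D j) c _ hm (hper _ (Finset.mem_singleton_self _))).2
  have hkap : kappa m ≠ 0 := by
    rw [kappa]
    exact_mod_cast (finprod_induction (fun y : ℝ => 0 < y) one_pos (fun _ _ => mul_pos)
      fun v => inv_pos.2 ((absV v).pos (by simpa using hm))).ne'
  obtain ⟨r, hr⟩ : ∃ r : L ⧸ mLat m, (D j).kfin c
      ((ProjGenLinGroup.mk (uB r.out) : G2 L) • (ProjGenLinGroup.mk (dB α) : G2 L) • d) ≠ 0 := by
    by_contra hall
    push Not at hall
    simp only [hall, finsum_zero] at hs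
    exact mul_ne_zero hkap hH hs.symm
  rw [← integral_gfun] at hI
  obtain ⟨u, hu⟩ : ∃ u : InfinitePlace L → ℂ, gfun (P j) (relHeight p q α, u) ≠ 0 := by
    by_contra hall
    push Not at hall
    exact hI ((congrArg (fun F : (InfinitePlace L → ℂ) → ℂ => ∫ u, F u) (funext hall)).trans
      (integral_zero _ _))
  refine mul_ne_zero hr ?_ ((toPtKer_translate (D j) (hP j) p _ c d α r.out).symm.trans (hk j r.out
    fun w => (u w * ((p w).t : ℂ) + (p w).z - w.embedding (r.out : L)) / w.embedding (α : L)))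
  convert hu using 2
  refine Prod.ext rfl (funext fun w => ?_)
  have : w.embedding (α : L) ≠ 0 := by simp
  have : ((p w).t : ℂ) ≠ 0 := by exact_mod_cast (p w).t_pos.ne'
  simp only [relCoord]
  field_simp
  ring

open Classical in
/-- When the main terms outside a finite set vanish, the function whose lattice sums approximate the
translation sums has integral zero. -/
private lemma integral_main_eq_zero {a : J → ℂ} {D : J → KerData U}
    {P : J → InfinitePlace L → Profile} (h0 : MainZero a D P) (κ : ℂ) {c d : FinCoset U}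
    (p q : InfPts L) {A : Finset Lˣ}
    (hA : ∀ α ∉ A, mainTerm a D P c d (fun w => Real.log ((q w).t / (p w).t)) α = 0)
    (hint : ∀ i : J × Lˣ, Integrable fun u => gfun (P i.1) (relHeight p q i.2, u)) :
    ∫ u, ∑ i ∈ Finset.univ ×ˢ A, a i.1 *
      (κ * hfun (D i.1) c ((ProjGenLinGroup.mk (dB i.2) : G2 L) • d)) *
        gfun (P i.1) (relHeight p q i.2, u) = 0 := by
  rw [integral_finsetSum _ fun i _ => (hint i).const_mul _]
  simp only [integral_const_mul, relHeight, integral_gfun]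
  rw [Finset.sum_product_right]
  have hz := h0 c d fun w => Real.log ((q w).t / (p w).t)
  rw [finsum_eq_sum_of_support_subset _ (s := A) fun α hα => by_contra fun h =>
    hα (hA α h)] at hz
  calc _ = κ * ∑ α ∈ A, mainTerm a D P c d (fun w => Real.log ((q w).t / (p w).t)) α := by
        rw [Finset.mul_sum]
        refine Finset.sum_congr rfl fun α _ => ?_
        rw [mainTerm, Finset.mul_sum]
        refine Finset.sum_congr rfl fun j _ => ?_
        ring
    _ = 0 := by rw [hz, mul_zero]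

/-- Supports and derivatives of the slices of the profiles are uniformly bounded. -/
private lemma exists_gfun_bounds (P : J → InfinitePlace L → Profile) (n : ℕ) :
    ∃ (R : ℝ) (M : J → ℝ), 0 ≤ R ∧ (∀ j, 0 ≤ M j) ∧
      (∀ j s u, gfun (P j) (s, u) ≠ 0 → ‖u‖ ≤ R) ∧
      ∀ j s e, ‖iteratedFDeriv ℝ n (fun u => gfun (P j) (s, u)) e‖ ≤ M j := by
  choose Rj hRj0 hRj using fun j => gfun_supp (P j)
  set R := ∑ j, Rj j
  have hgsupp : ∀ j s u, gfun (P j) (s, u) ≠ 0 → ‖s‖ ≤ R ∧ ‖u‖ ≤ R := fun j s u h =>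
    ⟨(hRj j s u h).1.trans (Finset.single_le_sum (fun j _ => hRj0 j) (Finset.mem_univ j)),
      (hRj j s u h).2.trans (Finset.single_le_sum (fun j _ => hRj0 j) (Finset.mem_univ j))⟩
  choose Mj hMj using fun j => Periodic.exists_slice_bound (gfun (P j)) n
    ((contDiff_gfun (P j)).of_le (WithTop.coe_le_coe.mpr le_top))
    (isCompact_closedBall (0 : InfinitePlace L → ℝ) R) (fun r _ e he => (hgsupp j r e he).2)
  refine ⟨R, fun j => max (Mj j) 0, Finset.sum_nonneg fun j _ => hRj0 j, fun j => le_max_right _ _,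
    fun j s u h => (hgsupp j s u h).2, fun j s e => ?_⟩
  by_cases hs : ‖s‖ ≤ R
  · exact (hMj j s (by simpa using hs) e).trans (le_max_left _ _)
  · have h0' : (fun u => gfun (P j) (s, u)) = fun _ => (0 : ℂ) := funext fun u =>
      by_contra fun h => hs (hgsupp j s u h).1
    rw [h0', iteratedFDeriv_fun_zero]
    simp

/-- Cosets of a multiple of the integers and integral coordinates parametrise the field. -/
private lemma coset_rep_bijective {m : 𝓞 L} (hm : m ≠ 0) {N : ℕ} (bI : Basis (Fin N) ℤ (𝓞 L)) :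
    Function.Bijective fun ra : (L ⧸ mLat m) × (Fin N → ℤ) =>
      ra.1.out + (m : L) * ((bI.equivFun.symm ra.2 : 𝓞 L) : L) := by
  set ψ : (L ⧸ mLat m) × (Fin N → ℤ) → L := fun ra =>
    ra.1.out + (m : L) * ((bI.equivFun.symm ra.2 : 𝓞 L) : L)
  have hψr : ∀ ra, (QuotientAddGroup.mk (ψ ra) : L ⧸ mLat m) = ra.1 := fun ra => by
    refine Eq.trans ?_ (QuotientAddGroup.out_eq' ra.1)
    rw [QuotientAddGroup.eq, show -(ψ ra) + ra.1.out =
      -((m : L) * ((bI.equivFun.symm ra.2 : 𝓞 L) : L)) by simp only [ψ]; abel]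
    exact neg_mem (mul_mem_mLat m _)
  refine ⟨fun ra ra' h => ?_, fun β => ?_⟩
  · have h1 : ra.1 = ra'.1 := by rw [← hψr ra, ← hψr ra', h]
    refine Prod.ext h1 ?_
    simp only [ψ, h1, add_right_inj] at h
    exact bI.equivFun.symm.injective
      (RingOfIntegers.coe_injective (mul_left_cancel₀ (by simpa using hm) h))
  · obtain ⟨x, hx⟩ := exists_eq_of_mem_mLat hm
      (QuotientAddGroup.eq.1 (QuotientAddGroup.out_eq' (QuotientAddGroup.mk β : L ⧸ mLat m)))
    refine ⟨(QuotientAddGroup.mk β, bI.equivFun x), ?_⟩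
    simp only [ψ, LinearEquiv.symm_apply_apply, ← hx]
    abel

omit [Fintype J] in
/-- Only finitely many translates by a unipotent element meet the support of a kernel. -/
private lemma summable_translate (k : PtKer U) (x y : Space U) :
    Summable fun β : L => k.k x ((ProjGenLinGroup.mk (uB β) : G2 L) • y) := by
  refine summable_of_hasFiniteSupport (Set.Finite.subset ((k.finite_support x y).preimage
    (f := fun β : L => (ProjGenLinGroup.mk (uB β) : G2 L)) ?_) fun β h => h)
  intro a _ b _ h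
  have := mk_upper_injective (L := L) (a₁ := (1, a)) (a₂ := (1, b)) (by
    simp only [show dB (1 : Lˣ) = 1 by
      apply Units.ext; ext i j; fin_cases i <;> fin_cases j <;> simp, mul_one]
    exact h)
  exact (Prod.ext_iff.1 this).2

section Lattice

variable {E : Type*} [NormedAddCommGroup E] [NormedSpace ℝ E] {ι : Type} [Fintype ι]

/-- Only finitely many translates of a lattice meet a ball. -/
private lemma finite_lattice_near (Λ : (ι → ℝ) ≃L[ℝ] E) (R : ℝ) (b : E) :
    {n : ι → ℤ | ‖Λ (Periodic.ivec n) + b‖ ≤ R}.Finite := by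
  obtain ⟨S, hS, -⟩ := Periodic.finite_near (-(Λ.symm b))
    (‖(Λ.symm : E →L[ℝ] ι → ℝ)‖ * R)
  refine S.finite_toSet.subset fun n hn => hS n ?_
  have h2 := (Λ.symm : E →L[ℝ] ι → ℝ).le_opNorm (Λ (Periodic.ivec n) + b)
  rw [ContinuousLinearEquiv.coe_coe, map_add, Λ.symm_apply_apply] at h2
  rw [sub_neg_eq_add]
  exact h2.trans (mul_le_mul_of_nonneg_left hn (norm_nonneg _))

variable [MeasurableSpace E] [BorelSpace E]

/-- A combination of translated lattice sums whose main term has integral zero is bounded by the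
oscillation of its parts. -/
private lemma norm_sum_lattice_sums_le (Λ : (ι → ℝ) ≃L[ℝ] E) (μ : Measure E) [μ.IsAddHaarMeasure]
    {n : ℕ} {R O : ℝ} (hR : 0 ≤ R)
    (hO : ∀ M, 0 ≤ M → (Fintype.card ι : ℝ) ^ n *
      ((2 * (‖(Λ.symm : E →L[ℝ] ι → ℝ)‖ * R + 1) + 2) ^ Fintype.card ι *
        (M * ‖(Λ : (ι → ℝ) →L[ℝ] E)‖ ^ (n + 1))) ≤ O * M)
    {I K : Type*} (S : Finset I) (a : I → ℂ) (T : I → Finset K) (f : I → K → ℂ) (b : I → K → E)
    (g : I → E → ℂ) (M : I → ℝ) (hM0 : ∀ i, 0 ≤ M i) (hg : ∀ i, ContDiff ℝ (n + 1 : ℕ) (g i))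
    (hgR : ∀ i e, g i e ≠ 0 → ‖e‖ ≤ R) (hgM : ∀ i e, ‖iteratedFDeriv ℝ (n + 1) (g i) e‖ ≤ M i)
    (coef : I → ℂ) (hcoef : ∀ i ∈ S, coef i = a i * ∑ r ∈ T i, f i r)
    (hint : ∫ u, ∑ i ∈ S, coef i * g i u ∂μ = 0) :
    ‖∑ i ∈ S, a i * ∑ r ∈ T i, f i r * ∑' k : ι → ℤ, g i (Λ (Periodic.ivec k) + b i r)‖ ≤
      (∑ i ∈ S, ‖a i‖ * ∑ r ∈ T i, ‖f i r‖ * (O * M i)) + O * ∑ i ∈ S, ‖coef i‖ * M i := by
  set L0 := fun i => ∑' k : ι → ℤ, g i (Λ (Periodic.ivec k))
  have hmain : ‖∑ i ∈ S, coef i * L0 i‖ ≤ O * ∑ i ∈ S, ‖coef i‖ * M i := by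
    have e : ∑ i ∈ S, coef i * L0 i =
        ∑' k : ι → ℤ, ∑ i ∈ S, coef i * g i (Λ (Periodic.ivec k) + 0) := by
      simp only [add_zero]
      rw [Summable.tsum_finsetSum fun i _ => Summable.mul_left _ (summable_of_hasFiniteSupport
        ((finite_lattice_near Λ R 0).subset fun k hk => by simpa using hgR i _ hk))]
      simp only [tsum_mul_left, L0]
    rw [e]
    refine (lattice_sum_le_of_integral_zero Λ μ _ n
      (ContDiff.sum fun i _ => contDiff_const.mul (hg i)) hR (fun e he => ?_) (fun e => ?_)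
      hint 0).trans (hO _ (Finset.sum_nonneg fun i _ => mul_nonneg (norm_nonneg _) (hM0 i)))
    · obtain ⟨i, -, hi⟩ := Finset.exists_ne_zero_of_sum_ne_zero he
      exact hgR i e (right_ne_zero_of_mul hi)
    · rw [iteratedFDeriv_sum fun i _ => contDiff_const.mul (hg i)]
      simp only [Finset.sum_apply]
      refine (norm_sum_le _ _).trans (Finset.sum_le_sum fun i _ => ?_)
      rw [show (fun u => coef i * g i u) = coef i • g i from rfl,
        iteratedFDeriv_const_smul_apply (hg i).contDiffAt, norm_smul]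
      exact mul_le_mul_of_nonneg_left (hgM i e) (norm_nonneg _)
  calc _ = ‖(∑ i ∈ S, a i * ∑ r ∈ T i, f i r *
        ((∑' k : ι → ℤ, g i (Λ (Periodic.ivec k) + b i r)) - L0 i)) +
          ∑ i ∈ S, coef i * L0 i‖ := by
        rw [← Finset.sum_add_distrib]
        refine congrArg norm (Finset.sum_congr rfl fun i hi => ?_)
        simp only [hcoef i hi, mul_sub, Finset.sum_sub_distrib, ← Finset.sum_mul]
        ring
    _ ≤ _ := by
        refine (norm_add_le _ _).trans (add_le_add ?_ hmain)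
        refine (norm_sum_le _ _).trans (Finset.sum_le_sum fun i _ => ?_)
        rw [norm_mul]
        refine mul_le_mul_of_nonneg_left ((norm_sum_le _ _).trans
          (Finset.sum_le_sum fun r _ => ?_)) (norm_nonneg _)
        rw [norm_mul]
        refine mul_le_mul_of_nonneg_left ?_ (norm_nonneg _)
        have h := (Periodic.lattice_sum_sub_le Λ (g i) n (hg i) hR (hgR i) (hgM i) (b i r) 0).trans
          (hO _ (hM0 i))
        simpa [L0] using h

omit [MeasurableSpace E] [BorelSpace E] in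
/-- The oscillation is bounded independently of the height. -/
private lemma oscillation_le (Λ : (ι → ℝ) ≃L[ℝ] E) {n : ℕ} (hn : n + 1 = Fintype.card ι)
    {R c₀ T a₁ a₂ : ℝ} (hR : 0 ≤ R) (hc₀ : 0 < c₀) (hT : c₀ ≤ T) (ha₁ : 0 ≤ a₁) (ha₂ : 0 ≤ a₂)
    (hΛ1 : ‖(Λ : (ι → ℝ) →L[ℝ] E)‖ ≤ a₁ / T)
    (hΛ2 : ‖(Λ.symm : E →L[ℝ] ι → ℝ)‖ ≤ a₂ * T) {M : ℝ} (hM : 0 ≤ M) :
    (Fintype.card ι : ℝ) ^ n *
      ((2 * (‖(Λ.symm : E →L[ℝ] ι → ℝ)‖ * R + 1) + 2) ^ Fintype.card ι *
        (M * ‖(Λ : (ι → ℝ) →L[ℝ] E)‖ ^ (n + 1))) ≤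
      (Fintype.card ι : ℝ) ^ n * ((2 * (a₂ * R + 1 / c₀) + 2 / c₀) ^ Fintype.card ι *
        a₁ ^ Fintype.card ι) * M := by
  have hT0 : 0 < T := hc₀.trans_le hT
  rw [hn]
  refine le_of_le_of_eq (mul_le_mul_of_nonneg_left ?_ (by positivity))
    (show (Fintype.card ι : ℝ) ^ n * (M * ((2 * (a₂ * R + 1 / c₀) + 2 / c₀) ^ Fintype.card ι *
      a₁ ^ Fintype.card ι)) = _ by ring)
  rw [mul_left_comm]
  refine mul_le_mul_of_nonneg_left ?_ hM
  rw [← mul_pow, ← mul_pow]
  refine pow_le_pow_left₀ (by positivity) ?_ _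
  refine (mul_le_mul (add_le_add (mul_le_mul_of_nonneg_left (add_le_add
    (mul_le_mul_of_nonneg_right hΛ2 hR) le_rfl) zero_le_two) le_rfl) hΛ1
    (norm_nonneg _) (by positivity)).trans ?_
  rw [← mul_div_assoc, div_le_iff₀ hT0]
  have h6 : 1 ≤ T / c₀ := (one_le_div hc₀).mpr hT
  calc (2 * (a₂ * T * R + 1) + 2) * a₁
      ≤ (2 * (a₂ * T * R + T / c₀) + 2 * (T / c₀)) * a₁ := by
        refine mul_le_mul_of_nonneg_right ?_ ha₁
        linarith
    _ = _ := by ring

end Lattice

/-- One translation sum is a finite combination of lattice sums. -/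
private lemma tsum_translate_eq (D : KerData U) {P : InfinitePlace L → Profile}
    (hP : ∀ w, D.inf w = (P w).ker) {p q : InfPts L} {c d : FinCoset U} {α : Lˣ} {m : 𝓞 L}
    (hm : m ≠ 0) (hper : ∀ (v : HeightOneSpectrum (𝓞 L)) (x : L),
      v.valuation L x ≤ v.valuation L (m : L) → (ProjGenLinGroup.mk (uB x) : G2 L) •
        ((ProjGenLinGroup.mk (dB α) : G2 L) • d).1 v = ((ProjGenLinGroup.mk (dB α) : G2 L) • d).1 v)
    {N : ℕ} (bI : Basis (Fin N) ℤ (𝓞 L)) (Λ : (Fin N → ℝ) ≃L[ℝ] (InfinitePlace L → ℂ))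
    (hΛ : ∀ (n : Fin N → ℤ) (w : InfinitePlace L), Λ (Periodic.ivec n) w =
      w.embedding ((m : L) * ((bI.equivFun.symm n : 𝓞 L) : L)) / ((p w).t : ℂ))
    {R : ℝ} (hR : ∀ s u, gfun P (s, u) ≠ 0 → ‖u‖ ≤ R) (T : Finset (L ⧸ mLat m))
    (hT : ∀ r ∉ T, D.kfin c
      ((ProjGenLinGroup.mk (uB r.out) : G2 L) • (ProjGenLinGroup.mk (dB α) : G2 L) • d) = 0) :
    (∑' β : L, D.toPtKer.k (p, c) ((ProjGenLinGroup.mk (uB β) : G2 L) •
      (ProjGenLinGroup.mk (dB α) : G2 L) • ((q, d) : Space U))) =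
      ∑ r ∈ T, D.kfin c
          ((ProjGenLinGroup.mk (uB r.out) : G2 L) • (ProjGenLinGroup.mk (dB α) : G2 L) • d) *
        ∑' n : Fin N → ℤ,
          gfun P (relHeight p q α, Λ (Periodic.ivec n) + relCoord p q α r.out) := by
  set F : (L ⧸ mLat m) → (Fin N → ℤ) → ℂ := fun r n => D.kfin c
      ((ProjGenLinGroup.mk (uB r.out) : G2 L) • (ProjGenLinGroup.mk (dB α) : G2 L) • d) *
    gfun P (relHeight p q α, Λ (Periodic.ivec n) + relCoord p q α r.out)
  simp only [toPtKer_translate D hP]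
  rw [← (Equiv.ofBijective _ (coset_rep_bijective hm bI)).tsum_eq,
    tsum_congr (g := fun ra => F ra.1 ra.2) fun ra => ?_]
  swap
  · simp only [Equiv.ofBijective_apply, F]
    congr 1
    · congr 1
      refine FinCoset.ext fun v => ?_
      simp only [FinCoset.smul_apply]
      exact uB_add_smul (hper v _ (mul_mem_mLat m _ v))
    · congr 2
      funext w
      simp only [relCoord, Pi.add_apply, hΛ, map_add, map_mul]
      ring
  have hsumm : Summable fun ra : (L ⧸ mLat m) × (Fin N → ℤ) => F ra.1 ra.2 := by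
    refine summable_of_hasFiniteSupport (Set.Finite.subset (T.finite_toSet.biUnion fun r _ =>
      (Set.finite_singleton r).prod (finite_lattice_near Λ R (relCoord p q α r.out)))
      fun ra hra => ?_)
    exact Set.mem_biUnion (x := ra.1)
      (by_contra fun h => left_ne_zero_of_mul hra (hT _ h))
      ⟨rfl, hR _ _ (right_ne_zero_of_mul hra)⟩
  rw [Summable.tsum_prod hsumm, tsum_eq_sum (s := T) fun r hr => by simp [F, hT r hr]]
  simp only [F, tsum_mul_left]

/-- Integral coordinates in the basis of the archimedean algebra. -/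
private lemma infBasis_ivec {N : ℕ} (e : Free.ChooseBasisIndex ℤ (𝓞 L) ≃ Fin N) (x : Fin N → ℤ)
    (w : InfinitePlace L) [IsTotallyComplex L] :
    ((infBasis L).reindex e).equivFun.symm (Periodic.ivec x) w =
      w.embedding ((((RingOfIntegers.basis L).reindex e).equivFun.symm x : 𝓞 L) : L) := by
  simp only [Basis.equivFun_symm_apply, Finset.sum_apply, Periodic.ivec]
  push_cast
  rw [map_sum]
  refine Finset.sum_congr rfl fun i _ => ?_
  simp only [Basis.reindex_apply, infBasis_apply, integralBasis_apply, Pi.smul_apply,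
    infEmb_apply, zsmul_eq_mul, map_intCast, map_mul]
  simp

variable [IsTotallyComplex L]

/-- The lattices of translations, scaled by the heights, have norms comparable to the height. -/
private lemma exists_scaled_lattice {N : ℕ} (e : Free.ChooseBasisIndex ℤ (𝓞 L) ≃ Fin N)
    {m : 𝓞 L} (hm : m ≠ 0) (Bz : ℝ) :
    ∃ a₁ a₂ : ℝ, 0 ≤ a₁ ∧ 0 ≤ a₂ ∧ ∀ (T : ℝ) (p : InfPts L), 0 < T →
      (∀ w, T ≤ (p w).t ∧ (p w).t ≤ Bz * T) →
      ∃ Λ : (Fin N → ℝ) ≃L[ℝ] (InfinitePlace L → ℂ),
        (∀ (n : Fin N → ℤ) (w : InfinitePlace L), Λ (Periodic.ivec n) w = w.embedding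
          ((m : L) * ((((RingOfIntegers.basis L).reindex e).equivFun.symm n : 𝓞 L) : L)) /
            ((p w).t : ℂ)) ∧
        ‖(Λ : (Fin N → ℝ) →L[ℝ] InfinitePlace L → ℂ)‖ ≤ a₁ / T ∧
        ‖(Λ.symm : (InfinitePlace L → ℂ) →L[ℝ] Fin N → ℝ)‖ ≤ a₂ * T := by
  have hmL : (m : L) ≠ 0 := by simpa using hm
  let E0 : (Fin N → ℝ) ≃L[ℝ] (InfinitePlace L → ℂ) :=
    ((infBasis L).reindex e).equivFun.symm.toContinuousLinearEquiv
  let μm := fun w : InfinitePlace L => ‖w.embedding (m : L)‖
  have hμ : ∀ w, 0 < μm w := fun w => by simpa [μm] using hmL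
  refine ⟨(∑ w, μm w) * ‖(E0 : (Fin N → ℝ) →L[ℝ] InfinitePlace L → ℂ)‖,
    ‖(E0.symm : (InfinitePlace L → ℂ) →L[ℝ] Fin N → ℝ)‖ * ((∑ w, (μm w)⁻¹) * |Bz|),
    by positivity, by positivity, fun T p hT hp => ?_⟩
  have hc : ∀ w : InfinitePlace L, w.embedding (m : L) / ((p w).t : ℂ) ≠ 0 := fun w =>
    div_ne_zero (by simpa using hmL) (by exact_mod_cast (p w).t_pos.ne')
  let Sc : (InfinitePlace L → ℂ) ≃L[ℝ] (InfinitePlace L → ℂ) :=
    ContinuousLinearEquiv.piCongrRight fun w =>
      ((LinearEquiv.smulOfNeZero ℂ ℂ _ (hc w)).restrictScalars ℝ).toContinuousLinearEquiv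
  have hS : ∀ y w, Sc y w = w.embedding (m : L) / ((p w).t : ℂ) * y w := fun y w => by
    simp [Sc]
  have hSs : ∀ y w, Sc.symm y w = (w.embedding (m : L) / ((p w).t : ℂ))⁻¹ * y w := fun y w => by
    apply mul_left_cancel₀ (hc w)
    rw [← mul_assoc, mul_inv_cancel₀ (hc w), one_mul, ← hS, Sc.apply_symm_apply]
  refine ⟨E0.trans Sc, fun x w => ?_, ?_, ?_⟩
  · rw [ContinuousLinearEquiv.trans_apply, hS, map_mul,
      show E0 (Periodic.ivec x) w = _ from infBasis_ivec e x w]
    ring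
  · refine ContinuousLinearMap.opNorm_le_bound _ (by positivity) fun x => ?_
    refine (pi_norm_le_iff_of_nonneg (by positivity)).mpr fun w => ?_
    rw [ContinuousLinearEquiv.coe_coe, ContinuousLinearEquiv.trans_apply, hS, norm_mul, norm_div,
      Complex.norm_real, Real.norm_of_nonneg (p w).t_pos.le]
    refine (mul_le_mul (div_le_div₀ (Finset.sum_nonneg fun w _ => (hμ w).le)
      (Finset.single_le_sum (fun w _ => (hμ w).le) (Finset.mem_univ w)) hT (hp w).1)
      ((norm_le_pi_norm _ w).trans ((E0 : (Fin N → ℝ) →L[ℝ] InfinitePlace L → ℂ).le_opNorm x))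
      (norm_nonneg _) (by positivity)).trans (le_of_eq (by ring))
  · refine ContinuousLinearMap.opNorm_le_bound _ (by positivity) fun x => ?_
    rw [ContinuousLinearEquiv.coe_coe, ContinuousLinearEquiv.symm_trans_apply]
    refine ((E0.symm : (InfinitePlace L → ℂ) →L[ℝ] Fin N → ℝ).le_opNorm _).trans ?_
    rw [show ∀ (a b l T x : ℝ), a * (b * l) * T * x = a * ((b * (l * T)) * x) from
      fun _ _ _ _ _ => by ring]
    refine mul_le_mul_of_nonneg_left ?_ (norm_nonneg _)
    refine (pi_norm_le_iff_of_nonneg (by positivity)).mpr fun w => ?_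
    rw [hSs, norm_mul, norm_inv, norm_div, Complex.norm_real,
      Real.norm_of_nonneg (p w).t_pos.le, inv_div, div_eq_inv_mul]
    refine mul_le_mul ?_ (norm_le_pi_norm x w) (norm_nonneg _) (by positivity)
    refine mul_le_mul (Finset.single_le_sum (f := fun w => (μm w)⁻¹)
      (fun w _ => inv_nonneg.mpr (hμ w).le) (Finset.mem_univ w)) ((hp w).2.trans ?_)
      (p w).t_pos.le (Finset.sum_nonneg fun w _ => inv_nonneg.mpr (hμ w).le)
    exact mul_le_mul_of_nonneg_right (le_abs_self Bz) hT.le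

open Classical in
/-- A finite sum of product kernels whose main terms cancel has bounded automorphisation. -/
theorem bounded_aut_sum (hU : U.IsCongr) (a : J → ℂ) (D : J → KerData U)
    (P : J → InfinitePlace L → Profile) (hP : ∀ j w, (D j).inf w = (P j w).ker)
    (h0 : MainZero a D P) :
    ∃ B, ∀ x y, ‖∑ j, a j * (D j).toPtKer.aut x y‖ ≤ B := by
  suffices h : ∃ B, ∀ x y, ‖(sumKer a fun j => (D j).toPtKer).aut x y‖ ≤ B by
    simpa only [sumKer_aut] using h
  refine bounded_aut_of_cusp_sums hU _ fun C₀ Bz c₀ hc₀ A₀ => ?_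
  choose A' hA' using fun j => (D j).toPtKer.exists_alpha_set C₀ Bz c₀
  set A := A₀ ∪ Finset.univ.biUnion A'
  refine ⟨A, Finset.subset_union_left, fun c hc d hd => ?_⟩
  let dα : Lˣ → FinCoset U := fun α => (ProjGenLinGroup.mk (dB α) : G2 L) • d
  obtain ⟨m, hm, hper⟩ := exists_period hU (A.image dα)
  -- outside the set the main term vanishes
  have hout : ∀ p q : InfPts L, InCusp c₀ Bz p → InCusp c₀ Bz q → ∀ α ∉ A,
      mainTerm a D P c d (fun w => Real.log ((q w).t / (p w).t)) α = 0 :=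
    fun p q hp hq α hα => mainTerm_eq_zero hU a hP fun j β z => by_contra fun h =>
      hα (Finset.mem_union_right _ (Finset.mem_biUnion.2 ⟨j, Finset.mem_univ j,
        hA' j (p, c) (fun w => ⟨z w, (q w).t, (q w).t_pos⟩, d) hc hd hp hq α β
          (by rwa [map_mul, mul_smul])⟩))
  -- lattices and uniform bounds for the profiles
  let e := Fintype.equivFin (Free.ChooseBasisIndex ℤ (𝓞 L))
  set N := Fintype.card (Free.ChooseBasisIndex ℤ (𝓞 L))
  have hN : N - 1 + 1 = Fintype.card (Fin N) := by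
    rw [Fintype.card_fin]; exact Nat.sub_add_cancel (Fintype.card_pos_iff.mpr inferInstance)
  obtain ⟨a₁, a₂, ha₁, ha₂, hbd⟩ := exists_scaled_lattice e hm Bz
  obtain ⟨R, Mj, hR0, hM0, hgsupp, hslice⟩ := exists_gfun_bounds P (N - 1 + 1)
  let f : J × Lˣ → (L ⧸ mLat m) → ℂ := fun i r =>
    (D i.1).kfin c ((ProjGenLinGroup.mk (uB r.out) : G2 L) • dα i.2)
  let T₀ : J × Lˣ → Finset (L ⧸ mLat m) := fun i =>
    if h : (Function.support (f i)).Finite then h.toFinset else ∅
  have hT₀ : ∀ i ∈ Finset.univ ×ˢ A, (∀ r ∉ T₀ i, f i r = 0) ∧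
      ∑ r ∈ T₀ i, f i r = kappa m * hfun (D i.1) c (dα i.2) := fun i hi => by
    obtain ⟨h1, h2⟩ := finsum_kfin (D i.1) c (dα i.2) hm
      (hper _ (Finset.mem_image_of_mem _ (Finset.mem_product.1 hi).2))
    rw [← h2, finsum_eq_sum _ h1, show h1.toFinset = T₀ i from (dif_pos h1).symm]
    exact ⟨fun r hr => by simpa [T₀, f, dif_pos h1] using hr, rfl⟩
  let coef : J × Lˣ → ℂ := fun i => a i.1 * (kappa m * hfun (D i.1) c (dα i.2))
  let O : ℝ := (Fintype.card (Fin N) : ℝ) ^ (N - 1) *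
    ((2 * (a₂ * R + 1 / c₀) + 2 / c₀) ^ Fintype.card (Fin N) * a₁ ^ Fintype.card (Fin N))
  refine ⟨(∑ i ∈ Finset.univ ×ˢ A, ‖a i.1‖ * ∑ r ∈ T₀ i, ‖f i r‖ * (O * Mj i.1)) +
    O * ∑ i ∈ Finset.univ ×ˢ A, ‖coef i‖ * Mj i.1, fun p q hp hq => ?_⟩
  obtain ⟨w₀, -, hw₀⟩ := Finset.exists_min_image Finset.univ (fun w : InfinitePlace L => (p w).t)
    Finset.univ_nonempty
  obtain ⟨Λ, hΛ, hΛ1, hΛ2⟩ := hbd (p w₀).t p (p w₀).t_pos
    fun w => ⟨hw₀ w (Finset.mem_univ w), (hp w).2 w₀⟩
  let g : J × Lˣ → (InfinitePlace L → ℂ) → ℂ := fun i u =>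
    gfun (P i.1) (relHeight p q i.2, u)
  have hgsm : ∀ i, ContDiff ℝ (N - 1 + 1 : ℕ) (g i) := fun i =>
    ((contDiff_gfun (P i.1)).of_le (WithTop.coe_le_coe.mpr le_top)).comp
      (contDiff_const.prodMk contDiff_id)
  have hgR : ∀ i e, g i e ≠ 0 → ‖e‖ ≤ R := fun i e he => hgsupp i.1 _ e he
  have hgi : ∀ i, Integrable (g i) := fun i =>
    (hgsm i).continuous.integrable_of_hasCompactSupport
      (HasCompactSupport.intro (isCompact_closedBall 0 R) fun e he => by_contra fun h =>
        he (by simpa using hgR i e h))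
  -- the translation sums are lattice sums
  have htot : (∑ α ∈ A, ∑' β : L, (sumKer a fun j => (D j).toPtKer).k (p, c)
      ((ProjGenLinGroup.mk (uB β) : G2 L) • (ProjGenLinGroup.mk (dB α) : G2 L) •
        ((q, d) : Space U))) = ∑ i ∈ Finset.univ ×ˢ A, a i.1 * ∑ r ∈ T₀ i,
          f i r * ∑' n : Fin N → ℤ, g i (Λ (Periodic.ivec n) + relCoord p q i.2 r.out) := by
    rw [Finset.sum_product_right]
    refine Finset.sum_congr rfl fun α hα => ?_
    simp only [sumKer_k]
    rw [Summable.tsum_finsetSum fun j _ => Summable.mul_left _ (summable_translate _ _ _)]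
    refine Finset.sum_congr rfl fun j _ => ?_
    rw [tsum_mul_left, tsum_translate_eq (D j) (hP j) hm
      (hper _ (Finset.mem_image_of_mem _ hα)) _ Λ hΛ (hgsupp j) (T₀ (j, α))
      (hT₀ (j, α) (Finset.mem_product.2 ⟨Finset.mem_univ j, hα⟩)).1]
  rw [htot]
  exact norm_sum_lattice_sums_le Λ volume hR0
    (fun M hM => oscillation_le Λ hN hR0 hc₀ (hp w₀).1 ha₁ ha₂ hΛ1 hΛ2 hM) _ (fun i => a i.1) T₀ f
    (fun i r => relCoord p q i.2 r.out) g (fun i => Mj i.1) (fun i => hM0 i.1) hgsm hgR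
    (fun i e => hslice i.1 _ e) coef (fun i hi => by rw [(hT₀ i hi).2])
    (integral_main_eq_zero h0 (kappa m) p q (hout p q hp hq) hgi)

end FermatAgent.LT2.Cusp
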