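import Mathlib
import Fermat.Agent.LT.Descent.Spec.Act
import Fermat.Agent.LT2.Cusp.Bounded

/-!
# Sums of kernels, polarisation, and left multiples of bounded sums

Finite sums of kernels at infinity, the identity writing a symmetric trilinear expression through
cubes of sums, and the invariance of boundedness of a combined automorphic kernel under left
multiplication and regrouping: the algebra behind the auxiliary family.
-/

set_option autoImplicit false

noncomputable section

open Matrix IsDedekindDomain NumberField Filter MeasureTheory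
open scoped MatrixGroups ENNReal ComplexConjugate

namespace FermatAgent.LT2.Cusp

open FermatAgent.LT

section InfSum

variable {ι : Type*} (s : Finset ι) (f : ι → InfKer)

/-- A finite sum of kernels at infinity. -/
def infSum : InfKer where
  k p q := ∑ i ∈ s, (f i).k p q
  meas := Finset.measurable_sum _ fun i _ => (f i).meas
  inv g p q := Finset.sum_congr rfl fun i _ => (f i).inv g p q
  C := ∑ i ∈ s, (f i).C
  C_nonneg := Finset.sum_nonneg fun i _ => (f i).C_nonneg
  bound p q := (norm_sum_le _ _).trans (Finset.sum_le_sum fun i _ => (f i).bound p q)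
  ρ := ∑ i ∈ s, max (f i).ρ 0
  supp p q h := by
    obtain ⟨i, hi, hne⟩ := Finset.exists_ne_zero_of_sum_ne_zero h
    exact ((f i).supp p q hne).trans ((le_max_left _ 0).trans
      (Finset.single_le_sum (f := fun i => max (f i).ρ 0) (fun i _ => le_max_right _ _) hi))

lemma infSum_k (p q : H3) : (infSum s f).k p q = ∑ i ∈ s, (f i).k p q := rfl

/-- Sums of flip invariant kernels are flip invariant. -/
lemma isFlip_infSum (h : ∀ i, (f i).IsFlip) : (infSum s f).IsFlip := fun p q =>
  Finset.sum_congr rfl fun i _ => h i p q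

/-- Sums of real kernels are real. -/
lemma isReal_infSum (h : ∀ i, (f i).IsReal) : (infSum s f).IsReal := fun p q => by
  simp only [infSum_k, map_sum]
  exact Finset.sum_congr rfl fun i _ => h i p q

lemma infSum_comp (B : InfKer) (p r : H3) :
    ((infSum s f).comp B).k p r = ∑ i ∈ s, ((f i).comp B).k p r := by
  simp only [InfKer.comp_k, infSum_k, Finset.sum_mul]
  exact integral_finsetSum _ fun i _ => (f i).integrable_row p
    (B.meas.comp (measurable_id.prodMk measurable_const)) fun q => B.bound q r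

/-- Composition distributes over sums. -/
lemma comp_infSum (A : InfKer) (p r : H3) :
    (A.comp (infSum s f)).k p r = ∑ i ∈ s, (A.comp (f i)).k p r := by
  rw [InfKer.comp_comm, infSum_comp]
  exact Finset.sum_congr rfl fun i _ => InfKer.comp_comm _ _ _ _

/-- The triple composite of a sum. -/
lemma infSum_cube (p r : H3) :
    ((infSum s f).comp ((infSum s f).comp (infSum s f))).k p r =
      ∑ i ∈ s, ∑ j ∈ s, ∑ l ∈ s, ((f i).comp ((f j).comp (f l))).k p r := by
  rw [infSum_comp]
  refine Finset.sum_congr rfl fun i _ => ?_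
  calc ((f i).comp ((infSum s f).comp (infSum s f))).k p r
      = ((f i).comp (infSum s fun j => (f j).comp (infSum s f))).k p r :=
        congrFun (congrFun (InfKer.comp_congr rfl
          (funext fun a => funext fun b => infSum_comp s f _ a b)) p) r
    _ = ∑ j ∈ s, ((f i).comp ((f j).comp (infSum s f))).k p r := comp_infSum s _ _ p r
    _ = _ := Finset.sum_congr rfl fun j _ => by
        rw [show ((f i).comp ((f j).comp (infSum s f))).k p r =
          ((f i).comp (infSum s fun l => (f j).comp (f l))).k p r from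
          congrFun (congrFun (InfKer.comp_congr rfl
            (funext fun a => funext fun b => comp_infSum s f _ a b)) p) r, comp_infSum]

end InfSum

/-- The signs of the polarisation. -/
def polSign (I : Finset (Fin 3)) : ℝ := (-1) ^ (3 - I.card) / 6

/-- Polarisation. -/
theorem sum_polSign (G : Fin 3 → Fin 3 → Fin 3 → ℂ) :
    ∑ I : Finset (Fin 3), (polSign I : ℂ) * ∑ i ∈ I, ∑ j ∈ I, ∑ l ∈ I, G i j l =
      (G 0 1 2 + G 0 2 1 + G 1 0 2 + G 1 2 0 + G 2 0 1 + G 2 1 0) / 6 := by
  have e : (Finset.univ : Finset (Finset (Fin 3))) =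
      {∅, {0}, {1}, {2}, {0, 1}, {0, 2}, {1, 2}, {0, 1, 2}} := by decide
  rw [e]
  repeat rw [Finset.sum_insert (by decide)]
  simp [polSign]
  ring

/-- Polarisation of a product. -/
theorem sum_polSign_prod (g : Fin 3 → Fin 3 → ℂ) :
    ∑ I : Finset (Fin 3), (polSign I : ℂ) * ∏ l, ∑ i ∈ I, g i l =
      ∑ σ : Equiv.Perm (Fin 3), (1 / 6 : ℂ) * ∏ l, g (σ l) l := by
  have h : ∀ I : Finset (Fin 3), ∏ l, ∑ i ∈ I, g i l =
      ∑ i ∈ I, ∑ j ∈ I, ∑ l ∈ I, g i 0 * g j 1 * g l 2 := fun I => by
    rw [Fin.prod_univ_three, Finset.sum_mul_sum, Finset.sum_mul]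
    refine Finset.sum_congr rfl fun i _ => ?_
    rw [Finset.sum_mul]
    exact Finset.sum_congr rfl fun j _ => Finset.mul_sum _ _ _
  rw [Finset.sum_congr rfl fun I _ => congrArg ((polSign I : ℂ) * ·) (h I), sum_polSign,
    ← Finset.mul_sum]
  have e : (Finset.univ : Finset (Equiv.Perm (Fin 3))) = {1, Equiv.swap 0 1, Equiv.swap 0 2,
      Equiv.swap 1 2, Equiv.swap 0 1 * Equiv.swap 1 2, Equiv.swap 1 2 * Equiv.swap 0 1} := by decide
  rw [e, Finset.sum_insert (by decide), Finset.sum_insert (by decide),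
    Finset.sum_insert (by decide), Finset.sum_insert (by decide), Finset.sum_insert (by decide),
    Finset.sum_singleton]
  simp [Fin.prod_univ_three, Equiv.swap_apply_def]
  ring

/-- Polarisation of a symmetric function. -/
theorem sum_polSign_symm (G : Fin 3 → Fin 3 → Fin 3 → ℂ) (h1 : ∀ i j l, G i j l = G j i l)
    (h2 : ∀ i j l, G i j l = G i l j) :
    ∑ I : Finset (Fin 3), (polSign I : ℂ) * ∑ i ∈ I, ∑ j ∈ I, ∑ l ∈ I, G i j l = G 0 1 2 := by
  rw [sum_polSign, h2 0 2 1, h1 1 0 2, h2 1 2 0, h1 1 0 2, h2 2 1 0, h1 2 0 1, h2 0 2 1]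
  ring

section Left

variable {F : Type*} [Field F] [NumberField F] {U : Level F}

open Classical in
/-- The kernel of a left multiple of a combination. -/
lemma comp_sumKer_k {J : Type*} [Fintype J] (a : J → ℂ) (D : J → KerData U) (E : KerData U) :
    (E.toPtKer.comp (sumKer a fun j => (D j).toPtKer) E.card_nbr_le).k =
      (sumKer a fun j => (E * D j).toPtKer).k := by
  funext x z
  show ∫ y, E.toPtKer.k x y * ∑ j, a j * (D j).toPtKer.k y z ∂Space.vol U = _
  simp only [Finset.mul_sum, mul_left_comm (E.toPtKer.k _ _) (a _)]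
  have hm : ∀ j, Measurable fun y => (D j).toPtKer.k y z := fun j =>
    (D j).toPtKer.meas.comp (f := fun y : Space U => (y, z)) (measurable_id.prodMk measurable_const)
  rw [integral_finsetSum _ fun j _ => (E.toPtKer.integrable_row x (hm j)
    fun y => (D j).toPtKer.bound y z).const_mul (a j)]
  simp only [integral_const_mul]
  exact Finset.sum_congr rfl fun j _ => congrArg (a j * ·)
    (congrFun (congrFun (E.toPtKer_comp (D j) E.card_nbr_le) x) z)

/-- Multiplying on the left keeps a sum bounded. -/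
theorem bounded_sum_mul_left {J : Type*} [Fintype J] (a : J → ℂ) (D : J → KerData U) (E : KerData U)
    {s : Set (Space U)} (hs : IsFundamentalDomain (G2 F) s (Space.vol U))
    (h : ∃ B, ∀ x y, ‖∑ j, a j * (D j).toPtKer.aut x y‖ ≤ B) :
    ∃ B, ∀ x y, ‖∑ j, a j * (E * D j).toPtKer.aut x y‖ ≤ B := by
  obtain ⟨B, hB⟩ := h
  have hB' : ∀ x y, ‖(sumKer a fun j => (D j).toPtKer).aut x y‖ ≤ B := fun x y => by
    rw [sumKer_aut]; exact hB x y
  refine ⟨E.toPtKer.C * max B 0 * E.rowVol, fun x z => ?_⟩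
  rw [← sumKer_aut a fun j => (E * D j).toPtKer, ← PtKer.aut_congr (comp_sumKer_k a D E),
    E.toPtKer.aut_comp_left _ _ hB' hs]
  exact E.norm_act_le (f := fun y => (sumKer a fun j => (D j).toPtKer).aut y z)
    (fun y => (hB' y z).trans (le_max_left _ _)) x

/-- A pointwise identity of point kernels passes to the automorphisations. -/
theorem sum_aut_eq_of_sum_k {ι κ : Type*} (s : Finset ι) (t : Finset κ) (a : ι → ℂ) (b : κ → ℂ)
    (A : ι → PtKer U) (B : κ → PtKer U)
    (h : ∀ x y, ∑ i ∈ s, a i * (A i).k x y = ∑ j ∈ t, b j * (B j).k x y) (x y : Space U) :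
    ∑ i ∈ s, a i * (A i).aut x y = ∑ j ∈ t, b j * (B j).aut x y := by
  simp only [PtKer.aut, ← tsum_mul_left]
  rw [← Summable.tsum_finsetSum fun i _ => ((A i).summable_aut x y).mul_left _,
    ← Summable.tsum_finsetSum fun j _ => ((B j).summable_aut x y).mul_left _]
  exact tsum_congr fun γ => h _ _

/-- A finite combination of bounded functions is bounded. -/
theorem bounded_sum {X Y : Type*} {ι : Type*} (s : Finset ι) (c : ι → ℂ) (f : ι → X → Y → ℂ)
    (h : ∀ i ∈ s, ∃ B, ∀ x y, ‖f i x y‖ ≤ B) : ∃ B, ∀ x y, ‖∑ i ∈ s, c i * f i x y‖ ≤ B := by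
  choose! B hB using h
  refine ⟨∑ i ∈ s, ‖c i‖ * B i, fun x y =>
    (norm_sum_le _ _).trans (Finset.sum_le_sum fun i hi => ?_)⟩
  rw [norm_mul]
  exact mul_le_mul_of_nonneg_left (hB i hi x y) (norm_nonneg _)

/-- A combination which regroups into bounded combinations is bounded. -/
theorem bounded_of_regroup {J T S : Type*} [Fintype J] [Fintype T] [Fintype S] (a : J → ℂ)
    (A : J → KerData U) (c : T → ℂ) (d : S → ℂ) (B : T → S → KerData U)
    (h : ∀ x y, ∑ j, a j * (A j).toPtKer.k x y = ∑ t, c t * ∑ s, d s * (B t s).toPtKer.k x y)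
    (hb : ∀ t, ∃ M, ∀ x y, ‖∑ s, d s * (B t s).toPtKer.aut x y‖ ≤ M) :
    ∃ M, ∀ x y, ‖∑ j, a j * (A j).toPtKer.aut x y‖ ≤ M := by
  obtain ⟨M, hM⟩ := bounded_sum Finset.univ c
    (fun t x y => ∑ s, d s * (B t s).toPtKer.aut x y) fun t _ => hb t
  refine ⟨M, fun x y => le_of_eq_of_le (congrArg norm ?_) (hM x y)⟩
  rw [sum_aut_eq_of_sum_k Finset.univ (Finset.univ ×ˢ Finset.univ) a (fun u => c u.1 * d u.2)
    (fun j => (A j).toPtKer) (fun u => (B u.1 u.2).toPtKer) (fun x y => ?_) x y,
    Finset.sum_product]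
  · simp only [Finset.mul_sum, mul_assoc]
  · rw [h, Finset.sum_product]
    simp only [Finset.mul_sum, mul_assoc]

end Left

section Regroup

variable {P R I S : Type*} [Fintype P] [Fintype R] [Fintype I] [Fintype S]

/-- Regrouping above. -/
theorem regroupL (f : (P × (Fin 3 → R)) × I → ℂ) (g : S → (Fin 3 → R) → P → ℂ)
    (hp : ∀ p r, ∑ i, f ((p, r), i) = ∑ s, g s r p) :
    ∑ j, f j = ∑ t : S × (Fin 3 → R), ∑ p, g t.1 t.2 p := by
  rw [Fintype.sum_prod_type, Fintype.sum_prod_type, Fintype.sum_prod_type]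
  simp only [hp]
  rw [Finset.sum_comm]
  conv_rhs => rw [Finset.sum_comm]
  exact Finset.sum_congr rfl fun r _ => Finset.sum_comm

/-- Regrouping below. -/
theorem regroupK (f : (P × (Fin 3 → R)) × I → ℂ) (g : P → (Fin 2 → R) → R → ℂ)
    (hp : ∀ p r, ∑ i, f ((p, r), i) = g p ![r 1, r 2] (r 0)) :
    ∑ j, f j = ∑ t : P × (Fin 2 → R), ∑ r, g t.1 t.2 r := by
  rw [Fintype.sum_prod_type, Fintype.sum_prod_type, Fintype.sum_prod_type]
  simp only [hp]
  refine Finset.sum_congr rfl fun p _ => ?_
  rw [← (Fin.consEquiv fun _ => R).sum_comp, Fintype.sum_prod_type, Finset.sum_comm]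
  refine Finset.sum_congr rfl fun r _ => Finset.sum_congr rfl fun r₀ _ => ?_
  simp only [Fin.consEquiv_apply, Fin.cons_zero]
  congr 1
  funext i
  fin_cases i <;> rfl

end Regroup

end FermatAgent.LT2.Cusp
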