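import Mathlib

/-!
# The product over all sign patterns of second differences

In the group algebra of `ι → ℤ` the product over all sign patterns `ε` of `δ_ε + δ_{-ε} - 2` is
invariant under the sign changes of single coordinates and annihilates every function invariant
under the diagonal translation.
-/

set_option autoImplicit false

noncomputable section

open AddMonoidAlgebra

namespace FermatAgent.LT2.Cusp

variable {ι : Type*} [Fintype ι] [DecidableEq ι]

/-- A sign pattern as a lattice point. -/
def patt (ε : ι → ℤˣ) : ι → ℤ := fun i => (ε i : ℤ)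

/-- The second difference along a pattern. -/
def symFac (ε : ι → ℤˣ) : AddMonoidAlgebra ℂ (ι → ℤ) :=
  single (patt ε) 1 + single (-patt ε) 1 - single 0 2

variable (ι) in
/-- The product over all patterns. -/
def symProd : AddMonoidAlgebra ℂ (ι → ℤ) := ∏ ε : ι → ℤˣ, symFac ε

/-- Pairing with a function. -/
def evalAt (H : (ι → ℤ) → ℂ) : AddMonoidAlgebra ℂ (ι → ℤ) →ₗ[ℂ] ℂ :=
  (Finsupp.linearCombination ℂ H).comp (AddMonoidAlgebra.coeffLinearEquiv ℂ).toLinearMap

omit [Fintype ι] [DecidableEq ι] in
/-- The evaluation of a monomial. -/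
lemma evalAt_single (H : (ι → ℤ) → ℂ) (k : ι → ℤ) (r : ℂ) :
    evalAt H (single k r) = r * H k := by
  simp [evalAt, smul_eq_mul]

omit [Fintype ι] [DecidableEq ι] in
/-- The evaluation as a sum over the support. -/
lemma evalAt_eq_sum (H : (ι → ℤ) → ℂ) (R : AddMonoidAlgebra ℂ (ι → ℤ)) :
    evalAt H R = ∑ k ∈ R.coeff.support, R.coeff k * H k := by
  simp [evalAt, Finsupp.linearCombination_apply, Finsupp.sum, smul_eq_mul]

omit [Fintype ι] [DecidableEq ι] in
/-- The evaluation of a monomial multiple. -/
lemma evalAt_single_mul (H : (ι → ℤ) → ℂ) (p : ι → ℤ) (r : ℂ)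
    (R : AddMonoidAlgebra ℂ (ι → ℤ)) :
    evalAt H (single p r * R) = r * evalAt (fun k => H (p + k)) R := by
  induction R using AddMonoidAlgebra.induction_linear with
  | zero => simp
  | add f g hf hg => simp only [mul_add, map_add, hf, hg]
  | single k s => rw [single_mul_single, evalAt_single, evalAt_single, mul_assoc]

/-- A function invariant under the diagonal translation is annihilated. -/
theorem evalAt_symProd_eq_zero {H : (ι → ℤ) → ℂ} (hH : ∀ k, H (k + 1) = H k) :
    evalAt H (symProd ι) = 0 := by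
  have hp : patt (1 : ι → ℤˣ) = 1 := funext fun i => by simp [patt]
  have h1 : ∀ k, H (1 + k) = H k := fun k => by rw [add_comm, hH]
  have h2 : ∀ k, H (-1 + k) = H k := fun k => by
    rw [← hH (-1 + k)]; congr 1; abel
  rw [symProd, ← Finset.mul_prod_erase _ _ (Finset.mem_univ (1 : ι → ℤˣ)), symFac, hp, sub_mul,
    add_mul, map_sub, map_add, evalAt_single_mul, evalAt_single_mul, evalAt_single_mul]
  simp only [h1, h2, zero_add]
  ring

/-- The sign change. -/
def flipHom (δ : ι → ℤˣ) : (ι → ℤ) →+ (ι → ℤ) where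
  toFun k i := (δ i : ℤ) * k i
  map_zero' := funext fun i => by simp
  map_add' a b := funext fun i => by simp [mul_add]

omit [Fintype ι] [DecidableEq ι] in
lemma evalAt_mapDomain (H : (ι → ℤ) → ℂ) (f : (ι → ℤ) →+ (ι → ℤ))
    (R : AddMonoidAlgebra ℂ (ι → ℤ)) :
    evalAt H (mapDomainRingHom ℂ f R) = evalAt (fun k => H (f k)) R := by
  induction R using AddMonoidAlgebra.induction_linear with
  | zero => simp
  | add g h hg hh => simp only [map_add, hg, hh]
  | single k s => simp [evalAt_single]

/-- The product is invariant under sign changes. -/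
theorem mapDomain_symProd (δ : ι → ℤˣ) :
    mapDomainRingHom ℂ (flipHom δ) (symProd ι) = symProd ι := by
  rw [symProd, map_prod]
  refine Fintype.prod_equiv (Equiv.mulLeft δ) _ _ fun ε => ?_
  have e : flipHom δ (patt ε) = patt (δ * ε) := funext fun i => by simp [flipHom, patt]
  simp [symFac, map_sub, map_add, e]

/-- Symmetrised pairs may be replaced by single values. -/
theorem sum_prod_pairs (F : ι → ℤ → ℂ) :
    ∑ k ∈ (symProd ι).coeff.support, (symProd ι).coeff k * ∏ i, (F i (k i) + F i (-k i)) =
      2 ^ Fintype.card ι * evalAt (fun k => ∏ i, F i (k i)) (symProd ι) := by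
  have key : ∀ (k : ι → ℤ), ∏ i, (F i (k i) + F i (-k i)) =
      ∑ δ : ι → ℤˣ, ∏ i, F i (flipHom δ k i) := by
    intro k
    have e : ∀ i, F i (k i) + F i (-k i) = ∑ u : ℤˣ, F i ((u : ℤ) * k i) := fun i => by
      rw [show (Finset.univ : Finset ℤˣ) = {1, -1} by decide, Finset.sum_pair (by decide)]
      simp
    simp only [e]
    rw [Fintype.prod_sum]
    rfl
  simp only [key, Finset.mul_sum]
  rw [Finset.sum_comm]
  have h : ∀ δ : ι → ℤˣ, ∑ k ∈ (symProd ι).coeff.support,
      (symProd ι).coeff k * ∏ i, F i (flipHom δ k i) =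
      evalAt (fun k => ∏ i, F i (k i)) (symProd ι) := fun δ => by
    rw [← evalAt_eq_sum fun k => ∏ i, F i (flipHom δ k i)]
    conv_rhs => rw [← mapDomain_symProd δ, evalAt_mapDomain]
  rw [Finset.sum_congr rfl fun δ _ => h δ, Finset.sum_const, Finset.card_univ, Fintype.card_fun,
    show Fintype.card ℤˣ = 2 from rfl, nsmul_eq_mul]
  push_cast
  rfl

end FermatAgent.LT2.Cusp
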