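import Mathlib
import Fermat.Agent.LT2.Cusp.Bounded
import Fermat.Agent.LT2.Cusp.Horo
import Fermat.Agent.LT2.Cusp.Sym

/-!
# The symmetrised combination over the slots has cancelling main terms

Over finitely many places of maximal level and all infinite places take the radial kernels whose
horocyclic integrals are symmetric pairs.  Weighted by the product over all sign patterns, their
main terms are a pairing with a function invariant under the diagonal translation, because an
element of order one at the finite slots, fixing the other cosets, shifts all slots at once.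
-/

set_option autoImplicit false

noncomputable section

open Matrix IsDedekindDomain NumberField Filter MeasureTheory WithZero
open scoped MatrixGroups ENNReal

namespace FermatAgent.LT2.Cusp

open FermatAgent.LT FermatAgent.LT.Theta

variable {F : Type*} [Field F] [NumberField F] {U : Level F}

/-- A diagonal element fixing the cosets of integral elements. -/
def FixesInt (U : Level F) (v : HeightOneSpectrum (𝓞 F)) (α : Fˣ) : Prop :=
  ∀ κ ∈ locK v, (ProjGenLinGroup.mk (dB α) : G2 F) • (QuotientGroup.mk κ : G2 F ⧸ U.loc v) =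
    QuotientGroup.mk κ

/-- A unit fixes the cosets of integral elements at a place of maximal level. -/
theorem fixesInt_of_val {v : HeightOneSpectrum (𝓞 F)} (hv : U.loc v = locK v) {α : Fˣ}
    (hα : v.valuation F (α : F) = 1) : FixesInt U v α := fun κ hκ => by
  rw [MulAction.Quotient.smul_mk, smul_eq_mul, QuotientGroup.eq, hv]
  refine mul_mem (inv_mem (mul_mem
    (show (ProjGenLinGroup.mk (dB α) : G2 F) ∈ locK v from Whit.dG_mem_locK hα) hκ)) hκ

/-- An element near one fixes the cosets of integral elements. -/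
theorem fixesInt_of_near {v : HeightOneSpectrum (𝓞 F)} {n : ℕ}
    (hn : ∀ g ∈ locGL v, (∀ i j, v.valuation F ((g.val - 1) i j) ≤ exp (-((n : ℤ) + 1))) →
      (ProjGenLinGroup.mk g : G2 F) ∈ U.loc v)
    {α : Fˣ} (hα : v.valuation F ((α : F) - 1) ≤ exp (-((n : ℤ) + 1))) : FixesInt U v α := by
  rintro κ ⟨k, hk, rfl⟩
  rw [MulAction.Quotient.smul_mk, smul_eq_mul, QuotientGroup.eq, ← map_mul, ← map_inv, ← map_mul]
  set h := k⁻¹ * dB α * k with hh
  have hα1 : v.valuation F (α : F) = 1 := by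
    have h1 : v.valuation F ((α : F) - 1) < v.valuation F 1 := by
      rw [map_one]
      exact hα.trans_lt (by rw [← WithZero.exp_zero, exp_lt_exp]; omega)
    exact ((v.valuation F).map_eq_of_sub_lt h1).trans (map_one _)
  have hmem : h ∈ locGL v := mul_mem (mul_mem (inv_mem hk) (Whit.dB_mem_locGL hα1)) hk
  have hsmall : ∀ i j, v.valuation F ((h.val - 1) i j) ≤ exp (-((n : ℤ) + 1)) := fun i j => by
    rw [hh, show (k⁻¹ * dB α * k).val - 1 = (k⁻¹).val * ((dB α).val - 1) * k.val by
      rw [Matrix.mul_sub, Matrix.sub_mul, Matrix.mul_one, Units.val_mul, Units.val_mul,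
        Units.inv_mul]]
    simp only [Matrix.mul_apply, Fin.sum_univ_two]
    have e : ∀ p q r s, v.valuation F ((k⁻¹).val p q * ((dB α).val - 1) q r * k.val r s) ≤
        exp (-((n : ℤ) + 1)) := fun p q r s => by
      rw [map_mul, map_mul]
      refine (mul_le_mul' (mul_le_mul' ((inv_mem hk).1 p q) (le_refl _)) (hk.1 r s)).trans ?_
      rw [one_mul, mul_one]
      generalize exp (-((n : ℤ) + 1)) = t at hα ⊢
      fin_cases q <;> fin_cases r <;> simp [hα]
    simp only [add_mul]
    exact ((v.valuation F).map_add _ _).trans (max_le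
      (((v.valuation F).map_add _ _).trans (max_le (e _ _ _ _) (e _ _ _ _)))
      (((v.valuation F).map_add _ _).trans (max_le (e _ _ _ _) (e _ _ _ _))))
  have := hn h hmem hsmall
  rw [show (dB α * k)⁻¹ * k = h⁻¹ by rw [hh]; group, map_inv]
  exact inv_mem this

/-- Horocyclic integrals do not change under a diagonal element fixing integral cosets. -/
theorem lint_mul_of_fixes (hU : U.IsCongr) {v : HeightOneSpectrum (𝓞 F)} {α₀ : Fˣ}
    (h0 : FixesInt U v α₀) (A : LocKer U v) (c d : G2 F ⧸ U.loc v) (α : Fˣ) :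
    lint A c ((ProjGenLinGroup.mk (dB (α * α₀)) : G2 F) • d) =
      lint A c ((ProjGenLinGroup.mk (dB α) : G2 F) • d) := by
  induction d using QuotientGroup.induction_on with | H g₀ =>
  obtain ⟨g, rfl⟩ := ProjGenLinGroup.mk_surjective g₀
  obtain ⟨b, hb, k, hk, rfl⟩ := exists_iwasawa v g
  obtain ⟨a, γ, hab⟩ := exists_upper_form hb
  have hd : (QuotientGroup.mk (ProjGenLinGroup.mk (b * k)) : G2 F ⧸ U.loc v) =
      (ProjGenLinGroup.mk (uB γ * dB a) : G2 F) • QuotientGroup.mk (ProjGenLinGroup.mk k) := by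
    rw [MulAction.Quotient.smul_mk, smul_eq_mul, map_mul, hab]
  have e : ∀ β : Fˣ, (ProjGenLinGroup.mk (dB β) : G2 F) •
      (ProjGenLinGroup.mk (uB γ * dB a) : G2 F) •
        (QuotientGroup.mk (ProjGenLinGroup.mk k) : G2 F ⧸ U.loc v) =
      (ProjGenLinGroup.mk (uB ((β : F) * γ)) : G2 F) • (ProjGenLinGroup.mk (dB (β * a)) : G2 F) •
        QuotientGroup.mk (ProjGenLinGroup.mk k) := fun β => by
    rw [← mul_smul, ← mul_smul, ← map_mul, ← map_mul]
    congr 2
    apply Units.ext
    ext i j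
    fin_cases i <;> fin_cases j <;> simp [Matrix.mul_apply, Fin.sum_univ_two]
  rw [hd, e, e, lint_translate hU, lint_translate hU, mul_right_comm α α₀ a, dB_mul (α * a) α₀,
    map_mul, mul_smul, h0 _ ⟨k, hk, rfl⟩]

variable [IsTotallyComplex F]

/-- Only finitely many diagonal parts have nonzero main term. -/
theorem finite_main_support (hU : U.IsCongr) (D : KerData U) (P : InfinitePlace F → Profile)
    (hP : ∀ w, D.inf w = (P w).ker) (c d : FinCoset U) (s : InfinitePlace F → ℝ) :
    {α : Fˣ | hfun D c ((ProjGenLinGroup.mk (dB α) : G2 F) • d) *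
      ∏ w, radInt (P w) (s w + Real.log (w (α : F))) ≠ 0}.Finite := by
  classical
  set N := ‖s‖
  have hsN : ∀ w, |s w| ≤ N := fun w => norm_le_pi_norm s w
  have hN : 0 ≤ N := norm_nonneg _
  let p : InfPts F := fun _ => ⟨0, 1, one_pos⟩
  have hp : InCusp (Real.exp (-N)) (Real.exp (2 * N)) p := fun w =>
    ⟨show Real.exp (-N) ≤ 1 from Real.exp_le_one_iff.2 (by linarith), fun w' => by
      show (1 : ℝ) ≤ Real.exp (2 * N) * 1
      rw [mul_one, Real.one_le_exp_iff]
      linarith⟩
  have hq : ∀ z : InfinitePlace F → ℂ, InCusp (Real.exp (-N)) (Real.exp (2 * N))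
      (fun w => ⟨z w, Real.exp (s w), Real.exp_pos _⟩ : InfPts F) := fun z w => by
    refine ⟨Real.exp_le_exp.2 (by have := (abs_le.1 (hsN w)).1; linarith), fun w' => ?_⟩
    show Real.exp (s w) ≤ Real.exp (2 * N) * Real.exp (s w')
    rw [← Real.exp_add, Real.exp_le_exp]
    have := (abs_le.1 (hsN w)).2
    have := (abs_le.1 (hsN w')).1
    linarith
  obtain ⟨A, hA⟩ := D.toPtKer.exists_alpha_set {c, d} (Real.exp (2 * N)) (Real.exp (-N))
  refine A.finite_toSet.subset fun α hα => by_contra fun hA' => hα ?_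
  have h := mainTerm_eq_zero hU (fun _ : Unit => (1 : ℂ)) (D := fun _ => D) (P := fun _ => P)
    (fun _ => hP) (p := p) (q := fun w => ⟨0, Real.exp (s w), Real.exp_pos _⟩) (c := c) (d := d)
    (α := α) fun _ β z => by_contra fun h => hA' (hA (p, c) (_, d) (Finset.mem_insert_self _ _)
      (Finset.mem_insert_of_mem (Finset.mem_singleton_self _)) hp (hq z) α β
        (by rwa [map_mul, mul_smul]))
  simpa [mainTerm, p, Real.log_exp] using h

/-- The finite slot of a main term. -/
def finSlot {v : HeightOneSpectrum (𝓞 F)} (c d : G2 F ⧸ U.loc v) (α : Fˣ) (k : ℤ) : ℂ :=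
  if hgt d + ordV v α - hgt c = k then 1 else 0

omit [IsTotallyComplex F] in
lemma pairB_eq_finSlot {v : HeightOneSpectrum (𝓞 F)} (c d : G2 F ⧸ U.loc v) (α : Fˣ) (k : ℤ) :
    pairB k (hgt d + ordV v α - hgt c) = finSlot c d α k + finSlot c d α (-k) := rfl

/-- The infinite slot of a main term. -/
def infSlot (ℓ x : ℝ) (k : ℤ) : ℂ := (psiBump ℓ (x - k * ℓ) : ℂ)

lemma radInt_eq_infSlot (ℓ x : ℝ) (k : ℤ) :
    radInt (shiftProfile ℓ k) x =
      ((2 * Real.pi * Real.exp x : ℝ) : ℂ) * (infSlot ℓ x k + infSlot ℓ x (-k)) := by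
  rw [radInt_shiftProfile, infSlot, infSlot]
  push_cast
  rw [neg_mul, sub_neg_eq_add]

omit [IsTotallyComplex F] in
lemma pair_ne_zero_of_fin {v : HeightOneSpectrum (𝓞 F)} {c d : G2 F ⧸ U.loc v} {α : Fˣ} {k : ℤ}
    (h : finSlot c d α k ≠ 0) : finSlot c d α k + finSlot c d α (-k) ≠ 0 := by
  have e : hgt d + ordV v α - hgt c = k := by
    by_contra hne
    exact h (if_neg hne)
  simp only [finSlot, if_pos e]
  split_ifs <;> norm_num

lemma pair_ne_zero_of_inf {ℓ x : ℝ} {k : ℤ} (h : infSlot ℓ x k ≠ 0) :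
    infSlot ℓ x k + infSlot ℓ x (-k) ≠ 0 := by
  rw [infSlot, infSlot, ← Complex.ofReal_add, Complex.ofReal_ne_zero]
  rw [infSlot, Complex.ofReal_ne_zero] at h
  have h1 : 0 ≤ psiBump ℓ (x - k * ℓ) := bump1_nonneg _ _
  have h2 : 0 ≤ psiBump ℓ (x - ((-k : ℤ) : ℝ) * ℓ) := bump1_nonneg _ _
  exact (add_pos_of_pos_of_nonneg (lt_of_le_of_ne h1 h.symm) h2).ne'

variable {ιf ιi : Type*} [Fintype ιf] [DecidableEq ιf] [Fintype ιi] [DecidableEq ιi]
  (vp : ιf → HeightOneSpectrum (𝓞 F))

open Classical in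
/-- The horocyclic integral away from the slots. -/
def restInt (c d : FinCoset U) : ℂ :=
  ∏ᶠ v : HeightOneSpectrum (𝓞 F),
    if v ∈ Finset.univ.image vp then 1 else lint (1 : LocKer U v) (c.1 v) (d.1 v)

omit [IsTotallyComplex F] [DecidableEq ιf] in
open Classical in
lemma hfun_eq_slots (D : KerData U) (hinj : Function.Injective vp)
    (hone : ∀ v, (∀ i, vp i ≠ v) → D.fin v = 1) (c d : FinCoset U) :
    hfun D c d = (∏ i, lint (D.fin (vp i)) (c.1 (vp i)) (d.1 (vp i))) * restInt vp c d := by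
  set I := Finset.univ.image vp
  let S : Finset (HeightOneSpectrum (𝓞 F)) :=
    I ∪ (eventually_cofinite.mp ((c.2.and d.2).and U.eventually_eq)).toFinset
  have hS : ∀ v ∉ S, v ∉ I ∧ (c.1 v = QuotientGroup.mk 1 ∧ d.1 v = QuotientGroup.mk 1) ∧
      U.loc v = locK v := fun v hv => by
    simp only [S, Finset.mem_union, Set.Finite.mem_toFinset, Set.mem_ofPred_eq, not_or,
      Classical.not_not] at hv
    exact ⟨hv.1, hv.2⟩
  have hI : ∀ v ∉ I, D.fin v = 1 := fun v hv => hone v fun i e =>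
    hv (Finset.mem_image.2 ⟨i, Finset.mem_univ i, e⟩)
  have hsub : I ⊆ S := Finset.subset_union_left
  rw [hfun_eq_prod D c d (S := S) fun v hv =>
      ⟨hI v (hS v hv).1, (hS v hv).2.1.1, (hS v hv).2.1.2, (hS v hv).2.2⟩,
    ← Finset.prod_sdiff hsub, mul_comm, Finset.prod_image fun i _ j _ e => hinj e]
  congr 1
  rw [restInt, finprod_eq_prod_of_mulSupport_subset _ (s := S \ I) fun v hv => ?_]
  · refine Finset.prod_congr rfl fun v hv => ?_
    rw [if_neg (Finset.mem_sdiff.1 hv).2, hI v (Finset.mem_sdiff.1 hv).2]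
  · rw [Function.mem_mulSupport] at hv
    by_cases hvI : v ∈ I
    · exact absurd (if_pos hvI) hv
    rw [if_neg hvI] at hv
    refine Finset.mem_sdiff.2 ⟨by_contra fun hvS => hv ?_, hvI⟩
    rw [(hS v hvS).2.1.1, (hS v hvS).2.1.2, lint_base (hS v hvS).2.2]

open Classical in
/-- The symmetrised combination over the slots has bounded automorphisation. -/
theorem bounded_symProd (hU : U.IsCongr) (hinj : Function.Injective vp)
    (hloc : ∀ i, U.loc (vp i) = locK (vp i)) (e : ιi ≃ InfinitePlace F) (ℓ : ℝ) (α₀ : Fˣ)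
    (hord : ∀ i, ordV (vp i) α₀ = 1) (habs : ∀ w : InfinitePlace F, Real.log (w (α₀ : F)) = ℓ)
    (hprod : ∏ i, √((vp i).asIdeal.absNorm : ℝ) = Real.exp ℓ ^ Fintype.card ιi)
    (hfix : ∀ v, (∀ i, vp i ≠ v) → FixesInt U v α₀)
    (D : (ιf ⊕ ιi → ℤ) → KerData U)
    (hfin : ∀ k i, (D k).fin (vp i) = pairKer (hloc i) (k (.inl i)))
    (hone : ∀ k v, (∀ i, vp i ≠ v) → (D k).fin v = 1)
    (hinf : ∀ k i, (D k).inf (e i) = (shiftProfile ℓ (k (.inr i))).ker) :
    ∃ B, ∀ x y, ‖∑ k ∈ (symProd (ιf ⊕ ιi)).coeff.support,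
      (symProd (ιf ⊕ ιi)).coeff k * (D k).toPtKer.aut x y‖ ≤ B := by
  set R := symProd (ιf ⊕ ιi) with hR
  let P : (ιf ⊕ ιi → ℤ) → InfinitePlace F → Profile := fun k w =>
    shiftProfile ℓ (k (.inr (e.symm w)))
  have hP : ∀ k w, (D k).inf w = (P k w).ker := fun k w => by
    have := hinf k (e.symm w)
    rwa [e.apply_symm_apply] at this
  suffices h0 : MainZero (fun j : R.coeff.support => R.coeff j.1) (fun j => D j.1)
      (fun j => P j.1) by
    obtain ⟨B, hB⟩ := bounded_aut_sum hU _ _ _ (fun j w => hP j.1 w) h0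
    refine ⟨B, fun x y => ?_⟩
    rw [← Finset.sum_coe_sort]
    exact hB x y
  intro c d s
  let xs : Fˣ → ιi → ℝ := fun α i => s (e i) + Real.log (e i (α : F))
  let Φ : Fˣ → ιf ⊕ ιi → ℤ → ℂ := fun α => Sum.elim
    (fun i => finSlot (c.1 (vp i)) (d.1 (vp i)) α) (fun i => infSlot ℓ (xs α i))
  let G : Fˣ → ℂ := fun α =>
    (∏ i, sqv (vp i) ^ (-(hgt (c.1 (vp i)) + hgt (d.1 (vp i)) + ordV (vp i) α))) *
      ((∏ i, ((2 * Real.pi * Real.exp (xs α i) : ℝ) : ℂ)) *
        restInt vp c ((ProjGenLinGroup.mk (dB α) : G2 F) • d))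
  have hterm : ∀ k α, hfun (D k) c ((ProjGenLinGroup.mk (dB α) : G2 F) • d) *
      ∏ w, radInt (P k w) (s w + Real.log (w (α : F))) =
      G α * ∏ j, (Φ α j (k j) + Φ α j (-k j)) := by
    intro k α
    rw [hfun_eq_slots vp (D k) hinj (hone k), ← e.prod_comp
      fun w => radInt (P k w) (s w + Real.log (w (α : F)))]
    simp only [P, e.symm_apply_apply, radInt_eq_infSlot, hfin, FinCoset.smul_apply,
      lint_pairKer _ hU, pairB_eq_finSlot, Finset.prod_mul_distrib, Fintype.prod_sum_type, Φ, G,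
      Sum.elim_inl, Sum.elim_inr, xs]
    ring
  let T : Fˣ → (ιf ⊕ ιi → ℤ) → ℂ := fun α k => G α * ∏ j, Φ α j (k j)
  have hfinite : ∀ k, (Function.support fun α => T α k).Finite := by
    intro k
    refine (finite_main_support hU (D k) (P k) (hP k) c d s).subset fun α hα => ?_
    rw [Set.mem_ofPred_eq, hterm]
    obtain ⟨h1, h2⟩ := mul_ne_zero_iff.1 hα
    refine mul_ne_zero h1 (Finset.prod_ne_zero_iff.2 fun j hj => ?_)
    have h3 := Finset.prod_ne_zero_iff.1 h2 j hj
    cases j with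
    | inl i => exact pair_ne_zero_of_fin h3
    | inr i => exact pair_ne_zero_of_inf h3
  have hmain : ∀ α, mainTerm (fun j : R.coeff.support => R.coeff j.1) (fun j => D j.1)
      (fun j => P j.1) c d s α =
      ∑ k ∈ R.coeff.support, 2 ^ Fintype.card (ιf ⊕ ιi) * (R.coeff k * T α k) := by
    intro α
    rw [mainTerm, Finset.sum_coe_sort R.coeff.support fun k => R.coeff k *
      hfun (D k) c ((ProjGenLinGroup.mk (dB α) : G2 F) • d) *
        ∏ w, radInt (P k w) (s w + Real.log (w (α : F)))]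
    simp only [mul_assoc, hterm, mul_left_comm (R.coeff _) (G α)]
    rw [← Finset.mul_sum, hR, sum_prod_pairs (Φ α), evalAt_eq_sum, ← hR, Finset.mul_sum,
      Finset.mul_sum]
    exact Finset.sum_congr rfl fun k _ => by simp only [T]; ring
  simp only [hmain]
  rw [finsum_sum_comm _ _ fun k _ => (hfinite k).subset fun α hα => ?_]
  swap
  · exact right_ne_zero_of_mul (right_ne_zero_of_mul hα)
  let H : (ιf ⊕ ιi → ℤ) → ℂ := fun k => ∑ᶠ α : Fˣ, T α k
  have hG : ∀ α, G (α * α₀) = G α := by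
    intro α
    have hrest : restInt vp c ((ProjGenLinGroup.mk (dB (α * α₀)) : G2 F) • d) =
        restInt vp c ((ProjGenLinGroup.mk (dB α) : G2 F) • d) := by
      refine finprod_congr fun v => ?_
      split_ifs with h
      · rfl
      rw [FinCoset.smul_apply, FinCoset.smul_apply, lint_mul_of_fixes hU (hfix v fun i hi =>
        h (Finset.mem_image.2 ⟨i, Finset.mem_univ i, hi⟩))]
    have hx : ∀ i, xs (α * α₀) i = xs α i + ℓ := fun i => by
      simp only [xs, Units.val_mul, map_mul]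
      rw [Real.log_mul ((InfinitePlace.pos_iff.mpr α.ne_zero).ne')
        ((InfinitePlace.pos_iff.mpr α₀.ne_zero).ne'), habs]
      ring
    have hprod' : ∏ i, sqv (vp i) = ∏ _i : ιi, ((Real.exp ℓ : ℝ) : ℂ) := by
      simp only [sqv, Finset.prod_const, Finset.card_univ, ← Complex.ofReal_prod,
        ← Complex.ofReal_pow, hprod]
    have hq : ∏ i, sqv (vp i) ≠ 0 := Finset.prod_ne_zero_iff.2 fun i _ => sqv_ne_zero _
    simp only [G, hrest, hx, ordV_mul, hord, Real.exp_add]
    simp only [show ∀ i, -(hgt (c.1 (vp i)) + hgt (d.1 (vp i)) + (ordV (vp i) α + 1)) =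
      -(hgt (c.1 (vp i)) + hgt (d.1 (vp i)) + ordV (vp i) α) + -1 from fun i => by ring,
      zpow_add₀ (sqv_ne_zero _), Finset.prod_mul_distrib, _root_.zpow_neg_one,
      Finset.prod_inv_distrib, ← mul_assoc, Complex.ofReal_mul]
    rw [← hprod']
    field_simp
  have hΦ : ∀ α j k, Φ (α * α₀) j (k + 1) = Φ α j k := by
    intro α j k
    cases j with
    | inl i =>
      simp only [Φ, Sum.elim_inl, finSlot, ordV_mul, hord]
      exact if_congr (by omega) rfl rfl
    | inr i =>
      simp only [Φ, Sum.elim_inr, infSlot, xs, Units.val_mul, map_mul]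
      rw [Real.log_mul ((InfinitePlace.pos_iff.mpr α.ne_zero).ne')
        ((InfinitePlace.pos_iff.mpr α₀.ne_zero).ne'), habs]
      push_cast
      ring_nf
  have hH : ∀ k, H (k + 1) = H k := fun k => by
    rw [show H (k + 1) = ∑ᶠ α : Fˣ, T (α * α₀) (k + 1) from
      (finsum_comp_equiv (Equiv.mulRight α₀) (f := fun α => T α (k + 1))).symm]
    refine finsum_congr fun α => ?_
    simp only [T, hG, Pi.add_apply, Pi.one_apply, hΦ]
  calc ∑ k ∈ R.coeff.support, ∑ᶠ α : Fˣ, 2 ^ Fintype.card (ιf ⊕ ιi) * (R.coeff k * T α k)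
      = ∑ k ∈ R.coeff.support, 2 ^ Fintype.card (ιf ⊕ ιi) * (R.coeff k * H k) := by
        refine Finset.sum_congr rfl fun k _ => ?_
        simp only [H, mul_finsum]
    _ = 0 := by
        rw [← Finset.mul_sum, ← evalAt_eq_sum, hR, evalAt_symProd_eq_zero hH, mul_zero]

end FermatAgent.LT2.Cusp
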