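import Mathlib
import Fermat.Agent.LT2.Glue.Split
import Fermat.Agent.LT2.Spec.Base
import Fermat.Agent.LT2.Spec.Data
import Fermat.Agent.LT2.Cusp.MainTerm
import Fermat.Agent.LT2.Cusp.Lin
import Fermat.Agent.LT2.Cusp.Split

/-!
# The family at an auxiliary split place

Above, the slots are the three places over the auxiliary place and the three infinite places.  The
symmetrised combination over the six slots is multiplied in each pair of slots by the symmetrised
combination over two slots, which gives cancellation below, and the permutations at infinity are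
polarised so that every piece has one kernel at all infinite places.
-/

set_option autoImplicit false

noncomputable section

open Matrix IsDedekindDomain NumberField Filter MeasureTheory WithZero
open scoped MatrixGroups ENNReal ComplexConjugate

namespace FermatAgent.LT2.Cusp

open FermatAgent.LT

variable {ι : Type*} [Fintype ι] [DecidableEq ι]

/-- The coefficients are real. -/
theorem conj_coeff_symProd (k : ι → ℤ) :
    conj ((symProd ι).coeff k) = (symProd ι).coeff k := by
  have h : AddMonoidAlgebra.mapRingHom (ι → ℤ) (starRingEnd ℂ) (symProd ι) = symProd ι := by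
    rw [symProd, map_prod]
    refine Finset.prod_congr rfl fun ε _ => ?_
    simp [symFac, map_ofNat]
  conv_rhs => rw [← h]
  simp

/-- The coefficients equal their real parts. -/
lemma ofReal_coeff (k : ι → ℤ) : (((symProd ι).coeff k).re : ℂ) = (symProd ι).coeff k :=
  Complex.conj_eq_iff_re.1 (conj_coeff_symProd k)

/-- The keys of the six slots above. -/
abbrev LKey : Type := {k // k ∈ (symProd (Fin 3 ⊕ Fin 3)).coeff.support}

/-- The keys of the two slots below. -/
abbrev RKey : Type := {k // k ∈ (symProd (Fin 1 ⊕ Fin 1)).coeff.support}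

/-- The coefficient above. -/
def cL (k : LKey) : ℝ := ((symProd (Fin 3 ⊕ Fin 3)).coeff k.1).re

/-- The coefficient below. -/
def cR (r : RKey) : ℝ := ((symProd (Fin 1 ⊕ Fin 1)).coeff r.1).re

end FermatAgent.LT2.Cusp

namespace FermatAgent.LT2

open FermatAgent.LT FermatAgent.LT2.Cusp FermatAgent.LT2.Spec

variable {K L : Type*} [Field K] [NumberField K] [Field L] [NumberField L] [Algebra K L]

/-- An anchor at a split good place `v'`: an `α ∈ Kˣ` of order one at `v'` and of absolute value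
`√(N v')` at the infinite place, whose diagonal matrix fixes the integral cosets of the levels at
all other places.  It converts a step towards the cusp at `v'` into a shift at infinity. -/
structure Anchor (C : Ctx K L) (v' : HeightOneSpectrum (𝓞 K)) where
  split : C.IsSplit v'
  notMem : v' ∉ C.S
  /-- the generator -/
  α : Kˣ
  ord : v'.valuation K (α : K) = exp (-1 : ℤ)
  abs : C.v (α : K) = √(v'.asIdeal.absNorm : ℝ)
  fixK : ∀ v, v ≠ v' → FixesInt C.UK v α
  fixL : ∀ w, C.b w ≠ v' → FixesInt C.UL w (Units.map (algebraMap K L : K →* L) α)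

namespace Anchor

variable {C : Ctx K L} {v' : HeightOneSpectrum (𝓞 K)} (A : Anchor C v')

include A in
lemma hK : C.UK.loc v' = locK v' := C.UK_else v' A.notMem

include A in
/-- The levels above the auxiliary place are maximal. -/
lemma hL (u : C.Fib v') : C.UL.loc u.1 = locK u.1 :=
  C.UL_else u.1 (by rw [u.2]; exact A.notMem)

/-- The logarithmic size of the generator. -/
def ell (_A : Anchor C v') : ℝ := Real.log √(v'.asIdeal.absNorm : ℝ)

lemma sqrt_norm_gt_one : 1 < √(v'.asIdeal.absNorm : ℝ) :=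
  Real.lt_sqrt_of_sq_lt (by simpa using Cusp.one_lt_norm v')

lemma exp_ell : Real.exp A.ell = √(v'.asIdeal.absNorm : ℝ) :=
  Real.exp_log (zero_lt_one.trans sqrt_norm_gt_one)

/-- The logarithmic size is nonzero. -/
lemma ell_ne : A.ell ≠ 0 := (Real.log_pos sqrt_norm_gt_one).ne'

/-- The generator above. -/
def αL : Lˣ := Units.map (algebraMap K L : K →* L) A.α

lemma log_abs_αL (w : InfinitePlace L) : Real.log (w (A.αL : L)) = A.ell := by
  have h : w.comap (algebraMap K L) = C.v := C.uniq _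
  show Real.log (w (algebraMap K L (A.α : K))) = _
  rw [← InfinitePlace.comap_apply, h, A.abs]
  rfl

lemma log_abs_α (w : InfinitePlace K) : Real.log (w (A.α : K)) = A.ell := by
  rw [C.uniq w, A.abs]
  rfl

lemma ordV_αL (u : C.Fib v') : ordV u.1 A.αL = 1 := by
  show -log (u.1.valuation L (algebraMap K L (A.α : K))) = 1
  rw [C.val_of_split A.split u, A.ord, log_exp, neg_neg]

lemma ordV_α : ordV v' A.α = 1 := by
  rw [ordV, A.ord, log_exp, neg_neg]

variable (u₀ : C.Fib v')

include A in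
/-- The places above in their cyclic order. -/
lemma enum_bijective :
    Function.Bijective ![u₀, C.next u₀, C.next (C.next u₀)] := by
  have h1 := Ctx.next_ne A.split u₀
  have h2 := Ctx.next_next_ne A.split u₀
  have h3 := Ctx.next_ne A.split (C.next u₀)
  refine ⟨fun i j h => ?_, fun u => ?_⟩
  · fin_cases i <;> fin_cases j <;> simp_all [eq_comm]
  · rcases Ctx.fib_cases u₀ u with e | e | e
    · exact ⟨0, e.symm⟩
    · exact ⟨1, e.symm⟩
    · exact ⟨2, e.symm⟩

/-- The enumeration of the places above. -/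
def enum : Fin 3 ≃ C.Fib v' := Equiv.ofBijective _ (A.enum_bijective u₀)

@[simp] lemma enum_zero : A.enum u₀ 0 = u₀ := rfl

@[simp] lemma enum_one : A.enum u₀ 1 = C.next u₀ := rfl

@[simp] lemma enum_two : A.enum u₀ 2 = C.next (C.next u₀) := rfl

/-- The radial kernels at infinity. -/
def g (m : ℤ) : InfKer := (shiftProfile A.ell m).ker

/-- The summands at infinity. -/
def summand (p : LKey × (Fin 3 → RKey)) (i : Fin 3) : InfKer :=
  (A.g ((p.2 i).1 (.inr 0))).comp (A.g (p.1.1 (.inr i)))

/-- The family. -/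
def fam : Spec.Fam C v' where
  ι := (LKey × (Fin 3 → RKey)) × Finset (Fin 3)
  split := A.split
  notMem := A.notMem
  a j := cL j.1.1 * (∏ i, cR (j.1.2 i)) * polSign j.2
  k j := infSum j.2 (A.summand j.1)
  flip _ := isFlip_infSum _ _ fun _ => (Profile.isFlip _).comp (Profile.isFlip _)
  real _ := isReal_infSum _ _ fun _ => (Profile.isReal _).comp (Profile.isReal _)
  kS j u := pairKer A.hK ((j.1.2 ((A.enum u₀).symm u)).1 (.inl 0)) *
    pairKer A.hK (j.1.1.1 (.inl ((A.enum u₀).symm u)))
  kw j u := pairKer (A.hL u) ((j.1.2 ((A.enum u₀).symm u)).1 (.inl 0)) *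
    pairKer (A.hL u) (j.1.1.1 (.inl ((A.enum u₀).symm u)))
  kw_up _ u x y := C.mul_up A.split u (C.pairKer_up A.split u A.hK (A.hL u) _)
    (C.pairKer_up A.split u A.hK (A.hL u) _) x y
  kS_herm _ _ := isHerm_mul (isHerm_pairKer _ _) (isHerm_pairKer _ _) (locKer_mul_comm A.hK _ _)
  kw_herm _ u :=
    isHerm_mul (isHerm_pairKer _ _) (isHerm_pairKer _ _) (locKer_mul_comm (A.hL u) _ _)

open Classical in
/-- Kernels with given slots above and given components at infinity. -/
def slotL (f : ∀ u : C.Fib v', LocKer C.UL u.1) (q : InfinitePlace L → InfKer) : KerData C.UL where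
  inf := q
  fin w := if h : C.b w = v' then f ⟨w, h⟩ else 1
  S := TwistCtx.KerPair.above (B := C.B) {v'}
  fin_eq_one _ hw :=
    dif_neg fun h => hw (TwistCtx.KerPair.mem_above.mpr (Finset.mem_singleton.mpr h))

lemma slotL_fin_at (f : ∀ u : C.Fib v', LocKer C.UL u.1) (q : InfinitePlace L → InfKer)
    (u : C.Fib v') : (slotL f q).fin u.1 = f u := dif_pos u.2

lemma slotL_fin_off (f : ∀ u : C.Fib v', LocKer C.UL u.1) (q : InfinitePlace L → InfKer)
    {w : HeightOneSpectrum (𝓞 L)} (hw : C.b w ≠ v') : (slotL f q).fin w = 1 := dif_neg hw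

open Classical in
/-- Kernels with a given slot below and a given component at infinity. -/
def slotK (f : LocKer C.UK v') (q : InfKer) : KerData C.UK where
  inf _ := q
  fin v := if h : v = v' then h ▸ f else 1
  S := {v'}
  fin_eq_one _ hv := dif_neg fun h => hv (Finset.mem_singleton.mpr h)

lemma slotK_fin_at (f : LocKer C.UK v') (q : InfKer) : (slotK f q).fin v' = f := dif_pos rfl

lemma slotK_fin_off (f : LocKer C.UK v') (q : InfKer) {v : HeightOneSpectrum (𝓞 K)} (hv : v ≠ v') :
    (slotK f q).fin v = 1 := dif_neg hv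

/-- The combination over the six slots, permuted at infinity. -/
def sixSlots (σ : Equiv.Perm (Fin 3)) (k : Fin 3 ⊕ Fin 3 → ℤ) : KerData C.UL :=
  slotL (fun u => pairKer (A.hL u) (k (.inl ((A.enum u₀).symm u))))
    fun w => A.g (k (.inr (σ (C.T.e.symm w))))

/-- The factor for the two slots below, seen above. -/
def liftTwo (σ : Equiv.Perm (Fin 3)) (r : Fin 3 → RKey) : KerData C.UL :=
  slotL (fun u => pairKer (A.hL u) ((r ((A.enum u₀).symm u)).1 (.inl 0)))
    fun w => A.g ((r (σ (C.T.e.symm w))).1 (.inr 0))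

/-- The two slots below. -/
def twoSlots (r : Fin 1 ⊕ Fin 1 → ℤ) : KerData C.UK :=
  slotK (pairKer A.hK (r (.inl 0))) (A.g (r (.inr 0)))

/-- The coefficients of the family. -/
lemma fam_a (j : (LKey × (Fin 3 → RKey)) × Finset (Fin 3)) :
    ((A.fam u₀).a j : ℂ) = (cL j.1.1 * ∏ i, (cR (j.1.2 i) : ℂ)) * polSign j.2 := by
  simp [fam]

section Above

variable [IsTotallyComplex L]

theorem bounded_sixSlots (σ : Equiv.Perm (Fin 3)) :
    ∃ B, ∀ x y, ‖∑ k : LKey, (cL k : ℂ) * (A.sixSlots u₀ σ k.1).toPtKer.aut x y‖ ≤ B := by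
  obtain ⟨B, hB⟩ := bounded_symProd (fun i => (A.enum u₀ i).1) C.congrL
    (fun i j h => (A.enum u₀).injective (Subtype.ext h)) (fun i => A.hL _)
    (σ.symm.trans C.T.e) A.ell A.αL (fun i => A.ordV_αL _) A.log_abs_αL
    (by simp [C.absNorm_of_split A.split, A.exp_ell])
    (fun w hw => A.fixL w fun h => hw ((A.enum u₀).symm ⟨w, h⟩) (by simp))
    (A.sixSlots u₀ σ)
    (fun k i => by
      rw [sixSlots, slotL_fin_at, Equiv.symm_apply_apply])
    (fun k w hw => slotL_fin_off _ _ fun h => hw ((A.enum u₀).symm ⟨w, h⟩) (by simp))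
    fun k i => by simp [sixSlots, slotL, g]
  refine ⟨B, fun x y => ?_⟩
  refine le_of_eq_of_le (congrArg norm ?_) (hB x y)
  rw [← Finset.sum_coe_sort (symProd (Fin 3 ⊕ Fin 3)).coeff.support]
  exact Finset.sum_congr rfl fun k _ => by simp [cL, ofReal_coeff]

omit [IsTotallyComplex L] in
/-- Polarisation of one key above. -/
theorem piece_identityL (E : KerData C.UL) (k : LKey) (r : Fin 3 → RKey) (x y : Space C.UL) :
    ∑ I, ((A.fam u₀).a ((k, r), I) : ℂ) * (E * (A.fam u₀).pieceL ((k, r), I)).toPtKer.k x y =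
      ∑ σ : Equiv.Perm (Fin 3), (1 / 6 * ∏ i, (cR (r i) : ℂ)) *
        ((cL k : ℂ) * (E * A.liftTwo u₀ σ r * A.sixSlots u₀ σ k.1).toPtKer.k x y) := by
  let G : Fin 3 → Fin 3 → ℂ := fun i l =>
    ((E.inf (C.T.e l)).comp (A.summand (k, r) i)).k (x.1 (C.T.e l)) (y.1 (C.T.e l))
  let f : ∀ u : C.Fib v', LocKer C.UL u.1 := fun u =>
    pairKer (A.hL u) ((r ((A.enum u₀).symm u)).1 (.inl 0)) *
      pairKer (A.hL u) (k.1 (.inl ((A.enum u₀).symm u)))
  let Z := (E * slotL f fun _ => A.g 0).kfin x.2 y.2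
  have h1 : ∀ σ, (E * A.liftTwo u₀ σ r * A.sixSlots u₀ σ k.1).toPtKer.k x y =
      (∏ l, G (σ l) l) * Z := fun σ => by
    rw [KerData.toPtKer_k, KerData.kinf, ← C.T.e.prod_comp fun w =>
      ((E * A.liftTwo u₀ σ r * A.sixSlots u₀ σ k.1).inf w).k (x.1 w) (y.1 w)]
    refine congrArg₂ (· * ·) (Finset.prod_congr rfl fun l _ => ?_)
      (KerData.kfin_congr (fun w => ?_) _ _)
    · simp only [KerData.mul_inf, G, summand, liftTwo, sixSlots, slotL, Equiv.symm_apply_apply]
      exact InfKer.comp_assoc _ _ _ _ _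
    · rw [KerData.mul_fin, KerData.mul_fin, KerData.mul_fin, mul_assoc]
      refine congrArg (E.fin w * ·) ?_
      by_cases h : C.b w = v'
      · rw [liftTwo, sixSlots, slotL_fin_at _ _ ⟨w, h⟩, slotL_fin_at _ _ ⟨w, h⟩,
          slotL_fin_at _ _ ⟨w, h⟩]
      · rw [liftTwo, sixSlots, slotL_fin_off _ _ h, slotL_fin_off _ _ h, slotL_fin_off _ _ h,
          _root_.one_mul]
  have h2 : ∀ I, (E * (A.fam u₀).pieceL ((k, r), I)).toPtKer.k x y =
      (∏ l, ∑ i ∈ I, G i l) * Z := fun I => by
    rw [KerData.toPtKer_k, KerData.kinf, ← C.T.e.prod_comp fun w =>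
      ((E * (A.fam u₀).pieceL ((k, r), I)).inf w).k (x.1 w) (y.1 w)]
    refine congrArg₂ (· * ·) (Finset.prod_congr rfl fun l _ => ?_)
      (KerData.kfin_congr (fun w => ?_) _ _)
    · exact comp_infSum I (A.summand (k, r)) _ _ _
    · simp only [KerData.mul_fin, Spec.Fam.pieceL, fam, slotL, f]
  have hc : ∀ I, ((A.fam u₀).a ((k, r), I) : ℂ) = (cL k * ∏ i, (cR (r i) : ℂ)) * polSign I :=
    fun I => A.fam_a u₀ ((k, r), I)
  simp only [hc, h1, h2, ← mul_assoc, ← Finset.sum_mul]
  congr 1
  simp only [mul_assoc, ← Finset.mul_sum, sum_polSign_prod]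
  ring

/-- The sums above are bounded. -/
theorem bddL {sL : Set (Space C.UL)} (hsL : IsFundamentalDomain (G2 L) sL (Space.vol C.UL)) :
    (A.fam u₀).BddL := fun E =>
  bounded_of_regroup (T := Equiv.Perm (Fin 3) × (Fin 3 → RKey)) (S := LKey) _
    (fun j => E * (A.fam u₀).pieceL j) (fun t => 1 / 6 * ∏ i, (cR (t.2 i) : ℂ))
    (fun k => (cL k : ℂ)) (fun t k => E * A.liftTwo u₀ t.1 t.2 * A.sixSlots u₀ t.1 k.1)
    (fun x y => by
      simp only [Finset.mul_sum]
      exact regroupL _ (fun σ r k => (1 / 6 * ∏ i, (cR (r i) : ℂ)) *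
        ((cL k : ℂ) * (E * A.liftTwo u₀ σ r * A.sixSlots u₀ σ k.1).toPtKer.k x y))
        fun k r => A.piece_identityL u₀ E k r x y)
    fun t => bounded_sum_mul_left _ (fun k : LKey => A.sixSlots u₀ t.1 k.1)
      (E * A.liftTwo u₀ t.1 t.2) hsL (A.bounded_sixSlots u₀ t.1)

end Above

section Below

variable [IsTotallyComplex K]

theorem bounded_twoSlots :
    ∃ B, ∀ x y, ‖∑ r : RKey, (cR r : ℂ) * (A.twoSlots r.1).toPtKer.aut x y‖ ≤ B := by
  have : Unique (InfinitePlace K) := ⟨⟨C.v⟩, C.uniq⟩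
  obtain ⟨B, hB⟩ := bounded_symProd (fun _ : Fin 1 => v') C.congrK
    (fun i j _ => Subsingleton.elim i j) (fun _ => A.hK)
    (Equiv.ofUnique (Fin 1) (InfinitePlace K)) A.ell A.α (fun _ => A.ordV_α) A.log_abs_α
    (by simp [A.exp_ell]) (fun v hv => A.fixK v fun h => hv 0 h.symm) A.twoSlots
    (fun r i => by rw [twoSlots, slotK_fin_at, Subsingleton.elim i 0])
    (fun r v hv => slotK_fin_off _ _ fun h => hv 0 h.symm)
    fun r i => by rw [Subsingleton.elim i 0]; rfl
  refine ⟨B, fun x y => ?_⟩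
  refine le_of_eq_of_le (congrArg norm ?_) (hB x y)
  rw [← Finset.sum_coe_sort (symProd (Fin 1 ⊕ Fin 1)).coeff.support]
  exact Finset.sum_congr rfl fun k _ => by simp [cR, ofReal_coeff]

/-- The slots below of one key, without the first factor. -/
def restK (k : LKey) (r : Fin 2 → RKey) : KerData C.UK :=
  slotK (pairKer A.hK (k.1 (.inl 0)) *
      ((pairKer A.hK ((r 0).1 (.inl 0)) * pairKer A.hK (k.1 (.inl 1))) *
        (pairKer A.hK ((r 1).1 (.inl 0)) * pairKer A.hK (k.1 (.inl 2)))))
    ((A.g (k.1 (.inr 0))).comp (((A.g ((r 0).1 (.inr 0))).comp (A.g (k.1 (.inr 1)))).comp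
      ((A.g ((r 1).1 (.inr 0))).comp (A.g (k.1 (.inr 2))))))

omit [IsTotallyComplex K] in
/-- Polarisation of one key below. -/
theorem piece_identityK (E : KerData C.UK) (k : LKey) (r : Fin 3 → RKey) (x y : Space C.UK) :
    ∑ I, ((A.fam u₀).a ((k, r), I) : ℂ) * (E * (A.fam u₀).pieceK u₀ ((k, r), I)).toPtKer.k x y =
      (cL k * ∏ i, (cR (![r 1, r 2] i) : ℂ)) *
        ((cR (r 0) : ℂ) * (E * A.restK k ![r 1, r 2] * A.twoSlots (r 0).1).toPtKer.k x y) := by
  have hone : ∀ f : InfinitePlace K → ℂ, ∏ w, f w = f C.v := fun f =>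
    Fintype.prod_eq_single C.v fun w hw => absurd (C.uniq w) hw
  let f := A.summand (k, r)
  let sl : Fin 3 → LocKer C.UK v' := fun i =>
    pairKer A.hK ((r i).1 (.inl 0)) * pairKer A.hK (k.1 (.inl i))
  let P : LocKer C.UK v' := sl 0 * (sl 1 * sl 2)
  let F : Fin 3 → Fin 3 → Fin 3 → ℂ := fun i j l =>
    ((E.inf C.v).comp ((f i).comp ((f j).comp (f l)))).k (x.1 C.v) (y.1 C.v)
  let Z := (E * slotK P (A.g 0)).kfin x.2 y.2
  have hP : ∀ I, (A.fam u₀).prod3 ((k, r), I) u₀ = P := fun I => by
    have e1 : (A.enum u₀).symm u₀ = 0 := (A.enum u₀).symm_apply_eq.2 rfl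
    have e2 : (A.enum u₀).symm (C.next u₀) = 1 := (A.enum u₀).symm_apply_eq.2 rfl
    have e3 : (A.enum u₀).symm (C.next (C.next u₀)) = 2 := (A.enum u₀).symm_apply_eq.2 rfl
    simp only [Spec.Fam.prod3, fam, e1, e2, e3, P, sl]
  have h2 : ∀ I, (E * (A.fam u₀).pieceK u₀ ((k, r), I)).toPtKer.k x y =
      (∑ i ∈ I, ∑ j ∈ I, ∑ l ∈ I, F i j l) * Z := fun I => by
    rw [KerData.toPtKer_k, KerData.kinf, hone]
    refine congrArg₂ (· * ·) ?_ (KerData.kfin_congr (fun v => ?_) _ _)
    · show ((E.inf C.v).comp ((infSum I f).comp ((infSum I f).comp (infSum I f)))).k _ _ = _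
      have e : ((infSum I f).comp ((infSum I f).comp (infSum I f))).k =
          (infSum I fun i => infSum I fun j => infSum I fun l =>
            (f i).comp ((f j).comp (f l))).k :=
        funext fun a => funext fun c => infSum_cube I f a c
      rw [InfKer.comp_congr rfl e]
      simp only [comp_infSum, F]
    · simp only [KerData.mul_fin, Spec.Fam.pieceK, slotK, hP]
  have h3 : (E * A.restK k ![r 1, r 2] * A.twoSlots (r 0).1).toPtKer.k x y = F 0 1 2 * Z := by
    rw [KerData.toPtKer_k, KerData.kinf, hone]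
    refine congrArg₂ (· * ·) ?_ (KerData.kfin_congr (fun v => ?_) _ _)
    · refine congrFun (congrFun (InfKer.rk_eq.mp ?_) _) _
      simp only [KerData.mul_inf, restK, twoSlots, slotK, f, summand, InfKer.rk_comp,
        Matrix.cons_val_zero, Matrix.cons_val_one]
      ac_rfl
    · simp only [KerData.mul_fin]
      rw [mul_assoc]
      refine congrArg (E.fin v * ·) ?_
      by_cases h : v = v'
      · subst h
        simp only [restK, twoSlots, slotK_fin_at, P, sl, Matrix.cons_val_zero, Matrix.cons_val_one]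
        rw [locKer_mul_comm A.hK _ (pairKer A.hK ((r 0).1 (.inl 0)))]
        simp only [mul_assoc]
      · simp only [restK, twoSlots, slotK_fin_off _ _ h, _root_.one_mul]
  have hF : ∀ i j l, F i j l = F j i l ∧ F i j l = F i l j := fun i j l => by
    constructor <;>
    · refine congrFun (congrFun (InfKer.comp_congr rfl (InfKer.rk_eq.mp ?_)) _) _
      simp only [InfKer.rk_comp]
      ac_rfl
  have hc : ∀ I, ((A.fam u₀).a ((k, r), I) : ℂ) = (cL k * ∏ i, (cR (r i) : ℂ)) * polSign I :=
    fun I => A.fam_a u₀ ((k, r), I)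
  simp only [hc, h2, h3, ← mul_assoc, ← Finset.sum_mul]
  congr 1
  simp only [mul_assoc, ← Finset.mul_sum, sum_polSign_symm F (fun i j l => (hF i j l).1)
    (fun i j l => (hF i j l).2), Fin.prod_univ_three, Fin.prod_univ_two, Matrix.cons_val_zero,
    Matrix.cons_val_one]
  ring

/-- The sums below are bounded. -/
theorem bddK {sK : Set (Space C.UK)} (hsK : IsFundamentalDomain (G2 K) sK (Space.vol C.UK)) :
    (A.fam u₀).BddK u₀ := fun E =>
  bounded_of_regroup (T := LKey × (Fin 2 → RKey)) (S := RKey) _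
    (fun j => E * (A.fam u₀).pieceK u₀ j) (fun t => cL t.1 * ∏ i, (cR (t.2 i) : ℂ))
    (fun r => (cR r : ℂ)) (fun t r => E * A.restK t.1 t.2 * A.twoSlots r.1)
    (fun x y => by
      simp only [Finset.mul_sum]
      exact regroupK _ (fun k r r₀ => (cL k * ∏ i, (cR (r i) : ℂ)) *
        ((cR r₀ : ℂ) * (E * A.restK k r * A.twoSlots r₀.1).toPtKer.k x y))
        fun k r => A.piece_identityK u₀ E k r x y)
    fun t => bounded_sum_mul_left _ (fun r : RKey => A.twoSlots r.1)
      (E * A.restK t.1 t.2) hsK A.bounded_twoSlots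

end Below

end Anchor

end FermatAgent.LT2
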