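import Mathlib
import Fermat.Agent.LT.Whit.Arch
import Fermat.Agent.LT2.Cusp.Abel

/-!
# The spherical transform of the shifted profiles at the trivial parameter

It is the integral over the logarithmic height of the horocyclic integral against the inverse of
the height, so it does not depend on the shift.
-/

set_option autoImplicit false

noncomputable section

open MeasureTheory Filter Real
open scoped ContDiff Topology ENNReal

namespace FermatAgent.LT2.Cusp

open FermatAgent.LT

/-- A profile agrees at all distances with a compactly supported one. -/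
theorem exists_compact_profile (P : Profile) :
    ∃ k : ℝ → ℝ, ContDiff ℝ ∞ k ∧ HasCompactSupport k ∧
      ∀ p q : H3, k (H3.coshDist p q) = P.f (H3.coshDist p q) := by
  let χ : ContDiffBump (1 : ℝ) := ⟨max P.ρ 1, max P.ρ 1 + 1, by positivity, by linarith⟩
  refine ⟨fun x => P.f x * χ x, P.smooth.mul χ.contDiff, χ.hasCompactSupport.mul_left,
    fun p q => ?_⟩
  show P.f (H3.coshDist p q) * χ (H3.coshDist p q) = _
  by_cases h : P.f (H3.coshDist p q) = 0
  · rw [h, zero_mul]
  have h1 : 1 ≤ H3.coshDist p q := le_add_of_nonneg_right (by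
    have := Complex.normSq_nonneg (p.z - q.z)
    have := p.t_pos
    have := q.t_pos
    positivity)
  have h2 := P.supp _ h
  rw [χ.one_of_mem_closedBall, mul_one]
  rw [Metric.mem_closedBall, Real.dist_eq, abs_of_nonneg (by linarith)]
  show _ ≤ max P.ρ 1
  linarith [le_max_left P.ρ 1]

/-- The height integral of a profile. -/
theorem integral_profile_t (P : Profile) :
    ∫ p, (P.f (H3.coshDist H3.base p) : ℂ) * (p.t : ℂ) ∂H3.vol =
      ∫ s : ℝ, radInt P s * ((Real.exp (-s) : ℝ) : ℂ) := by
  set F : H3 → ℂ := fun p => (P.f (H3.coshDist H3.base p) : ℂ) * (p.t : ℂ)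
  have hFm : Measurable F := by
    refine Measurable.mul ?_ (Complex.continuous_ofReal.comp H3.continuous_t).measurable
    exact (Complex.continuous_ofReal.comp (P.smooth.continuous.comp
      (H3.continuous_coshDist _))).measurable
  let g : ℂ × ℝ → ℂ := fun a => if 0 < a.2 then
    ((a.2⁻¹ ^ 2 * P.f (Profile.relDist (Real.log a.2) a.1) : ℝ) : ℂ) else 0
  have hT : Measurable (WithLp.toLp 2 : ℂ × ℝ → H3.E3) :=
    (WithLp.prod_continuous_toLp 2 ℂ ℝ).measurable
  have hbase : ∀ (a : ℂ × ℝ) (ha : 0 < a.2),
      H3.coshDist H3.base ⟨a.1, a.2, ha⟩ = Profile.relDist (Real.log a.2) a.1 := fun a ha => by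
    rw [Profile.coshDist_eq_relDist]
    simp [H3.base]
  have h1 : ∫ p, F p ∂H3.vol = ∫ a : ℂ × ℝ, g a := by
    rw [H3.vol, integral_map H3.measurable_ofCoord.aemeasurable hFm.aestronglyMeasurable,
      integral_withDensity_eq_integral_toReal_smul H3.measurable_dens
        (ae_of_all _ fun x => ENNReal.ofReal_lt_top),
      ← integral_indicator H3.measurableSet_half, H3.vol3, integral_map hT.aemeasurable]
    swap
    · exact (((H3.measurable_dens.ennreal_toReal.smul (hFm.comp H3.measurable_ofCoord))).indicator
        H3.measurableSet_half).aestronglyMeasurable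
    refine integral_congr_ae (ae_of_all _ fun a => ?_)
    by_cases ha : 0 < a.2
    · have e : H3.ofCoord (WithLp.toLp 2 a) = ⟨a.1, a.2, ha⟩ := dif_pos ha
      simp only [Set.indicator, H3.half, Set.mem_ofPred_eq, WithLp.toLp_snd, if_pos ha, g, F, e,
        hbase a ha, H3.dens, Complex.real_smul]
      rw [ENNReal.toReal_ofReal (by positivity)]
      push_cast
      field_simp
    · simp [Set.indicator, H3.half, g, ha]
  set R₁ := Real.log (2 * max P.ρ 1 + 2)
  set R₂ := 2 * (2 * max P.ρ 1 + 2)
  obtain ⟨M, hM⟩ := P.exists_bound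
  have hM0 : 0 ≤ M := (norm_nonneg _).trans (hM H3.base H3.base)
  have hgint : Integrable g ((volume : Measure ℂ).prod (volume : Measure ℝ)) := by
    set T : Set (ℂ × ℝ) := Metric.closedBall 0 R₂ ×ˢ Set.Icc (Real.exp (-R₁)) (Real.exp R₁)
    have hsupp : Function.support g ⊆ T := by
      intro a ha
      by_cases h : 0 < a.2
      · simp only [Function.mem_support, g, if_pos h, Complex.ofReal_ne_zero] at ha
        obtain ⟨b1, b2⟩ := P.bound_of_relDist (P.supp _ (right_ne_zero_of_mul ha))
        refine ⟨by simpa using b2, ?_, ?_⟩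
        · rw [← Real.exp_log h, Real.exp_le_exp]; linarith [(abs_le.1 b1).1]
        · rw [← Real.exp_log h, Real.exp_le_exp]; exact (abs_le.1 b1).2
      · exact absurd (if_neg h) ha
    rw [← integrableOn_iff_integrable_of_support_subset hsupp]
    have hTm : MeasurableSet T := measurableSet_closedBall.prod measurableSet_Icc
    refine IntegrableOn.of_bound ?_ ?_ (Real.exp R₁ ^ 2 * M) ?_
    · exact ((isCompact_closedBall _ _).prod isCompact_Icc).measure_lt_top
    · refine Measurable.aestronglyMeasurable (Measurable.ite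
        (measurableSet_lt measurable_const measurable_snd) ?_ measurable_const)
      exact Complex.continuous_ofReal.measurable.comp ((measurable_snd.inv.pow_const 2).mul
        (P.smooth.continuous.measurable.comp (Profile.contDiff_relDist.continuous.measurable.comp
          ((Real.measurable_log.comp measurable_snd).prodMk measurable_fst))))
    · refine (ae_restrict_mem hTm).mono fun a ha => ?_
      have h0 : 0 < a.2 := (Real.exp_pos _).trans_le ha.2.1
      simp only [g, if_pos h0, Complex.norm_real, norm_mul]
      refine mul_le_mul ?_ ?_ (norm_nonneg _) (by positivity)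
      · rw [Real.norm_of_nonneg (by positivity)]
        refine pow_le_pow_left₀ (by positivity) ?_ 2
        rw [inv_le_comm₀ h0 (Real.exp_pos _), ← Real.exp_neg]
        exact ha.2.1
      · have := hM H3.base ⟨a.1, a.2, h0⟩
        rwa [hbase a h0, Complex.norm_real] at this
  rw [h1, Measure.volume_eq_prod, integral_prod_symm g hgint,
    ← setIntegral_eq_integral_of_forall_compl_eq_zero (s := Set.Ioi (0 : ℝ)) fun t ht => by
      simp [g, show ¬0 < t from ht],
    show Set.Ioi (0 : ℝ) = Real.exp '' Set.univ by rw [Set.image_univ, Real.range_exp],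
    integral_image_eq_integral_abs_deriv_smul MeasurableSet.univ
      (fun t _ => (Real.hasDerivAt_exp t).hasDerivWithinAt) Real.exp_injective.injOn,
    setIntegral_univ]
  refine integral_congr_ae (ae_of_all _ fun s => ?_)
  simp only [g, if_pos (Real.exp_pos s), Real.log_exp, abs_of_pos (Real.exp_pos s), radInt,
    Complex.ofReal_mul, integral_const_mul, Complex.real_smul, Real.exp_neg]
  push_cast
  field_simp

/-- The transform of the shifted profiles. -/
def shiftT (ℓ : ℝ) : ℂ := ((4 * π * ∫ s, psiBump ℓ s : ℝ) : ℂ)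

lemma continuous_psiBump (ℓ : ℝ) : Continuous (psiBump ℓ) :=
  (contDiff_bump1 ℓ).continuous.comp Real.continuous_cosh

lemma hasCompactSupport_psiBump (ℓ : ℝ) : HasCompactSupport (psiBump ℓ) :=
  HasCompactSupport.intro (isCompact_Icc (a := -|ℓ|) (b := |ℓ|)) fun s hs => psiBump_eq_zero (by
    by_contra h
    rw [not_le, abs_lt] at h
    exact hs ⟨h.1.le, h.2.le⟩)

/-- The shifted transform does not vanish. -/
theorem shiftT_ne_zero {ℓ : ℝ} (hℓ : ℓ ≠ 0) : shiftT ℓ ≠ 0 := by
  have h : 0 < ∫ s, psiBump ℓ s :=
    (continuous_psiBump ℓ).integral_pos_of_hasCompactSupport_nonneg_nonzero (x := 0)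
      (hasCompactSupport_psiBump ℓ) (fun s => bump1_nonneg _ _) (by
        rw [psiBump, Real.cosh_zero, bump1_one hℓ]; exact one_ne_zero)
  exact Complex.ofReal_ne_zero.2 (by positivity)

/-- A compactly supported representative of a shifted profile has the common transform. -/
theorem hT_shiftProfile (ℓ : ℝ) (m : ℤ) {k : ℝ → ℝ}
    (hk : ∀ p q : H3, k (H3.coshDist p q) = (shiftProfile ℓ m).f (H3.coshDist p q)) :
    Whit.hT k = shiftT ℓ := by
  rw [Whit.hT, Whit.kint]
  simp only [hk]
  rw [integral_profile_t]
  have hi : ∀ a : ℝ, Integrable fun s => psiBump ℓ (s - a) := fun a =>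
    ((continuous_psiBump ℓ).integrable_of_hasCompactSupport
      (hasCompactSupport_psiBump ℓ)).comp_sub_right a
  have e : ∀ s : ℝ, radInt (shiftProfile ℓ m) s * ((Real.exp (-s) : ℝ) : ℂ) =
      ((2 * π * (psiBump ℓ (s - m * ℓ) + psiBump ℓ (s - -(m * ℓ))) : ℝ) : ℂ) := fun s => by
    rw [radInt_shiftProfile, ← Complex.ofReal_mul, sub_neg_eq_add, Real.exp_neg]
    congr 1
    field_simp
  rw [integral_congr_ae (ae_of_all _ e), integral_complex_ofReal, integral_const_mul,
    integral_add (hi _) (hi _), integral_sub_right_eq_self, integral_sub_right_eq_self, shiftT]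
  congr 1
  ring

end FermatAgent.LT2.Cusp
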