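import Mathlib
import Fermat.Agent.LT2.Spec.Adj
import Fermat.Agent.LT2.Cusp.Horo
import Fermat.Agent.LT2.Cusp.Lin
import Fermat.Agent.LT2.Cusp.Transform

/-!
# Eigenvalues of the kernels on a radial Hecke eigenfunction

The kernels with prescribed horocyclic integrals act on an eigenfunction of the adjacency kernel by
the sum of two opposite powers of the parameter, and shifted profiles act by a common constant.
-/

set_option autoImplicit false

noncomputable section

open Matrix IsDedekindDomain NumberField Filter MeasureTheory WithZero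
open scoped MatrixGroups ENNReal ContDiff

namespace FermatAgent.LT2.Cusp

open FermatAgent.LT

/-- The recursion away from zero. -/
lemma pairC_step (x : ℂ) (k n : ℕ) (hn : n ≠ 0) :
    pairC x k (n + 1) + pairC x k (n - 1) =
      pairC x (k + 1) n + pairC x ((k : ℤ) - 1).natAbs n := by
  have hA : ∀ k m : ℕ, pairU x (k + 1) (m + 1) = pairU x k m := fun k m => by
    simp only [pairU, Nat.add_le_add_iff_right, Nat.add_sub_add_right]
  have hB : ∀ m : ℕ, pairU x 0 (m + 1) = 0 := fun m => if_neg (by omega)
  obtain ⟨n, rfl⟩ := Nat.exists_eq_succ_of_ne_zero hn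
  rcases k with _ | _ | k
  · simp only [pairC, pairMult, show ((0 : ℕ) : ℤ) - 1 = -1 by rfl, Int.natAbs_neg, Int.natAbs_one,
      zero_add, Nat.succ_eq_add_one, Nat.add_sub_cancel, hA, hB, if_true, one_ne_zero, if_false]
    ring
  · simp only [pairC, pairMult, show ((0 + 1 : ℕ) : ℤ) - 1 = 0 by rfl, Int.natAbs_zero, zero_add,
      Nat.succ_eq_add_one, Nat.add_sub_cancel, show n + 1 + 1 + 2 = n + 1 + 2 + 1 by omega,
      show n + 1 + 2 = n + 2 + 1 by omega, hA, hB, if_true, one_ne_zero, if_false]
    norm_num
    try ring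
  · simp only [pairC, pairMult,
      show ((k + 1 + 1 : ℕ) : ℤ) - 1 = ((k + 1 : ℕ) : ℤ) by push_cast; ring,
      Int.natAbs_natCast, Nat.succ_eq_add_one, Nat.add_sub_cancel, Nat.succ_ne_zero, if_false,
      show n + 1 + 1 + 2 = n + 1 + 2 + 1 by omega, show n + 1 + 2 = n + 2 + 1 by omega, hA]
    ring

/-- The recursion at zero. -/
lemma pairC_zero (x : ℂ) (k : ℕ) :
    (1 + x) * pairC x k 1 = pairC x (k + 1) 0 + pairC x ((k : ℤ) - 1).natAbs 0 := by
  rcases k with _ | _ | k
  · simp [pairC, pairMult, pairU]
  · simp [pairC, pairMult, pairU]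
    ring
  · have h1 : pairU x (k + 1 + 1) 1 = pairU x (k + 1) 0 := by
      simp [pairU]
    have h3 : pairU x (k + 1 + 1) 3 = pairU x (k + 1) 2 := by
      simp only [pairU, Nat.succ_le_succ_iff, show k + 1 + 1 - 3 = k + 1 - 2 by omega]
    have h2 : pairU x (k + 1 + 1 + 1) 2 = pairU x (k + 1) 0 := by
      simp [pairU]
    have e1 := pairU_step x (k + 1 + 1 + 1) 0
    have e2 := pairU_step x (k + 1) 0
    rw [if_neg (by omega), zero_add] at e1 e2
    rw [h2] at e1
    simp only [pairC, pairMult,
      show ((k + 1 + 1 : ℕ) : ℤ) - 1 = ((k + 1 : ℕ) : ℤ) by push_cast; ring,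
      Int.natAbs_natCast, zero_add, Nat.succ_ne_zero, if_false, h1, h2, h3,
      show (1 : ℕ) + 2 = 3 from rfl]
    linear_combination e2 - e1

section Local

variable {L : Type*} [Field L] [NumberField L] {U : Level L} {v : HeightOneSpectrum (𝓞 L)}
  (hv : U.loc v = locK v)

include hv in
/-- The adjacency kernel times a kernel with pair transform. -/
theorem hecke_mul_pairKer (k : ℕ) (c d : G2 L ⧸ U.loc v) :
    (LocKer.hecke hv * pairKer hv (k : ℤ)).k c d =
      sqv v * ((pairKer hv ((k + 1 : ℕ) : ℤ)).k c d + (pairKer hv ((k : ℤ) - 1)).k c d) := by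
  rw [Spec.hecke_mul_radial hv (pairKer hv (k : ℤ))
    (fun n => pairPhi v k n) (fun c d => by rw [pairKer, sph_k, Int.natAbs_natCast])]
  simp only [pairKer, sph_k, pairPhi_apply, Int.natAbs_natCast]
  set x : ℂ := (v.asIdeal.absNorm : ℂ)⁻¹ with hx
  set s := sqv v
  have hs : s ≠ 0 := sqv_ne_zero v
  have hq : (v.asIdeal.absNorm : ℂ) = s ^ 2 := (sqv_sq v).symm
  rw [hq]
  generalize cdist c d = n
  by_cases hn : n = 0
  · subst hn
    rw [if_pos rfl, zero_add, pow_zero, pow_one, inv_one, one_mul, one_mul, ← pairC_zero, hx, hq]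
    field_simp
  · obtain ⟨m, rfl⟩ := Nat.exists_eq_succ_of_ne_zero hn
    rw [if_neg hn, ← mul_add, ← pairC_step x k _ hn]
    simp only [Nat.succ_eq_add_one, Nat.add_sub_cancel, pow_succ]
    field_simp

/-- An eigenvalue of a local kernel on a function. -/
def FinEig (A : LocKer U v) (G : FinCoset U → ℂ) (e : ℂ) : Prop :=
  ∀ c : FinCoset U, ∑' d, A.k (c.1 v) d * G (c.update v d) = e * G c

lemma finEig_of_combination {A B B' : LocKer U v} {a b b' : ℂ}
    (h : ∀ c d, a * A.k c d = b * B.k c d + b' * B'.k c d) {G : FinCoset U → ℂ} {e e' : ℂ}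
    (hB : FinEig B G e) (hB' : FinEig B' G e') (c : FinCoset U) :
    a * ∑' d, A.k (c.1 v) d * G (c.update v d) = (b * e + b' * e') * G c := by
  rw [← tsum_mul_left]
  simp only [← mul_assoc, h, add_mul]
  rw [Summable.tsum_add (by simpa only [mul_assoc] using (B.summable_row _ _).mul_left b)
    (by simpa only [mul_assoc] using (B'.summable_row _ _).mul_left b')]
  simp only [mul_assoc, tsum_mul_left]
  rw [hB c, hB' c]

open Classical in
/-- Eigenvalues of finite products multiply. -/
lemma FinEig.mul {A B : LocKer U v} {G : FinCoset U → ℂ} {a b : ℂ} (hA : FinEig A G a)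
    (hB : FinEig B G b) : FinEig (A * B) G (a * b) := by
  intro c
  set T := (A.row (c.1 v)).toFinset
  have hT : ∀ e ∉ T, A.k (c.1 v) e = 0 := fun e he => by simpa [T] using he
  have h1 : ∀ d, (A * B).k (c.1 v) d = ∑ e ∈ T, A.k (c.1 v) e * B.k e d := fun d =>
    tsum_eq_sum fun e he => by rw [hT e he, zero_mul]
  simp only [h1, Finset.sum_mul, mul_assoc]
  rw [Summable.tsum_finsetSum fun e _ => (B.summable_row _ _).mul_left _]
  simp only [tsum_mul_left]
  have h2 : ∀ e, ∑' d, B.k e d * G (c.update v d) = b * G (c.update v e) := fun e => by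
    have := hB (c.update v e)
    rw [FinCoset.update_val_self] at this
    refine Eq.trans (tsum_congr fun d => ?_) this
    congr 2
    exact FinCoset.ext fun w => by
      show Function.update c.1 v d w = Function.update (Function.update c.1 v e) v d w
      rw [Function.update_idem]
  simp only [h2, mul_left_comm _ b, ← Finset.mul_sum]
  rw [show ∑ e ∈ T, A.k (c.1 v) e * G (c.update v e) = a * G c from
    (A.tsum_row_eq (fun e => G (c.update v e)) (c.1 v)).symm.trans (hA c)]

lemma finEig_one (G : FinCoset U → ℂ) : FinEig (1 : LocKer U v) G 1 := by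
  classical
  intro c
  rw [tsum_eq_single (c.1 v) fun d hd => by rw [LocKer.one_k, if_neg (Ne.symm hd), zero_mul],
    LocKer.one_k, if_pos rfl]
  have : c.update v (c.1 v) = c := FinCoset.ext fun w => by
    show Function.update c.1 v (c.1 v) w = c.1 w
    rw [Function.update_eq_self]
  rw [this]

include hv in
/-- The eigenvalue of a kernel with pair transform. -/
theorem finEig_pairKer {G : FinCoset U → ℂ} {z : ℂ} (hz : z ≠ 0)
    (hH : FinEig (LocKer.hecke hv) G ((z + z⁻¹) * sqv v)) (k : ℤ) :
    FinEig (pairKer hv k) G (z ^ k + z ^ (-k)) := by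
  have hs := sqv_ne_zero v
  have h0 : FinEig (pairKer hv 0) G (z ^ (0 : ℤ) + z ^ (-(0 : ℤ))) := by
    intro c
    have e : ∀ d, (pairKer hv 0).k (c.1 v) d = 2 * (1 : LocKer U v).k (c.1 v) d := fun d => by
      classical
      rw [LocKer.one_k, pairKer, sph_k, pairPhi_apply, Int.natAbs_zero]
      by_cases h : c.1 v = d
      · rw [← h, Spec.cdist_self, if_pos rfl]
        simp [pairC, pairMult, pairU]
      · have hne : cdist (c.1 v) d ≠ 0 := fun h0 => h (Spec.eq_of_cdist_eq_zero hv h0)
        obtain ⟨m, hm⟩ := Nat.exists_eq_succ_of_ne_zero hne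
        simp [pairC, pairU, hm, h]
    simp only [e, mul_assoc, tsum_mul_left]
    rw [finEig_one G c]
    norm_num
  have hsymm : ∀ k : ℤ, pairKer hv k = pairKer hv (k.natAbs : ℤ) := fun k => by
    rw [pairKer, pairKer, Int.natAbs_natCast]
  have hnat : ∀ n : ℕ, FinEig (pairKer hv (n : ℤ)) G (z ^ (n : ℤ) + z ^ (-(n : ℤ))) := by
    intro n
    induction n using Nat.strong_induction_on with
    | _ n ih =>
      rcases n with _ | n
      · exact h0
      have hn := ih n (Nat.lt_succ_self n)
      have hl := hH.mul hn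
      intro c
      rcases Nat.eq_zero_or_pos n with rfl | hpos
      · have e : ∀ a b, (2 * sqv v) * (pairKer hv ((0 + 1 : ℕ) : ℤ)).k a b =
            1 * (LocKer.hecke hv * pairKer hv ((0 : ℕ) : ℤ)).k a b +
              0 * (1 : LocKer U v).k a b := fun a b => by
          rw [hecke_mul_pairKer hv 0, hsymm (((0 : ℕ) : ℤ) - 1)]
          norm_num
          ring
        have := finEig_of_combination e hl (finEig_one G) c
        refine mul_left_cancel₀ (mul_ne_zero two_ne_zero hs) ?_
        refine Eq.trans ?_ (this.trans ?_)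
        · rfl
        · norm_num
          ring
      · have h2 := ih (n - 1) (by omega)
        rw [show (((n - 1 : ℕ) : ℤ)) = (n : ℤ) - 1 by omega] at h2
        have e : ∀ a b, sqv v * (pairKer hv ((n + 1 : ℕ) : ℤ)).k a b =
            1 * (LocKer.hecke hv * pairKer hv (n : ℤ)).k a b +
              (-sqv v) * (pairKer hv ((n : ℤ) - 1)).k a b := fun a b => by
          rw [hecke_mul_pairKer hv n]
          ring
        refine mul_left_cancel₀ hs ((finEig_of_combination e hl h2 c).trans ?_)
        have hn' : ((n + 1 : ℕ) : ℤ) = (n : ℤ) + 1 := by push_cast; ring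
        rw [hn', show -((n : ℤ) + 1) = -(n : ℤ) + -1 by ring,
          show -((n : ℤ) - 1) = -(n : ℤ) + 1 by ring, show (n : ℤ) - 1 = (n : ℤ) + -1 by ring]
        simp only [zpow_add₀ hz, _root_.zpow_neg_one, zpow_one]
        ring
  rw [hsymm k]
  rcases Int.natAbs_eq k with h | h
  · have := hnat k.natAbs
    rwa [← h] at this ⊢
  · have := hnat k.natAbs
    conv => arg 3; rw [h, neg_neg, add_comm]
    exact this

open Classical in
/-- The finite part of a product kernel on a simultaneous eigenfunction. -/
theorem tsum_kfin_eig {G : FinCoset U → ℂ} (e : HeightOneSpectrum (𝓞 L) → ℂ) (D : KerData U)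
    (he : ∀ w ∈ D.S, FinEig (D.fin w) G (e w)) (c : FinCoset U) :
    ∑' c', D.kfin c c' * G c' = (∏ w ∈ D.S, e w) * G c := by
  obtain ⟨S, hS⟩ : ∃ S, D.S = S := ⟨D.S, rfl⟩
  induction S using Finset.induction_on generalizing D c with
  | empty =>
    rw [hS, Finset.prod_empty, one_mul, tsum_eq_single c fun c' hc' => ?_]
    · rw [KerData.kfin, hS, if_pos fun w _ => rfl, Finset.prod_empty, one_mul]
    · by_contra h
      exact hc' (FinCoset.ext fun w =>
        ((D.kfin_ne_zero (left_ne_zero_of_mul h)).1 w (by simp [hS])).symm)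
  | insert w S hw ih =>
    let D' : KerData U :=
      { inf := D.inf
        fin := Function.update D.fin w 1
        S := S
        fin_eq_one := fun u hu => by
          by_cases h : u = w
          · subst h; rw [Function.update_self]
          · rw [Function.update_of_ne h]
            exact D.fin_eq_one u (by rw [hS]; simp [h, hu]) }
    have hD' : D'.fin w = 1 := Function.update_self (f := D.fin) w 1
    have hk : ∀ c', D.kfin c c' = ∑ d ∈ ((D.fin w).row (c.1 w)).toFinset,
        (D.fin w).k (c.1 w) d * D'.kfin (c.update w d) c' := fun c' => by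
      rw [← Mods.kfin_setFin D']
      refine KerData.kfin_congr (fun u => ?_) _ _
      rw [Mods.ext_fin]
      by_cases h : u = w
      · subst h
        simp [Mods.setFin, hD']
      · simp [Mods.setFin, D', h]
    simp only [hk, Finset.sum_mul, mul_assoc]
    rw [Summable.tsum_finsetSum fun d _ => (summable_of_hasFiniteSupport
      ((D'.finite_row _).subset fun c' hc' => left_ne_zero_of_mul hc')).mul_left _]
    simp only [tsum_mul_left]
    have he' : ∀ u ∈ D'.S, FinEig (D'.fin u) G (e u) := fun u hu => by
      have hne : u ≠ w := fun h => hw (h ▸ hu)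
      rw [show D'.fin u = D.fin u from Function.update_of_ne hne _ _]
      exact he u (by rw [hS]; exact Finset.mem_insert_of_mem hu)
    simp only [fun d => ih D' he' (c.update w d) rfl, mul_left_comm ((D.fin w).k _ _),
      ← Finset.mul_sum]
    rw [← (D.fin w).tsum_row_eq (fun d => G (c.update w d)),
      he w (by rw [hS]; exact Finset.mem_insert_self _ _), hS, Finset.prod_insert hw]
    ring

end Local

section Inf

variable {L : Type*} [Field L] [NumberField L] {U : Level L}

/-- An eigenvalue of a kernel at infinity on a function. -/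
def InfEig (w : InfinitePlace L) (q : InfKer) (φ : Space U → ℂ) (t : ℂ) : Prop :=
  ∀ x, infOp w q φ x = t * φ x

variable {w : InfinitePlace L} {φ : Space U → ℂ} {M : ℝ}

open Classical in
/-- Eigenvalues of composed archimedean kernels multiply. -/
lemma InfEig.comp {A B : InfKer} {a b : ℂ} (hm : Measurable φ) (hM : ∀ x, ‖φ x‖ ≤ M)
    (hA : InfEig w A φ a) (hB : InfEig w B φ b) : InfEig w (A.comp B) φ (a * b) := by
  intro x
  set p₀ := x.1 w
  set f : H3 → ℂ := fun p => φ (Function.update x.1 w p, x.2)
  have hf : Measurable f := hm.comp ((measurable_update x.1).prodMk measurable_const)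
  show ∫ p, (∫ s, A.k p₀ s * B.k s p ∂H3.vol) * f p ∂H3.vol = _
  simp only [← integral_mul_const]
  rw [integral_integral_swap]
  · have hin : ∀ s, ∫ p, A.k p₀ s * B.k s p * f p ∂H3.vol = b * (A.k p₀ s * f s) := fun s => by
      simp only [mul_assoc, integral_const_mul]
      have := hB (Function.update x.1 w s, x.2)
      simp only [infOp, Function.update_self, Function.update_idem] at this
      rw [this]
      ring
    simp only [hin, integral_const_mul]
    rw [show ∫ s, A.k p₀ s * f s ∂H3.vol = a * φ x from hA x]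
    ring
  · set Bx := {q | H3.coshDist p₀ q ≤ A.ρ}
    set By := {q | H3.coshDist p₀ q ≤ (A.comp B).ρ}
    have hsupp : Function.support (Function.uncurry fun p s => A.k p₀ s * B.k s p * f p) ⊆
        By ×ˢ Bx := fun y hy => by
      have h1 := A.supp _ _ (left_ne_zero_of_mul (left_ne_zero_of_mul hy))
      have h2 := B.supp _ _ (right_ne_zero_of_mul (left_ne_zero_of_mul hy))
      exact ⟨H3.coshDist_trans (h1.trans (le_max_left _ _)) (h2.trans (le_max_left _ _)), h1⟩
    rw [← integrableOn_iff_integrable_of_support_subset hsupp]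
    refine IntegrableOn.of_bound ?_ ?_ (A.C * B.C * M) (ae_of_all _ fun y => ?_)
    · rw [Measure.prod_prod]
      exact ENNReal.mul_lt_top (H3.vol_ball_lt_top _ _) (H3.vol_ball_lt_top _ _)
    · exact (((A.meas.comp (measurable_const.prodMk measurable_snd)).mul (B.meas.comp
        (measurable_snd.prodMk measurable_fst))).mul (hf.comp measurable_fst)).aestronglyMeasurable
    · simp only [Function.uncurry, norm_mul]
      exact mul_le_mul (mul_le_mul (A.bound _ _) (B.bound _ _) (norm_nonneg _) A.C_nonneg)
        (hM _) (norm_nonneg _) (mul_nonneg A.C_nonneg B.C_nonneg)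

open Classical in
/-- Eigenvalues of archimedean sums add. -/
lemma InfEig.sum {ι : Type*} {s : Finset ι} {f : ι → InfKer} {t : ι → ℂ} (hm : Measurable φ)
    (hM : ∀ x, ‖φ x‖ ≤ M) (h : ∀ i, InfEig w (f i) φ (t i)) :
    InfEig w (infSum s f) φ (∑ i ∈ s, t i) := by
  intro x
  simp only [infOp, infSum_k, Finset.sum_mul]
  rw [integral_finsetSum _ fun i _ => (f i).integrable_row _
    (f := fun p => φ (Function.update x.1 w p, x.2))
    (hm.comp ((measurable_update x.1).prodMk measurable_const)) fun p => hM _]
  exact Finset.sum_congr rfl fun i _ => h i x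

/-- Shifted profiles on a radial eigenfunction. -/
theorem infEig_shift
    (hrad : ∀ k : ℝ → ℝ, ContDiff ℝ ∞ k → HasCompactSupport k →
      ∀ x, radialOp w (fun p q => k (H3.coshDist p q)) φ x = Whit.hT k * φ x) (ℓ : ℝ) (m : ℤ) :
    InfEig w (shiftProfile ℓ m).ker φ (shiftT ℓ) := by
  intro x
  obtain ⟨k, hk, hs, hkP⟩ := exists_compact_profile (shiftProfile ℓ m)
  have := hrad k hk hs x
  rw [hT_shiftProfile ℓ m hkP] at this
  rw [← this, radialOp_eq_infOp w (k := fun p q => k (H3.coshDist p q))
    (q := (shiftProfile ℓ m).ker) fun a b => by simp [Profile.ker, hkP]]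

end Inf

end FermatAgent.LT2.Cusp
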