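import Mathlib
import Fermat.Agent.LT.Descent.Spec.Radial
import Fermat.Agent.LT2.Automorphic
import Fermat.Agent.LT2.Cusp.Family
import Fermat.Agent.LT2.Cusp.Eigen

/-!
# The auxiliary family: bounded sums and a nonzero scalar

On a radial Hecke eigenfunction whose parameter at the auxiliary place is not a cube root of one,
the family acts by a nonzero number.
-/

set_option autoImplicit false

noncomputable section

open Matrix IsDedekindDomain NumberField Filter MeasureTheory WithZero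
open scoped MatrixGroups ENNReal ContDiff

namespace FermatAgent.LT2.Cusp

open FermatAgent.LT

/-- The pairing with a parameter of the combination over the slots is nonzero. -/
theorem sum_symProd_eig_ne_zero {ιf ιi : Type*} [Fintype ιf] [DecidableEq ιf] [Fintype ιi]
    [DecidableEq ιi] (z : ℂ) (hz : z ≠ 0)
    (hpat : ∀ ε : ιf → ℤˣ, z ^ (∑ i, (ε i : ℤ)) ≠ 1) :
    ∑ k ∈ (symProd (ιf ⊕ ιi)).coeff.support,
      (symProd (ιf ⊕ ιi)).coeff k * ∏ i, (z ^ k (.inl i) + z ^ (-k (.inl i))) ≠ 0 := by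
  let F : ιf ⊕ ιi → ℤ → ℂ := Sum.elim (fun _ m => z ^ m) fun _ _ => 1
  let χ : (ιf ⊕ ιi → ℤ) → ℂ := fun k => ∏ j, F j (k j)
  have hχ : ∀ k, χ k = z ^ (∑ i, k (.inl i)) := fun k => by
    simp only [χ, F, Fintype.prod_sum_type, Sum.elim_inl, Sum.elim_inr, Finset.prod_const_one,
      mul_one]
    induction (Finset.univ : Finset ιf) using Finset.induction_on with
    | empty => simp
    | insert a s ha ih => rw [Finset.prod_insert ha, Finset.sum_insert ha, ih, zpow_add₀ hz]
  have hmul : ∀ a b, χ (a + b) = χ a * χ b := fun a b => by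
    rw [hχ, hχ, hχ, ← zpow_add₀ hz, ← Finset.sum_add_distrib]
    rfl
  have hm : ∀ A B : AddMonoidAlgebra ℂ (ιf ⊕ ιi → ℤ),
      evalAt χ (A * B) = evalAt χ A * evalAt χ B := by
    intro A B
    induction A using AddMonoidAlgebra.induction_linear with
    | zero => simp
    | add f g hf hg => rw [add_mul, map_add, map_add, hf, hg, add_mul]
    | single a r =>
      rw [evalAt_single_mul, evalAt_single,
        show (fun k => χ (a + k)) = fun k => χ a * χ k from funext (hmul a)]
      rw [evalAt_eq_sum, evalAt_eq_sum, Finset.mul_sum, Finset.mul_sum]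
      exact Finset.sum_congr rfl fun k _ => by ring
  have hne : evalAt χ (symProd (ιf ⊕ ιi)) ≠ 0 := by
    rw [symProd]
    induction (Finset.univ : Finset (ιf ⊕ ιi → ℤˣ)) using Finset.induction_on with
    | empty =>
      rw [Finset.prod_empty, AddMonoidAlgebra.one_def, evalAt_single, one_mul, hχ]
      simp
    | insert ε s hε ih =>
      rw [Finset.prod_insert hε, hm]
      refine mul_ne_zero ?_ ih
      rw [symFac, map_sub, map_add, evalAt_single, evalAt_single, evalAt_single, hχ, hχ, hχ]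
      simp only [patt, Pi.neg_apply, Pi.zero_apply, Finset.sum_neg_distrib, Finset.sum_const_zero,
        zpow_zero, one_mul, mul_one, _root_.zpow_neg]
      set a := z ^ (∑ i, (ε (.inl i) : ℤ))
      have ha : a ≠ 1 := hpat fun i => ε (.inl i)
      have ha0 : a ≠ 0 := zpow_ne_zero _ hz
      have e : a + a⁻¹ - 2 = (a - 1) ^ 2 / a := by field_simp; ring
      rw [e]
      exact div_ne_zero (pow_ne_zero _ (sub_ne_zero.2 ha)) ha0
  intro h0
  have h := sum_prod_pairs F
  simp only [Fintype.prod_sum_type, F, Sum.elim_inl, Sum.elim_inr, Finset.prod_const] at h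
  simp only [← mul_assoc, ← Finset.sum_mul, h0, zero_mul] at h
  refine mul_ne_zero (pow_ne_zero (Fintype.card (ιf ⊕ ιi)) (two_ne_zero' ℂ)) hne
    (Eq.trans ?_ h.symm)
  simp [χ, F, Fintype.prod_sum_type]

end FermatAgent.LT2.Cusp

namespace FermatAgent.LT2

open FermatAgent.LT FermatAgent.LT2.Cusp FermatAgent.LT2.Spec

variable {K L : Type*} [Field K] [NumberField K] [Field L] [NumberField L] [Algebra K L]

namespace Anchor

variable {C : Ctx K L} {v' : HeightOneSpectrum (𝓞 K)} (A : Anchor C v') (u₀ : C.Fib v')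

variable {φ : Space C.UL → ℂ} (hm : Measurable φ) {M : ℝ} (hM : ∀ x, ‖φ x‖ ≤ M)
  (hrad : ∀ (w : InfinitePlace L) (k : ℝ → ℝ), ContDiff ℝ ∞ k → HasCompactSupport k →
    ∀ x, radialOp w (fun p q => k (H3.coshDist p q)) φ x = Whit.hT k * φ x)
  {z : ℂ} (hz : z ≠ 0)
  (hheck : ∀ u : C.Fib v', ∀ x, heckeOp u.1 φ x = (z + z⁻¹) * sqv v' * φ x)

include hm hM hrad in
lemma infEig_piece (w : InfinitePlace L) (j : (A.fam u₀).ι) :
    InfEig w ((A.fam u₀).k j) φ (j.2.card * (shiftT A.ell * shiftT A.ell)) := by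
  have h := InfEig.sum (s := j.2) (f := A.summand j.1) hm hM fun i =>
    (infEig_shift (hrad w) A.ell _).comp hm hM (infEig_shift (hrad w) A.ell _)
  simp only [Finset.sum_const, nsmul_eq_mul] at h
  exact h

include hz hheck in
lemma finEig_slot (p : InfPts L) (u : C.Fib v') (k : ℤ) :
    FinEig (pairKer (A.hL u) k) (fun c => φ (p, c)) (z ^ k + z ^ (-k)) := by
  refine finEig_pairKer (A.hL u) hz (fun c => ?_) k
  have h : ∑' d, (LocKer.hecke (A.hL u)).k (c.1 u.1) d * φ (p, c.update u.1 d) =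
      (z + z⁻¹) * sqv v' * φ (p, c) :=
    (LocKer.tsum_hecke (A.hL u) (fun d => φ (p, c.update u.1 d)) (c.1 u.1)).trans (hheck u (p, c))
  rw [C.sqv_of_split A.split u]
  exact h

/-- The eigenvalue of the finite part of a piece. -/
def pieceEig (z : ℂ) (j : (LKey × (Fin 3 → RKey)) × Finset (Fin 3)) : ℂ :=
  ∏ i, ((z ^ (j.1.2 i).1 (.inl 0) + z ^ (-(j.1.2 i).1 (.inl 0))) *
    (z ^ j.1.1.1 (.inl i) + z ^ (-j.1.1.1 (.inl i))))

include hm hM hrad hz hheck in
/-- A piece on the eigenfunction. -/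
theorem act_piece (j : (A.fam u₀).ι) (x : Space C.UL) :
    ((A.fam u₀).pieceL j).toPtKer.act φ x =
      pieceEig z j * (j.2.card * (shiftT A.ell * shiftT A.ell)) ^ 3 * φ x := by
  classical
  set D := (A.fam u₀).pieceL j
  have hfin : ∀ p : InfPts L, ∑' e, D.kfin x.2 e * φ (p, e) = pieceEig z j * φ (p, x.2) := by
    intro p
    let e : C.Fib v' → ℂ := fun u =>
      (z ^ (j.1.2 ((A.enum u₀).symm u)).1 (.inl 0) +
        z ^ (-(j.1.2 ((A.enum u₀).symm u)).1 (.inl 0))) *
      (z ^ j.1.1.1 (.inl ((A.enum u₀).symm u)) + z ^ (-j.1.1.1 (.inl ((A.enum u₀).symm u))))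
    rw [tsum_kfin_eig (G := fun c => φ (p, c))
      (fun w => if h : C.b w = v' then e ⟨w, h⟩ else 1) D fun w hw => ?_]
    · congr 1
      show ∏ w ∈ TwistCtx.KerPair.above (B := C.B) {v'}, _ = _
      rw [Finset.prod_subtype (TwistCtx.KerPair.above (B := C.B) {v'}) (p := fun w => C.b w = v')
        fun w => TwistCtx.KerPair.mem_above.trans Finset.mem_singleton]
      rw [pieceEig, ← (A.enum u₀).prod_comp]
      refine Finset.prod_congr rfl fun i _ => ?_
      rw [dif_pos ((A.enum u₀ i).2)]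
      simp only [Subtype.coe_eta, e, Equiv.symm_apply_apply]
    · have h : C.b w = v' := Finset.mem_singleton.1 (TwistCtx.KerPair.mem_above.1 hw)
      simp only [dif_pos h, D, Spec.Fam.pieceL, fam, e]
      exact (A.finEig_slot hz hheck p ⟨w, h⟩ _).mul (A.finEig_slot hz hheck p ⟨w, h⟩ _)
  set T := (D.toPtKer.nbr x.2)
  have hi : Integrable (fun y => D.toPtKer.k x y * φ y) (Space.vol C.UL) :=
    D.toPtKer.integrable_row x hm hM
  rw [Space.vol] at hi
  show ∫ y, D.toPtKer.k x y * φ y ∂Space.vol C.UL = _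
  rw [Space.vol, integral_prod _ hi]
  have hin : ∀ p : InfPts L, ∫ e, D.toPtKer.k x (p, e) * φ (p, e) ∂Measure.count =
      D.kinf x.1 p * (pieceEig z j * φ (p, x.2)) := by
    intro p
    rw [← hfin p, ← tsum_mul_left, integral_countable]
    · refine tsum_congr fun e => ?_
      simp only [measureReal_def, Measure.count_singleton, ENNReal.toReal_one, one_smul,
        KerData.toPtKer_k]
      ring
    · rw [integrable_count_iff]
      refine summable_of_hasFiniteSupport ((D.finite_row x.2).subset fun e he => ?_)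
      exact right_ne_zero_of_mul (left_ne_zero_of_mul (norm_ne_zero_iff.1 he))
  simp only [hin, mul_left_comm _ (pieceEig z j), integral_const_mul]
  rw [show ∫ p, D.kinf x.1 p * φ (p, x.2) ∂(Measure.pi fun _ : InfinitePlace L => H3.vol) =
    (j.2.card * (shiftT A.ell * shiftT A.ell)) ^ 3 * φ (x.1, x.2) from
    C.X.integral_prod_kernel (k := (A.fam u₀).k j) (f := fun p => φ (p, x.2))
      (hm.comp (measurable_id.prodMk measurable_const)) (fun p => hM _)
      (fun w y => A.infEig_piece u₀ hm hM hrad w j (y, x.2)) x.1]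
  ring

lemma sum_polSign_cube :
    ∑ I : Finset (Fin 3), (polSign I : ℂ) * ((I.card : ℂ) ^ 3) = 1 := by
  have h := sum_polSign fun _ _ _ => (1 : ℂ)
  simp only [Finset.sum_const, nsmul_eq_mul, mul_one] at h
  rw [show (1 : ℂ) = (1 + 1 + 1 + 1 + 1 + 1) / 6 by norm_num, ← h]
  exact Finset.sum_congr rfl fun I _ => by ring

include hm hM hrad hz hheck in
/-- The family acts by a nonzero number. -/
theorem scalar_fam (h1 : z ^ 3 ≠ 1) : (A.fam u₀).Scalar φ := by
  classical
  set T := shiftT A.ell * shiftT A.ell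
  set SL := ∑ k : LKey, (cL k : ℂ) * ∏ i, (z ^ k.1 (.inl i) + z ^ (-k.1 (.inl i)))
  set SR := ∑ r : RKey, (cR r : ℂ) * (z ^ r.1 (.inl 0) + z ^ (-r.1 (.inl 0)))
  have hz1 : z ≠ 1 := fun h => h1 (by rw [h, one_pow])
  have hinv : z⁻¹ ≠ 1 := fun h => hz1 (inv_eq_one.1 h)
  have hinv3 : (z ^ 3)⁻¹ ≠ 1 := fun h => h1 (inv_eq_one.1 h)
  have hL : SL ≠ 0 := by
    have h := sum_symProd_eig_ne_zero (ιi := Fin 3) z hz (ιf := Fin 3) fun ε => by
      have hs : ∑ i, (ε i : ℤ) = 1 ∨ ∑ i, (ε i : ℤ) = -1 ∨ ∑ i, (ε i : ℤ) = 3 ∨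
          ∑ i, (ε i : ℤ) = -3 := by
        rw [Fin.sum_univ_three]
        rcases Int.units_eq_one_or (ε 0) with h0 | h0 <;>
          rcases Int.units_eq_one_or (ε 1) with h1 | h1 <;>
            rcases Int.units_eq_one_or (ε 2) with h2 | h2 <;> simp [h0, h1, h2]
      rcases hs with e | e | e | e <;> rw [e]
      · simpa using hz1
      · simpa using hinv
      · exact_mod_cast h1
      · rw [show (-3 : ℤ) = -((3 : ℕ) : ℤ) from rfl, _root_.zpow_neg, zpow_natCast]
        exact hinv3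
    rw [← Finset.sum_coe_sort] at h
    exact fun h0 => h (Eq.trans (Finset.sum_congr rfl fun k _ => by simp [cL, ofReal_coeff]) h0)
  have hR : SR ≠ 0 := by
    have h := sum_symProd_eig_ne_zero (ιi := Fin 1) z hz (ιf := Fin 1) fun ε => by
      rw [Fin.sum_univ_one]
      rcases Int.units_eq_one_or (ε 0) with h0 | h0 <;> rw [h0]
      · simpa using hz1
      · simpa using hinv
    rw [← Finset.sum_coe_sort] at h
    exact fun h0 => h (Eq.trans (Finset.sum_congr rfl fun k _ => by simp [cR, ofReal_coeff]) h0)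
  refine ⟨T ^ 3 * (SL * SR ^ 3), mul_ne_zero (pow_ne_zero _ (mul_ne_zero
    (shiftT_ne_zero A.ell_ne) (shiftT_ne_zero A.ell_ne))) (mul_ne_zero hL (pow_ne_zero _ hR)),
    fun x => ?_⟩
  simp only [A.act_piece u₀ hm hM hrad hz hheck, ← mul_assoc, ← Finset.sum_mul]
  congr 1
  have hp : ∀ p : LKey × (Fin 3 → RKey),
      ∑ I, ((A.fam u₀).a (p, I) : ℂ) * pieceEig z (p, I) * ((I.card : ℂ) * shiftT A.ell *
        shiftT A.ell) ^ 3 =
      T ^ 3 * (((cL p.1 : ℂ) * ∏ i, (z ^ p.1.1 (.inl i) + z ^ (-p.1.1 (.inl i)))) *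
        ∏ i, ((cR (p.2 i) : ℂ) * (z ^ (p.2 i).1 (.inl 0) + z ^ (-(p.2 i).1 (.inl 0))))) := by
    intro p
    have hc : ∀ I, ((A.fam u₀).a (p, I) : ℂ) = (cL p.1 * ∏ i, (cR (p.2 i) : ℂ)) * polSign I :=
      fun I => A.fam_a u₀ (p, I)
    calc _ = ((cL p.1 * ∏ i, (cR (p.2 i) : ℂ)) * pieceEig z (p, ∅) * T ^ 3) *
          ∑ I : Finset (Fin 3), (polSign I : ℂ) * ((I.card : ℂ) ^ 3) := by
          rw [Finset.mul_sum]
          refine Finset.sum_congr rfl fun I _ => ?_
          rw [hc, show pieceEig z (p, I) = pieceEig z (p, ∅) from rfl]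
          simp only [T]
          ring
      _ = _ := by
          rw [sum_polSign_cube, mul_one]
          simp only [pieceEig, Finset.prod_mul_distrib]
          ring
  refine (Fintype.sum_prod_type _).trans ?_
  simp only [hp, ← Finset.mul_sum, SL, SR]
  rw [Fintype.sum_prod_type, Fintype.sum_pow]
  simp only [← Finset.mul_sum, ← Finset.sum_mul]
  ring

end Anchor

/-- At an anchored place `v'` whose three places above have Hecke eigenvalue
`(z + z⁻¹) √(N v')` on `φ`, with `z ≠ 0` and `z ^ 3 ≠ 1`, some finite family isolates `φ`. -/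
theorem exists_fam [IsTotallyComplex K] [IsTotallyComplex L] {C : Ctx K L}
    {v' : HeightOneSpectrum (𝓞 K)} (A : Anchor C v') (u₀ : C.Fib v')
    {sL : Set (Space C.UL)} (hsL : IsFundamentalDomain (G2 L) sL (Space.vol C.UL))
    {sK : Set (Space C.UK)} (hsK : IsFundamentalDomain (G2 K) sK (Space.vol C.UK))
    {φ : Space C.UL → ℂ} (hφ : IsEigenFun φ)
    {z : ℂ} (hz : z ≠ 0) (hz3 : z ^ 3 ≠ 1)
    (hheck : ∀ u : C.Fib v', ∀ x, heckeOp u.1 φ x = (z + z⁻¹) * sqv v' * φ x) :
    ∃ F : Spec.Fam C v', F.Isolates u₀ φ :=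
  have ⟨_, hM⟩ := hφ.bdd
  ⟨A.fam u₀, A.bddL u₀ hsL, A.bddK u₀ hsK, A.scalar_fam u₀ hφ.meas hM hφ.radial hz hheck hz3⟩

/-- An anchored place whose places above have Hecke eigenvalue zero on `φ` (the case `z = i`)
carries a family isolating `φ`. -/
theorem exists_fam_of_zero [IsTotallyComplex K] [IsTotallyComplex L] {C : Ctx K L}
    {v' : HeightOneSpectrum (𝓞 K)} (A : Anchor C v') (u₀ : C.Fib v')
    {sL : Set (Space C.UL)} (hsL : IsFundamentalDomain (G2 L) sL (Space.vol C.UL))
    {sK : Set (Space C.UK)} (hsK : IsFundamentalDomain (G2 K) sK (Space.vol C.UK))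
    {φ : Space C.UL → ℂ} (hφ : IsEigenFun φ)
    (hheck : ∀ u : C.Fib v', ∀ x, heckeOp u.1 φ x = 0) :
    ∃ F : Spec.Fam C v', F.Isolates u₀ φ := by
  refine exists_fam A u₀ hsL hsK hφ (z := Complex.I) Complex.I_ne_zero ?_ fun u x => ?_
  · rw [pow_succ, Complex.I_sq]
    intro h
    have := congrArg Complex.re h
    simp at this
  · rw [hheck u x, Complex.inv_I, add_neg_cancel, zero_mul, zero_mul]

end FermatAgent.LT2
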