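import Mathlib
import Fermat.Agent.LT2.Main.Auxiliary
import Fermat.Agent.LT2.Bad.Levels
import Fermat.Agent.LT2.Cusp.Family

/-!
# Auxiliary places with an anchor

For a prime `p ≡ 2 (mod 3)` with `p + 1` divisible enough, `α = -p` generates a split place of norm
`p ^ 2` and is congruent to one to high order at the bad places, so it is an anchor in the sense of
`Anchor`; `Main.exists_anchor` finds such places with vanishing eigenvalue of the representation.
-/

set_option autoImplicit false

noncomputable section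

open scoped Classical
open IsDedekindDomain NumberField WithZero
open scoped MatrixGroups

namespace FermatAgent.LT2

open FermatAgent.LT FermatAgent.LT2.Cusp
open FermatAgent.CFT.Global (PK qOf)

/-- An anchor from a generator that is a unit away from the place and one modulo the levels at the
bad places. -/
def Anchor.ofNear {K L : Type*} [Field K] [NumberField K] [Field L] [NumberField L] [Algebra K L]
    {C : Ctx K L} {v' : HeightOneSpectrum (𝓞 K)} (split : C.IsSplit v') (notMem : v' ∉ C.S)
    (α : Kˣ) (ord : v'.valuation K (α : K) = exp (-1 : ℤ))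
    (abs : C.v (α : K) = √(v'.asIdeal.absNorm : ℝ))
    (unit : ∀ v, v ≠ v' → v.valuation K (α : K) = 1)
    (nK : HeightOneSpectrum (𝓞 K) → ℕ)
    (hnK : ∀ v, ∀ g ∈ locGL v,
      (∀ i j, v.valuation K ((g.val - 1) i j) ≤ exp (-((nK v : ℤ) + 1))) →
      (Matrix.ProjGenLinGroup.mk g : G2 K) ∈ C.UK.loc v)
    (nearK : ∀ v ∈ C.S, v.valuation K ((α : K) - 1) ≤ exp (-((nK v : ℤ) + 1)))
    (nL : HeightOneSpectrum (𝓞 L) → ℕ)
    (hnL : ∀ w, ∀ g ∈ locGL w,
      (∀ i j, w.valuation L ((g.val - 1) i j) ≤ exp (-((nL w : ℤ) + 1))) →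
      (Matrix.ProjGenLinGroup.mk g : G2 L) ∈ C.UL.loc w)
    (nearL : ∀ w, C.b w ∈ C.S →
      w.valuation L (algebraMap K L (α : K) - 1) ≤ exp (-((nL w : ℤ) + 1))) :
    Anchor C v' where
  split := split
  notMem := notMem
  α := α
  ord := ord
  abs := abs
  fixK v hv := by
    by_cases h : v ∈ C.S
    · exact fixesInt_of_near (hnK v) (nearK v h)
    · exact fixesInt_of_val (C.UK_else v h) (unit v hv)
  fixL w hw := by
    by_cases h : C.b w ∈ C.S
    · exact fixesInt_of_near (hnL w) (nearL w h)
    · exact fixesInt_of_val (C.UL_else w h) (((C.toSetup.pair w).eq_one_iff _).2 (unit _ hw))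

namespace Main

variable (R : Fields.GRep) (T : Finset ℕ)

/-- **The auxiliary place with its anchor.**  Outside any finite set there is a place with an anchor
at which the eigenvalue of the representation below is zero. -/
theorem exists_anchor (C : Ctx R.Kf R.Lf) (hτ : C.τ = R.tau) (hb : C.b = R.bK)
    (hCS : C.S ⊆ R.badK T)
    (avoid : Finset (HeightOneSpectrum (𝓞 R.Kf))) :
    ∃ v, Nonempty (Anchor C v) ∧ v ∉ avoid ∧ R.eigK v = 0 := by
  have congrL := C.congrL
  have congrK := C.congrK
  choose nL hnL using id congrL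
  choose nK hnK using id congrK
  set a := ∏ u ∈ R.badK T, qOf u ^ (nK u + 1)
  set c := ∏ w ∈ R.badL T, qOf w ^ (nL w + 1)
  have hm : a * c ≠ 0 := mul_ne_zero
    (Finset.prod_ne_zero_iff.2 fun u _ => pow_ne_zero _ (Fact.out : (qOf u).Prime).ne_zero)
    (Finset.prod_ne_zero_iff.2 fun u _ => pow_ne_zero _ (Fact.out : (qOf u).Prime).ne_zero)
  obtain ⟨p, v, α, hp, -, -, hmp, hα, -, hN, hord, hunit, hS, hav, hsplit, hc, -, -⟩ :=
    exists_aux_place R T congrL congrK (a * c) hm avoid
  refine ⟨v, ⟨Anchor.ofNear (C := C)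
    (fun w hw => by rw [hb] at hw; rw [hτ]; exact hsplit w hw) (fun h => hS (hCS h)) α hord ?_
    hunit nK hnK (fun u hu => ?_) nL hnL fun w hw => ?_⟩, hav, hc⟩
  · rw [hN, Nat.cast_pow, Real.sqrt_sq (Nat.cast_nonneg p), hα,
      ← InfinitePlace.norm_embedding_eq, map_neg, norm_neg, map_natCast, Complex.norm_natCast]
  · rw [hα, show -(p : R.Kf) - 1 = -((p + 1 : ℕ) : R.Kf) by push_cast; ring, Valuation.map_neg]
    exact_mod_cast val_natCast_le u ((Dvd.dvd.mul_right (Finset.dvd_prod_of_mem
      (fun u => qOf u ^ (nK u + 1)) (hCS hu)) c).trans hmp)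
  · rw [hα, map_neg, map_natCast, show -(p : R.Lf) - 1 = -((p + 1 : ℕ) : R.Lf) by push_cast; ring,
      Valuation.map_neg]
    exact_mod_cast val_natCast_le w ((Dvd.dvd.mul_left (Finset.dvd_prod_of_mem
      (fun u => qOf u ^ (nL u + 1)) ((R.mem_badL T).2 (by rw [hb] at hw; exact hCS hw))) a).trans
        hmp)

end Main

end FermatAgent.LT2
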